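import Fermat.Agent.SSMod.GaussN
import Fermat.Agent.Models.Residue
import Fermat.Agent.HeckeQ.Frob

/-!
# The two components of `X₀(qM)` modulo `q`
-/

set_option autoImplicit false
set_option linter.unusedSectionVars false
set_option linter.style.haveILetI false
set_option linter.unusedVariables false

noncomputable section

namespace Fermat.Agent.SSMod

open ModularCurve Fermat.Agent.GoodRed Fermat.Agent.Models Fermat.Agent.ModFun
open Fermat.Agent.GenusX0 Fermat.Agent.Curves Fermat.Agent.AnJac AlgebraicCurve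

local notation "ℒ" => LaurentSeries

section AB

variable (K : Type*) [Field K] (q M : ℕ) [NeZero q] [NeZero M]

variable {M} in
theorem mem_up {x : ℒ K} (hx : x ∈ modularFunctionFieldFullC K M) :
    x ∈ modularFunctionFieldFullC K (q * M) :=
  full_degeneracyC_le K (dvd_mul_left M q) hx

/-- the first degeneracy embedding -/
def alpha : modularFunctionFieldFullC K M →ₐ[K] modularFunctionFieldFullC K (q * M) where
  toFun x := ⟨(x : ℒ K), mem_up K q x.2⟩
  map_one' := rfl
  map_mul' x y := rfl
  map_zero' := rfl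
  map_add' x y := rfl
  commutes' c := rfl

variable {K q M} in
theorem alpha_apply (x : modularFunctionFieldFullC K M) :
    alpha K q M x = ⟨(x : ℒ K), mem_up K q x.2⟩ := rfl

variable {K q M} in
theorem coe_alpha (x : modularFunctionFieldFullC K M) : (alpha K q M x : ℒ K) = x :=
  Subtype.coe_mk (x : ℒ K) (mem_up K q x.2)

theorem qExpand_genx (d : ℕ) (hd : d ≠ 0) :
    qExpand K q (genx K d hd) = genx K (q * d) (mul_ne_zero (NeZero.ne q) hd) := by
  haveI : NeZero d := ⟨hd⟩
  haveI : NeZero (q * d) := ⟨mul_ne_zero (NeZero.ne q) hd⟩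
  rw [genx, genx, qExpand_qExpand]

variable {M} in
theorem qExpand_mem {x : ℒ K} (hx : x ∈ modularFunctionFieldFullC K M) :
    qExpand K q x ∈ modularFunctionFieldFullC K (q * M) := by
  induction hx using IntermediateField.adjoin_induction with
  | mem y hy =>
    obtain ⟨d, ⟨hd⟩, hdN, rfl⟩ := hy
    have h := qExpand_genx K q d hd
    rw [genx] at h
    rw [h]
    exact IntermediateField.subset_adjoin K _ ⟨q * d, ⟨mul_ne_zero (NeZero.ne q) hd⟩,
      mul_dvd_mul_left q hdN, rfl⟩
  | algebraMap c =>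
    rw [← ModFun.C_eq_algebraMap, qExpand_C, ModFun.C_eq_algebraMap]
    exact IntermediateField.algebraMap_mem _ _
  | add y y' _ _ h h' => rw [map_add]; exact add_mem h h'
  | mul y y' _ _ h h' => rw [map_mul]; exact mul_mem h h'
  | inv y _ h => rw [map_inv₀]; exact inv_mem h

/-- the second degeneracy embedding `f(T) ↦ f(T^q)` -/
def beta : modularFunctionFieldFullC K M →ₐ[K] modularFunctionFieldFullC K (q * M) where
  toFun x := ⟨qExpand K q (x : ℒ K), qExpand_mem K q x.2⟩
  map_one' := Subtype.ext (map_one (qExpand K q))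
  map_mul' x y := Subtype.ext (map_mul (qExpand K q) (x : ℒ K) (y : ℒ K))
  map_zero' := Subtype.ext (map_zero (qExpand K q))
  map_add' x y := Subtype.ext (map_add (qExpand K q) (x : ℒ K) (y : ℒ K))
  commutes' c := Subtype.ext (by
    show qExpand K q (algebraMap K (ℒ K) c) = algebraMap K (ℒ K) c
    rw [← ModFun.C_eq_algebraMap, qExpand_C])

variable {K q M}

theorem coe_beta (x : modularFunctionFieldFullC K M) :
    (beta K q M x : ℒ K) = qExpand K q (x : ℒ K) := rfl

variable (ι : K →+* ℂ) (hqM : Nat.Coprime q M)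

theorem al_alpha (x : modularFunctionFieldFullC K M) :
    al ι hqM (alpha K q M x) = beta K q M x := by
  have h : (al ι hqM).toRingHom.comp (alpha K q M).toRingHom = (beta K q M).toRingHom := by
    apply ringHom_ext_gj
    · intro c
      show al ι hqM (alpha K q M _) = beta K q M _
      rw [AlgHom.commutes, AlgHom.commutes, al_const]
    · intro d h0 hd
      show al ι hqM (gj K d h0 (hd.mul_left q)) = beta K q M _
      rw [al_gj]
      apply Subtype.ext
      rw [coe_beta]
      show genx K (swapDiv q M d) (swapDiv_ne_zero hqM (hd.mul_left q)) =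
        qExpand K q (genx K d h0)
      rw [qExpand_genx]
      apply genx_congr
      have h1 := swapDiv_mul hqM (one_dvd q) hd
      rwa [one_mul, Nat.div_one] at h1
  exact DFunLike.congr_fun h x

theorem al_beta (x : modularFunctionFieldFullC K M) :
    al ι hqM (beta K q M x) = alpha K q M x := by
  rw [← al_alpha ι hqM, al_al]

end AB

variable {K κ : Type*} [Field K] [Field κ] {A : ValuationSubring K} {π : A →+* κ}
  {q M : ℕ} [NeZero M]

theorem LR_qExpand [NeZero q] {x : ℒ K} {y : ℒ κ} (h : LR π x y) :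
    LR π (qExpand K q x) (qExpand κ q y) := by
  obtain ⟨f, g, hg, h1, h2⟩ := h
  refine ⟨qExpand A q f, qExpand A q g, ?_, ?_, ?_⟩
  · rw [coeffMap_qExpand]
    exact (map_ne_zero_iff _ (qExpand_injective q)).mpr hg
  · rw [coeffMap_qExpand, coeffMap_qExpand, ← map_mul, h1]
  · rw [coeffMap_qExpand, coeffMap_qExpand, ← map_mul, h2]

section Pull

variable {k κ' F 𝓕 : Type*} [Field k] [Field κ'] {B : Res k κ'} [Field F] [Field 𝓕]
  [Algebra k F] [Algebra κ' 𝓕]

/-- the map on valuation rings -/
def pullHom (O : ValuationSubring F) (w : F ≃+* F) : O.comap (w : F →+* F) →+* O where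
  toFun x := ⟨w x, x.2⟩
  map_one' := Subtype.ext (map_one w)
  map_mul' x y := Subtype.ext (map_mul w (x : F) (y : F))
  map_zero' := Subtype.ext (map_zero w)
  map_add' x y := Subtype.ext (map_add w (x : F) (y : F))

/-- transport of a residue map along an automorphism -/
def pullRes (C : Res F 𝓕) (w : F ≃+* F) : Res F 𝓕 where
  O := C.O.comap (w : F →+* F)
  res := C.res.comp (pullHom C.O w)
  res_surjective y := by
    obtain ⟨x, rfl⟩ := C.res_surjective y
    have hx : w (w.symm (x : F)) ∈ C.O := by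
      rw [w.apply_symm_apply]; exact x.2
    refine ⟨⟨w.symm x, hx⟩, ?_⟩
    rw [RingHom.comp_apply]
    congr 1
    exact Subtype.ext (w.apply_symm_apply (x : F))
  res_ne_zero_iff x := by
    rw [RingHom.comp_apply, C.res_ne_zero_iff]
    show w x ≠ 0 ∧ (w x)⁻¹ ∈ C.O ↔ (x : F) ≠ 0 ∧ w (x : F)⁻¹ ∈ C.O
    rw [map_inv₀, map_ne_zero_iff _ w.injective]

theorem mem_pullRes {C : Res F 𝓕} {w : F ≃+* F} {x : F} :
    x ∈ (pullRes C w).O ↔ w x ∈ C.O := Iff.rfl

theorem pullRes_r {C : Res F 𝓕} {w : F ≃+* F} (x : F) : (pullRes C w).r x = C.r (w x) := by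
  by_cases h : w x ∈ C.O
  · rw [Res.r_of_mem h, Res.r_of_mem (C := pullRes C w) (x := x) h]
    rfl
  · rw [Res.r, dif_neg (show x ∉ (pullRes C w).O from h), Res.r, dif_neg h]

/-- transport of a component along an automorphism -/
def pullComp (C : Comp B F 𝓕) (w : F ≃+* F) (hw : ∀ c, w (algebraMap k F c) = algebraMap k F c) :
    Comp B F 𝓕 where
  toRes := pullRes C.toRes w
  algebraMap_mem a ha := by
    rw [mem_pullRes, hw]
    exact C.algebraMap_mem a ha
  r_algebraMap a ha := by
    rw [pullRes_r, hw, C.r_algebraMap a ha]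
  exists_scale f hf := by
    obtain ⟨c, hc, h⟩ := C.exists_scale (w f) ((map_ne_zero_iff _ w.injective).mpr hf)
    refine ⟨c, hc, ?_⟩
    rw [pullRes_r, map_mul, hw]
    exact h

theorem mem_pullComp {C : Comp B F 𝓕} {w : F ≃+* F}
    {hw : ∀ c, w (algebraMap k F c) = algebraMap k F c} {x : F} :
    x ∈ (pullComp C w hw).O ↔ w x ∈ C.O := Iff.rfl

theorem pullComp_r {C : Comp B F 𝓕} {w : F ≃+* F}
    {hw : ∀ c, w (algebraMap k F c) = algebraMap k F c} (x : F) :
    (pullComp C w hw).r x = C.r (w x) := pullRes_r x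

end Pull

section Two

variable [IsLocalHom π] (hπ : Function.Surjective π) [hq : Fact q.Prime] [CharP κ q]
  (ι : K →+* ℂ) (hqM : Nat.Coprime q M) (E : IntermediateField κ (ℒ κ))
  (hE : E = @resField K κ _ _ A π q hq ‹_› hπ (q * M))

/-- the Gauss component of the function field of level `qM` -/
def gComp : Comp (baseRes π hπ) (modularFunctionFieldFullC K (q * M)) E :=
  lrComp hπ (modularFunctionFieldFullC K (q * M)) E
      (fun x hx y h => by rw [hE]; exact ⟨x, hx, h⟩) (fun y hy => by rw [hE] at hy; exact hy)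
      (scale_full q (q * M))

variable {hπ E} in
theorem gComp_r_eq {x : modularFunctionFieldFullC K (q * M)} {y : E}
    (h : LR π (x : ℒ K) (y : ℒ κ)) :
    x ∈ (gComp hπ E hE).O ∧ (gComp hπ E hE).r x = y :=
  lrComp_r_eq hπ (modularFunctionFieldFullC K (q * M)) E
      (fun x hx y h => by rw [hE]; exact ⟨x, hx, h⟩) (fun y hy => by rw [hE] at hy; exact hy)
      (scale_full q (q * M)) h

variable {hπ E} in
theorem gComp_spec {x : modularFunctionFieldFullC K (q * M)} (hx : x ∈ (gComp hπ E hE).O) :
    LR π (x : ℒ K) ((gComp hπ E hE).r x : ℒ κ) :=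
  lrComp_spec hπ (modularFunctionFieldFullC K (q * M)) E
      (fun x hx y h => by rw [hE]; exact ⟨x, hx, h⟩) (fun y hy => by rw [hE] at hy; exact hy)
      (scale_full q (q * M)) hx

variable [NeZero q]

/-- the two components -/
def two : Bool → Comp (baseRes π hπ) (modularFunctionFieldFullC K (q * M)) E
  | true => gComp hπ E hE
  | false => pullComp (gComp hπ E hE) (al ι hqM) (al_const ι hqM)

variable {hπ E}

theorem two_true : two hπ ι hqM E hE true = gComp hπ E hE := rfl

theorem two_false : two hπ ι hqM E hE false =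
    pullComp (gComp hπ E hE) (al ι hqM) (al_const ι hqM) := rfl

theorem two_true_r {x : modularFunctionFieldFullC K (q * M)} {y : E}
    (h : LR π (x : ℒ K) (y : ℒ κ)) :
    x ∈ (two hπ ι hqM E hE true).O ∧ (two hπ ι hqM E hE true).r x = y :=
  gComp_r_eq hE h

theorem two_false_r {x : modularFunctionFieldFullC K (q * M)} {y : E}
    (h : LR π ((al ι hqM x : modularFunctionFieldFullC K (q * M)) : ℒ K) (y : ℒ κ)) :
    x ∈ (two hπ ι hqM E hE false).O ∧ (two hπ ι hqM E hE false).r x = y := by
  have h1 := gComp_r_eq hE h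
  rw [two_false, pullComp_r, mem_pullComp]
  exact h1

theorem two_true_spec {x : modularFunctionFieldFullC K (q * M)}
    (hx : x ∈ (two hπ ι hqM E hE true).O) :
    LR π (x : ℒ K) ((two hπ ι hqM E hE true).r x : ℒ κ) :=
  gComp_spec hE hx

theorem two_false_spec {x : modularFunctionFieldFullC K (q * M)}
    (hx : x ∈ (two hπ ι hqM E hE false).O) :
    LR π ((al ι hqM x : modularFunctionFieldFullC K (q * M)) : ℒ K)
      ((two hπ ι hqM E hE false).r x : ℒ κ) := by
  rw [two_false, mem_pullComp] at hx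
  rw [two_false, pullComp_r]
  exact gComp_spec hE hx

/-- the two components are exchanged by the Atkin–Lehner automorphism -/
theorem two_mem_al (b : Bool) (x : modularFunctionFieldFullC K (q * M)) :
    al ι hqM x ∈ (two hπ ι hqM E hE b).O ↔ x ∈ (two hπ ι hqM E hE (!b)).O := by
  cases b
  · rw [two_false, mem_pullComp, al_al, Bool.not_false, two_true]
  · rw [Bool.not_true, two_false, mem_pullComp, two_true]

theorem two_r_al (b : Bool) (x : modularFunctionFieldFullC K (q * M)) :
    (two hπ ι hqM E hE b).r (al ι hqM x) = (two hπ ι hqM E hE (!b)).r x := by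
  cases b
  · rw [two_false, pullComp_r, al_al, Bool.not_false, two_true]
  · rw [Bool.not_true, two_false, pullComp_r, two_true]

/-- `f^q = f(T^q)` for series with integral coefficients -/
theorem genx_pow_char (d : ℕ) (h : d ≠ 0) :
    genx κ d h ^ q = qExpand κ q (genx κ d h) := by
  rw [HeckeQ.laurent_pow_char q]
  congr 1
  haveI : NeZero d := ⟨h⟩
  exact coeffMap_jqNModC (f := frobenius κ q) d

theorem jqModC_pow_char : jqModC κ ^ q = qExpand κ q (jqModC κ) := by
  rw [HeckeQ.laurent_pow_char q, coeffMap_jqModC]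

/-- a function separating the components -/
theorem exists_sep : ∃ x : modularFunctionFieldFullC K (q * M),
    (two hπ ι hqM E hE true).r x ≠ 0 ∧ x ∈ (two hπ ι hqM E hE false).O ∧
      (two hπ ι hqM E hE false).r x = 0 := by
  let j : modularFunctionFieldFullC K M := je K M
  let x := alpha K q M j - (beta K q M j) ^ q
  have hj : LR π (j : ℒ K) (jqModC κ) := LR_jq π
  have hj' : LR π (qExpand K q (j : ℒ K)) (qExpand κ q (jqModC κ)) := LR_qExpand hj
  have h1 : LR π (x : ℒ K) (jqModC κ - (qExpand κ q (jqModC κ)) ^ q) :=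
    LR.sub hj (LR.pow hj' q)
  have hmem : jqModC κ - (qExpand κ q (jqModC κ)) ^ q ∈ E := by
    rw [hE]; exact ⟨x, x.2, h1⟩
  have hne : jqModC κ - (qExpand κ q (jqModC κ)) ^ q ≠ 0 := by
    intro h
    have h2 := congrArg (fun z => HahnSeries.coeff z (-1)) h
    simp only [HahnSeries.coeff_sub, HahnSeries.coeff_zero] at h2
    rw [coeff_jqModC_neg_one, ← map_pow, qExpand_coeff_of_not_dvd] at h2
    · rw [sub_zero] at h2
      exact one_ne_zero h2
    · intro h3
      have h4 : (q : ℤ) ∣ 1 := (dvd_neg (a := (q : ℤ)) (b := 1)).mp h3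
      have h5 : q ∣ 1 := by exact_mod_cast h4
      exact hq.out.one_lt.ne' (Nat.dvd_one.mp h5)
  have h2 : LR π ((al ι hqM x : modularFunctionFieldFullC K (q * M)) : ℒ K) ((0 : E) : ℒ κ) := by
    have e : al ι hqM x = beta K q M j - (alpha K q M j) ^ q := by
      rw [map_sub, map_pow, al_alpha, al_beta]
    rw [e]
    have h3 : LR π ((beta K q M j - (alpha K q M j) ^ q : modularFunctionFieldFullC K (q * M)) :
        ℒ K) (qExpand κ q (jqModC κ) - jqModC κ ^ q) := LR.sub hj' (LR.pow hj q)
    rw [jqModC_pow_char, sub_self] at h3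
    exact h3
  refine ⟨x, ?_, two_false_r ι hqM hE h2⟩
  rw [(two_true_r ι hqM hE (y := ⟨_, hmem⟩) h1).2]
  exact fun h => hne (congrArg Subtype.val h)

theorem two_incomp : Incomp (two hπ ι hqM E hE) := by
  obtain ⟨x, hx1, hx2, hx3⟩ := exists_sep ι hqM hE
  have hx0 : x ≠ 0 := Res.ne_zero_of_r hx1
  have h1 : x⁻¹ ∈ (two hπ ι hqM E hE true).O := Res.inv_mem_of_r hx1
  have h2 : x⁻¹ ∉ (two hπ ι hqM E hE false).O := Res.inv_notMem hx0 hx3 hx2
  intro i j hij
  cases i <;> cases j
  · exact absurd rfl hij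
  · refine ⟨al ι hqM x⁻¹, ?_, ?_⟩
    · rw [two_mem_al]; exact h1
    · rw [two_mem_al]; exact h2
  · exact ⟨x⁻¹, h1, h2⟩
  · exact absurd rfl hij

end Two

end Fermat.Agent.SSMod
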