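import Fermat.Agent.SSMod.K0
import Fermat.Agent.Models.SS
import Fermat.Agent.HeckeQ.Red

/-!
# The base residue map
-/

set_option autoImplicit false
set_option linter.unusedSectionVars false
set_option linter.style.haveILetI false

noncomputable section

namespace Fermat.Agent.SSMod

open Polynomial Fermat.Agent.Models

variable {K κ : Type*} [Field K] [Field κ] {A : ValuationSubring K}

/-- the residue map of a valuation ring with given residue field -/
def baseRes (π : A →+* κ) [IsLocalHom π] (hπ : Function.Surjective π) : Res K κ where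
  O := A
  res := π
  res_surjective := hπ
  res_ne_zero_iff x := by
    constructor
    · intro h
      have hu : IsUnit x := (isUnit_map_iff π x).mp (isUnit_iff_ne_zero.mpr h)
      obtain ⟨y, hy⟩ := hu.exists_right_inv
      have hxy : (x : K) * y = 1 := congrArg Subtype.val hy
      refine ⟨left_ne_zero_of_mul_eq_one hxy, ?_⟩
      rw [← eq_inv_of_mul_eq_one_right hxy]
      exact y.2
    · rintro ⟨h0, h⟩
      have : x * ⟨(x : K)⁻¹, h⟩ = 1 := Subtype.ext (mul_inv_cancel₀ h0)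
      exact ((IsUnit.of_mul_eq_one _ this).map π).ne_zero

variable (π : A →+* κ) [IsLocalHom π] (hπ : Function.Surjective π)

theorem baseRes_O : (baseRes π hπ).O = A := rfl

theorem baseRes_r {a : K} (ha : a ∈ A) : (baseRes π hπ).r a = π ⟨a, ha⟩ :=
  Res.r_of_mem (C := baseRes π hπ) ha

theorem baseRes_r' (a : A) : (baseRes π hπ).r (a : K) = π a := baseRes_r π hπ a.2

theorem baseRes_ne_zero_iff {a : K} : (baseRes π hπ).r a ≠ 0 ↔ A.valuation a = 1 := by
  constructor
  · intro h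
    have ha : a ∈ A := Res.mem_of_r_ne_zero h
    rw [baseRes_r π hπ ha] at h
    exact (A.valuation_eq_one_iff ⟨a, ha⟩).mp
      ((isUnit_map_iff π _).mp (isUnit_iff_ne_zero.mpr h))
  · intro h
    have ha : a ∈ A := (A.valuation_le_one_iff a).mp h.le
    rw [baseRes_r π hπ ha]
    exact (((A.valuation_eq_one_iff ⟨a, ha⟩).mpr h).map π).ne_zero

theorem baseRes_eq_zero_iff {a : K} (ha : a ∈ A) :
    (baseRes π hπ).r a = 0 ↔ A.valuation a < 1 := by
  have h := baseRes_ne_zero_iff π hπ (a := a)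
  constructor
  · intro h0
    exact lt_of_le_of_ne ((A.valuation_le_one_iff a).mpr ha) fun h1 => h.mpr h1 h0
  · intro h1
    by_contra h2
    exact h1.ne (h.mp h2)

theorem baseRes_rankOne (hr : GoodRed.RankOne π) : (baseRes π hπ).RankOne := by
  intro a ha ha0 b
  rw [baseRes_r π hπ ha] at ha0
  rcases eq_or_ne a 0 with h | h
  · exact ⟨1, by rw [h, pow_one, zero_mul]; exact ⟨zero_mem _, Res.r_zero⟩⟩
  · obtain ⟨n, hn⟩ := hr ⟨a, ha⟩ (fun h' => h (congrArg Subtype.val h')) ha0 b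
    refine ⟨n + 1, ?_, ?_⟩
    · rw [pow_succ, mul_right_comm]
      exact mul_mem hn ha
    · rw [pow_succ, mul_right_comm, Res.r_mul (C := baseRes π hπ) hn ha, baseRes_r π hπ ha, ha0,
        mul_zero]

theorem exists_val_pow [CharZero K] [Algebra.IsAlgebraic ℤ K] {q : ℕ} (hq : q.Prime)
    (hA : A.LiesOverPrime q) {a : K} (ha : a ≠ 0) :
    ∃ m : ℕ, 0 < m ∧ ∃ n : ℤ, A.valuation a ^ m = A.valuation (q : K) ^ n := by
  obtain ⟨p, hp0, hp⟩ := Algebra.IsAlgebraic.isAlgebraic (R := ℤ) a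
  have hterm0 : ∀ i, p.coeff i ≠ 0 → ((p.coeff i : ℤ) : K) * a ^ i ≠ 0 := fun i hi =>
    mul_ne_zero (by exact_mod_cast hi) (pow_ne_zero _ ha)
  have hsum : ∑ i ∈ p.support, ((p.coeff i : ℤ) : K) * a ^ i = 0 := by
    have h1 : ∑ i ∈ p.support, ((p.coeff i : ℤ) : K) * a ^ i =
        ∑ i ∈ Finset.range (p.natDegree + 1), ((p.coeff i : ℤ) : K) * a ^ i := by
      refine Finset.sum_subset supp_subset_range_natDegree_succ fun i _ hi => ?_
      rw [notMem_support_iff.mp hi, Int.cast_zero, zero_mul]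
    rw [h1, ← hp, aeval_eq_sum_range]
    exact Finset.sum_congr rfl fun i _ => by rw [zsmul_eq_mul]
  obtain ⟨i₀, hi₀, hmax⟩ := Finset.exists_max_image p.support
    (fun i => A.valuation (((p.coeff i : ℤ) : K) * a ^ i)) (support_nonempty.mpr hp0)
  obtain ⟨j, hj, hji, hjv⟩ : ∃ j ∈ p.support, j ≠ i₀ ∧
      A.valuation (((p.coeff j : ℤ) : K) * a ^ j) =
        A.valuation (((p.coeff i₀ : ℤ) : K) * a ^ i₀) := by
    by_contra! hcon
    have hlt : ∀ j ∈ p.support.erase i₀, A.valuation (((p.coeff j : ℤ) : K) * a ^ j) <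
        A.valuation (((p.coeff i₀ : ℤ) : K) * a ^ i₀) := fun j hj =>
      lt_of_le_of_ne (hmax j (Finset.mem_of_mem_erase hj))
        (hcon j (Finset.mem_of_mem_erase hj) (Finset.ne_of_mem_erase hj))
    have h1 := A.valuation.map_sum_lt ((A.valuation.ne_zero_iff).mpr
      (hterm0 i₀ (mem_support_iff.mp hi₀))) hlt
    rw [← Finset.add_sum_erase _ _ hi₀, add_comm, ← eq_neg_iff_add_eq_zero] at hsum
    rw [hsum, Valuation.map_neg] at h1
    exact lt_irrefl _ h1
  have hv : ∀ i ∈ p.support, ∃ n : ℤ, A.valuation ((p.coeff i : ℤ) : K) =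
      A.valuation (q : K) ^ n := by
    intro i hi
    exact unram_bot hq hA _ ⟨((p.coeff i : ℤ) : ℚ), by simp⟩
      (by exact_mod_cast mem_support_iff.mp hi)
  have hq0 : A.valuation (q : K) ≠ 0 := by
    rw [Valuation.ne_zero_iff]
    exact_mod_cast hq.ne_zero
  have hva : A.valuation a ≠ 0 := (Valuation.ne_zero_iff _).mpr ha
  have key : ∀ i ∈ p.support, ∀ j ∈ p.support, i < j →
      A.valuation (((p.coeff j : ℤ) : K) * a ^ j) = A.valuation (((p.coeff i : ℤ) : K) * a ^ i) →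
      ∃ m : ℕ, 0 < m ∧ ∃ n : ℤ, A.valuation a ^ m = A.valuation (q : K) ^ n := by
    intro i hi j hj hij hv'
    obtain ⟨ni, hni⟩ := hv i hi
    obtain ⟨nj, hnj⟩ := hv j hj
    refine ⟨j - i, by omega, ni - nj, ?_⟩
    rw [map_mul, map_mul, map_pow, map_pow, hni, hnj] at hv'
    have h1 : A.valuation a ^ j = A.valuation a ^ (j - i) * A.valuation a ^ i := by
      rw [← pow_add, Nat.sub_add_cancel hij.le]
    rw [h1, ← mul_assoc] at hv'
    have h2 := mul_right_cancel₀ (pow_ne_zero _ hva) hv'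
    rw [zpow_sub₀ hq0, ← h2, mul_comm, mul_div_cancel_right₀ _ (zpow_ne_zero _ hq0)]
  rcases lt_or_gt_of_ne hji with h | h
  · exact key j hj i₀ hi₀ h hjv.symm
  · exact key i₀ hi₀ j hj h hjv

theorem baseRes_commens [CharZero K] [Algebra.IsAlgebraic ℤ K] {q : ℕ} (hq : q.Prime)
    (hA : A.LiesOverPrime q) : (baseRes π hπ).Commens := by
  intro a b ha hb haO hbO har hbr
  rw [baseRes_eq_zero_iff π hπ haO] at har
  rw [baseRes_eq_zero_iff π hπ hbO] at hbr
  obtain ⟨m, hm, n, h⟩ := exists_val_pow hq hA ha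
  obtain ⟨m', hm', n', h'⟩ := exists_val_pow hq hA hb
  have hq0 : A.valuation (q : K) ≠ 0 := by
    rw [Valuation.ne_zero_iff]
    exact_mod_cast hq.ne_zero
  have hq1 : A.valuation (q : K) ≤ 1 := (A.valuation_le_one_iff _).mpr (natCast_mem A q)
  have hpos : ∀ {c : K} {m : ℕ} {n : ℤ}, A.valuation c < 1 → 0 < m →
      A.valuation c ^ m = A.valuation (q : K) ^ n → 0 < n := by
    intro c m n hc hm h
    by_contra hn
    have h1 : A.valuation c ^ m < 1 := pow_lt_one₀ zero_le hc hm.ne'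
    rw [h] at h1
    have h2 : (1 : A.ValueGroup) ≤ A.valuation (q : K) ^ n := by
      obtain ⟨k, hk⟩ : ∃ k : ℕ, n = -k := ⟨n.natAbs, by omega⟩
      rw [hk, zpow_neg, zpow_natCast]
      exact (one_le_inv₀ (pow_pos (zero_lt_iff.mpr hq0) k)).mpr (pow_le_one₀ zero_le hq1)
    exact absurd h1 (not_lt.mpr h2)
  have hn := hpos har hm h
  have hn' := hpos hbr hm' h'
  obtain ⟨k, rfl⟩ := Int.eq_ofNat_of_zero_le hn.le
  obtain ⟨k', rfl⟩ := Int.eq_ofNat_of_zero_le hn'.le
  have hk' : 0 < k' := by exact_mod_cast hn'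
  refine ⟨m * k', m' * k, mul_pos hm hk', ?_⟩
  rw [baseRes_ne_zero_iff, map_div₀, map_pow, map_pow, pow_mul, h, pow_mul, h']
  rw [zpow_natCast, zpow_natCast, ← pow_mul, ← pow_mul, mul_comm k' k]
  exact div_self (pow_ne_zero _ hq0)

end Fermat.Agent.SSMod
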