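import Fermat.Agent.SSMod.S34Core
import Fermat.Agent.Carayol.JChart

/-!
# The lifting property of the `j`-charts in residue characteristic `2` and `3`
-/

set_option autoImplicit false
set_option maxHeartbeats 400000
set_option synthInstance.maxHeartbeats 400000

namespace Fermat.Agent.SSMod

open IsLocalRing Fermat.Agent.AnJac Fermat.Agent.HeckeQ

local notation "Qbar" => AlgebraicClosure ℚ

theorem jl23 : JL23 := by
  rintro q A hA M _ (⟨rfl, h3, h2⟩ | ⟨rfl, h2, h3⟩)
  · have hq : Nat.Prime 2 := Nat.prime_two
    haveI : Fact (Nat.Prime 2) := ⟨hq⟩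
    haveI := FrobDens.charP_residueField A hq hA
    have hNK : (M : Qbar) ≠ 0 := by exact_mod_cast NeZero.ne M
    have hNκ : (M : ResidueField A) ≠ 0 := by
      rw [Ne, CharP.cast_eq_zero_iff _ 2]
      exact h2
    exact jLift_of_good residue_surjective hNK hNκ
      (Carayol.jGood_two (residue A) M ιQ residue_surjective hNK hNκ h3)
  · have hq : Nat.Prime 3 := Nat.prime_three
    haveI : Fact (Nat.Prime 3) := ⟨hq⟩
    haveI := FrobDens.charP_residueField A hq hA
    have hNK : (M : Qbar) ≠ 0 := by exact_mod_cast NeZero.ne M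
    have hNκ : (M : ResidueField A) ≠ 0 := by
      rw [Ne, CharP.cast_eq_zero_iff _ 3]
      exact h3
    exact jLift_of_good residue_surjective hNK hNκ
      (Carayol.jGood_three (residue A) M ιQ residue_surjective hNK hNκ h2)

end Fermat.Agent.SSMod
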