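import Fermat.Agent.SSMod.Base
import Fermat.Agent.Carayol.Inertia
import Fermat.Agent.GalRep.Cyclo

/-!
# The value lemma: inertia detects the value modulo `n`
-/

set_option autoImplicit false
set_option linter.unusedSectionVars false
set_option linter.style.haveILetI false

noncomputable section

namespace Fermat.Agent.SSMod

open Fermat.Agent.Carayol Fermat.Agent.Models

variable {A : ValuationSubring Qb} {q : ℕ}

/-- If inertia acts on `b` trivially modulo the maximal ideal, then the value of `b` is an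
integral multiple (away from `q`) of that of `q`. -/
theorem value_lemma (hq : q.Prime) (hA : A.LiesOverPrime q) {n : ℕ} (hn : ¬ q ∣ n) {b : Qb}
    (hb : b ≠ 0)
    (h : ∀ σ ∈ A.inertiaSubgroupIn ℚ, A.valuation (σ b / b - 1) < 1) {m : ℤ}
    (hm : A.valuation (b ^ n * (q : Qb) ^ m) = 1) : (n : ℤ) ∣ m := by
  have hn0 : n ≠ 0 := fun h0 => hn (h0 ▸ dvd_zero q)
  have hq0 : (q : Qb) ≠ 0 := by exact_mod_cast hq.ne_zero
  obtain ⟨β, hβ⟩ := IsAlgClosed.exists_pow_nat_eq (q : Qb) (Nat.pos_of_ne_zero hn0)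
  have hβ0 : β ≠ 0 := by
    rintro rfl
    rw [zero_pow hn0] at hβ
    exact hq0 hβ.symm
  have hvq0 : A.valuation (q : Qb) ≠ 0 := (Valuation.ne_zero_iff _).mpr hq0
  have hvq1 : A.valuation (q : Qb) < 1 := by
    have h1 : (q : Qb) ∈ A.nonunits := hA
    exact (ValuationSubring.mem_nonunits_iff A).mp h1
  have hx0 : β ^ m ≠ 0 := zpow_ne_zero _ hβ0
  -- `β ^ m` is fixed by inertia
  have hfix : β ^ m ∈ K0 A := by
    rw [mem_K0]
    intro σ hσ
    obtain ⟨hσA, hσ1⟩ := (mem_inertia_iff A σ).mp hσ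
    -- the unit
    set u := b * β ^ m with hu
    have hu0 : u ≠ 0 := mul_ne_zero hb hx0
    have hun : u ^ n = b ^ n * (q : Qb) ^ m := by
      rw [hu, mul_pow, ← zpow_natCast (β ^ m), ← zpow_mul, mul_comm m, zpow_mul, zpow_natCast, hβ]
    have hvu : A.valuation u = 1 := by
      rw [← hun, map_pow] at hm
      exact (pow_eq_one_iff_of_nonneg zero_le hn0).mp hm
    have huA : u ∈ A := (A.valuation_le_one_iff u).mp hvu.le
    have h1 : A.valuation (σ u / u - 1) < 1 := by
      have e : σ u / u - 1 = (σ u - u) * u⁻¹ := by field_simp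
      rw [e, map_mul, map_inv₀, hvu, inv_one, mul_one]
      exact hσ1 u huA
    have h2 := h σ hσ
    have hσb : σ b ≠ 0 := by simpa using hb
    have hv1 : ∀ y : Qb, A.valuation (y - 1) < 1 → A.valuation y = 1 := by
      intro y hy
      have := Valuation.map_add_eq_of_lt_right A.valuation (x := y - 1) (y := 1)
        (by rwa [map_one])
      rwa [sub_add_cancel, map_one] at this
    -- the root of unity
    set z := σ (β ^ m) / β ^ m with hz
    have hzn : z ^ n = 1 := by
      rw [hz, div_pow, ← map_pow, ← zpow_natCast (β ^ m), ← zpow_mul, mul_comm m, zpow_mul,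
        zpow_natCast, hβ, map_zpow₀, map_natCast, div_self (zpow_ne_zero _ hq0)]
    have hz1 : A.valuation (z - 1) < 1 := by
      have e : z - 1 = ((σ u / u - 1) - (σ b / b - 1)) * (σ b / b)⁻¹ := by
        rw [hz, hu, map_mul]
        field_simp
        ring
      rw [e, map_mul, map_inv₀, hv1 _ h2, inv_one, mul_one]
      exact lt_of_le_of_lt (Valuation.map_sub _ _ _) (max_lt h1 h2)
    have hz2 : z = 1 := GalRep.rootOfUnity_eq_of_valuation_lt hq hA hn hzn (one_pow n) hz1
    rwa [hz, div_eq_one_iff_eq hx0] at hz2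
  obtain ⟨j, u, -, hu, he⟩ := exists_unit_mul hq hA hfix hx0
  have h3 := congrArg (fun y : Qb => A.valuation y ^ n) he
  simp only [map_mul, map_zpow₀, hu, mul_one] at h3
  have hβv : A.valuation β ^ n = A.valuation (q : Qb) := by rw [← map_pow, hβ]
  have e1 : (A.valuation β ^ m) ^ n = A.valuation (q : Qb) ^ m := by
    rw [← zpow_natCast, ← zpow_mul, mul_comm m, zpow_mul, zpow_natCast, hβv]
  have e2 : (A.valuation (q : Qb) ^ j) ^ n = A.valuation (q : Qb) ^ (j * n) := by
    rw [← zpow_natCast, ← zpow_mul]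
  rw [e1, e2] at h3
  have h4 : m = j * n := by
    have hinj : Function.Injective fun i : ℤ => A.valuation (q : Qb) ^ i :=
      (zpow_right_strictAnti₀ (zero_lt_iff.mpr hvq0) hvq1).injective
    exact hinj h3
  exact ⟨j, by rw [h4, mul_comm]⟩

/-- the value lemma, in terms of residues -/
theorem value_lemma_res {κ : Type*} [Field κ] (π : A →+* κ) [IsLocalHom π]
    (hπ : Function.Surjective π) (hq : q.Prime) (hA : A.LiesOverPrime q) {n : ℕ} (hn : ¬ q ∣ n)
    {b : Qb} (hb : b ≠ 0)
    (h : ∀ σ ∈ A.inertiaSubgroupIn ℚ, (baseRes π hπ).r (σ b / b) = 1) {m : ℤ}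
    (hm : (baseRes π hπ).r (b ^ n * (q : Qb) ^ m) ≠ 0) : (n : ℤ) ∣ m := by
  refine value_lemma hq hA hn hb (fun σ hσ => ?_) ((baseRes_ne_zero_iff π hπ).mp hm)
  have h1 := h σ hσ
  have hmem : σ b / b ∈ A := Res.mem_of_r_ne_zero (C := baseRes π hπ) (by
    rw [h1]; exact one_ne_zero)
  rw [← baseRes_eq_zero_iff π hπ (sub_mem hmem (one_mem A)), Res.r_sub (C := baseRes π hπ) hmem
    (one_mem A), h1, Res.r_one, sub_self]

end Fermat.Agent.SSMod
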