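import Fermat.Agent.SSMod.FrobLevel
import Fermat.Agent.SSMod.Value
import Fermat.Agent.Models.RamBound

/-!
# Inertia-invariant classes at `q ∥ N`
-/

set_option autoImplicit false
set_option linter.unusedSectionVars false
set_option linter.style.haveILetI false
set_option linter.unusedVariables false
set_option synthInstance.maxHeartbeats 400000

noncomputable section

namespace Fermat.Agent.SSMod

open ModularCurve Fermat.Agent.GoodRed Fermat.Agent.Models Fermat.Agent.ModFun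
open Fermat.Agent.GenusX0 Fermat.Agent.Curves Fermat.Agent.AnJac AlgebraicCurve IsLocalRing
open Fermat.Agent.HeckeQ Fermat.Agent.GalRep
open scoped Pointwise

local notation "ℒ" => LaurentSeries
local notation "Qbar" => AlgebraicClosure ℚ
local notation "GQ" => Qbar ≃ₐ[ℚ] Qbar

section General

variable {K κ : Type*} [Field K] [Field κ] {A : ValuationSubring K} {π : A →+* κ}
  {q M : ℕ} [NeZero M] [IsLocalHom π] [hq : Fact q.Prime] [CharP κ q]
  [IsAlgClosed K] [IsAlgClosed κ] [CharZero K] [NeZero q]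

attribute [-instance] DivisionRing.toRatAlgebra

variable [IsFunctionField K (modularFunctionFieldFullC K (q * M))]
  [IsFunctionField κ (modularFunctionFieldFullC κ M)]

theorem galF_t (hqM : Nat.Coprime q M) (h : JLift π M) (σ : K ≃+* K) :
    galF (q * M) σ (h.coord hqM).t = (h.coord hqM).t := by
  rw [h.coord_t, map_mul, jA, jB]
  congr 1
  · apply Subtype.ext
    rw [coe_galF]
    exact coeffMap_jqModC _
  · apply Subtype.ext
    rw [coe_galF]
    show coeffMap _ (qExpand K q (jqModC K)) = qExpand K q (jqModC K)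
    rw [coeffMap_qExpand, coeffMap_jqModC]

/-- **Inertia-invariant classes with `U² = 1` at `q ∥ N`.** -/
theorem exists_ram_bound [Algebra ℚ K] [Algebra.IsAlgebraic ℚ K] [Algebra.IsAlgebraic ℤ K]
    (hπ : Function.Surjective π) (ι : K →+* ℂ) (hqM : Nat.Coprime q M)
    (hA : A.LiesOverPrime q) (hr : GoodRed.RankOne π) (h : JLift π M)
    [HasPrim A q] [HasPrim K q] {σ : K ≃+* K} (hσ : ActsAt π σ (frob κ q))
    {U : modularFunctionFieldFullC K (q * M) → modularFunctionFieldFullC K (q * M)}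
    (hU : ∀ u, (U u : ℒ K) = hW q (u : ℒ K)) :
    ∃ D : ℕ, 0 < D ∧ ∀ n : ℕ, (n : κ) ≠ 0 →
      ∀ u f : modularFunctionFieldFullC K (q * M), u ≠ 0 → f ≠ 0 → U (U u) = u * f ^ n →
      (∀ P : Place K (modularFunctionFieldFullC K (q * M)), (n : ℤ) ∣ P.ord u) →
      (∀ b : K, b ≠ 0 → (∀ τ : K ≃+* K, ActsAt π τ (RingEquiv.refl κ) →
          (∃ f, galF (q * M) τ u / u = f ^ n) → (baseRes π hπ).r (τ b / b) = 1) →
        ∀ m : ℤ, (baseRes π hπ).r (b ^ n * (q : K) ^ m) ≠ 0 → (n : ℤ) ∣ m) →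
      ∀ v w, v = u ^ D → w = galF (q * M) σ (galF (q * M) σ v) / v ^ (q ^ 2) →
        ∃ g, galF (q * M) σ (galF (q * M) σ w) / w ^ (q ^ 2) = g ^ n := by
  have hE := (resField_eq (q := q) hπ ι hqM hr).symm
  have hm := nodeModel (hπ := hπ) ι hqM hE hA hr h
  obtain ⟨L, hunr, hL⟩ := exists_K0 hq.out hA π hπ
  have hc := cross (hπ := hπ) ι hqM hE hA hr h
  have hl := crossLift (hπ := hπ) ι hqM hE hA hr h hunr hL
  have hF := frobenial (hπ := hπ) ι hqM hE hσ
  obtain ⟨D, hD, H⟩ := Chain.exists_ram_bound hc hl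
    (fun n => chain (n := n) (hπ := hπ) ι hqM hE hσ hU) hF (galF_t hqM h σ)
    (fun M' 𝔭₁ 𝔭₂ h1 h2 => CrossLift.fix_branch hc hl hF.map_const' hF.ord' (galF_je _) h1 h2)
    transcendental_je (galF_je _) (fun c => galF_const _ c)
  refine ⟨D, hD, fun n hn u f hu hf hUu hdiv hval => H n hn u f hu hf hUu hdiv ?_⟩
  intro b hb hb1
  refine hval b hb fun τ hτ hf => ?_
  refine hb1 (galF (q * M) τ) τ (placeE (q * M) τ) (inertial (hπ := hπ) ι hqM hE hA hτ) ?_
    (galF_t hqM h τ) hf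
  have := inertial (hπ := hπ) ι hqM hE hA hτ.symm
  rw [placeE_symm] at this
  exact this

end General

section Main

/-- The relation `(Φ² - q²)² D u = 0` modulo `n`-th powers for inertia-invariant functions `u` of
level `N` with divisor divisible by `n` and `U² u = u`. -/
def RamAt (A : ValuationSubring Qbar) (D N n q : ℕ) [NeZero q] (σ : Qbar ≃+* Qbar) : Prop :=
  ∀ (u f : ℒ Qbar) (hu : u ∈ modularFunctionFieldFullC Qbar N),
    f ∈ modularFunctionFieldFullC Qbar N → u ≠ 0 → f ≠ 0 →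
    hW q (hW q u) = u * f ^ n →
    (∀ P : Place Qbar (modularFunctionFieldFullC Qbar N), (n : ℤ) ∣ P.ord ⟨u, hu⟩) →
    (∀ τ ∈ A.inertiaSubgroupIn ℚ, ∃ g ∈ modularFunctionFieldFullC Qbar N,
      coeffMap ((τ : Qbar ≃+* Qbar) : Qbar →+* Qbar) u = u * g ^ n) →
    ∀ v w : ℒ Qbar, v = u ^ D →
      w = coeffMap (σ : Qbar →+* Qbar) (coeffMap (σ : Qbar →+* Qbar) v) / v ^ (q ^ 2) →
    ∃ g ∈ modularFunctionFieldFullC Qbar N,
      coeffMap (σ : Qbar →+* Qbar) (coeffMap (σ : Qbar →+* Qbar) w) / w ^ (q ^ 2) = g ^ n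

variable {A : ValuationSubring Qbar} {q : ℕ}

/-- descent along a change of level -/
theorem ramAt_of_level [NeZero q] {D N p n : ℕ} [NeZero N] {σ : Qbar ≃+* Qbar} (hp : p.Prime)
    (hpN : ¬ p ∣ N)
    (hco : Nat.Coprime (p + 1) n) (h : RamAt A D (p * N) n q σ) : RamAt A D N n q σ := by
  intro u f hu hf hu0 hf0 hU hdiv hin v w hv hw
  haveI : NeZero p := ⟨hp.ne_zero⟩
  haveI : NeZero (p * N) := ⟨Nat.mul_ne_zero hp.ne_zero (NeZero.ne N)⟩
  haveI := isFunctionField_fullC Qbar N (by exact_mod_cast NeZero.ne N)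
  haveI := isFunctionField_fullC Qbar (p * N) (by exact_mod_cast NeZero.ne (p * N))
  have hle := full_degeneracyC_le (K := Qbar) (N := N) (M := p * N) (Dvd.intro_left p rfl)
  obtain ⟨g, hg, he⟩ := h u f (hle hu) (hle hf) hu0 hf0 hU
    (ord_level (Dvd.intro_left p rfl) hu (hle hu) hdiv)
    (fun τ hτ => by
      obtain ⟨g, hg, e⟩ := hin τ hτ
      exact ⟨g, hle hg, e⟩) v w hv hw
  have h1 : ∀ x : ℒ Qbar, x ∈ modularFunctionFieldFullC Qbar N →
      coeffMap (σ : Qbar →+* Qbar) (coeffMap (σ : Qbar →+* Qbar) x) ∈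
        modularFunctionFieldFullC Qbar N :=
    fun x hx => (galF N σ (galF N σ ⟨x, hx⟩)).2
  have h2 : ∀ x : ℒ Qbar, x ≠ 0 →
      coeffMap (σ : Qbar →+* Qbar) (coeffMap (σ : Qbar →+* Qbar) x) ≠ 0 :=
    fun x hx => (map_ne_zero _).mpr ((map_ne_zero _).mpr hx)
  have hvm : v ∈ modularFunctionFieldFullC Qbar N := by rw [hv]; exact pow_mem hu _
  have hwm : w ∈ modularFunctionFieldFullC Qbar N := by
    rw [hw]; exact div_mem (h1 _ hvm) (pow_mem hvm _)
  have hv0 : v ≠ 0 := by rw [hv]; exact pow_ne_zero _ hu0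
  have hw0 : w ≠ 0 := by rw [hw]; exact div_ne_zero (h2 _ hv0) (pow_ne_zero _ hv0)
  obtain ⟨z, hz, hez⟩ := exists_pow_descend hle (relfinrank_full hp hpN
    (by exact_mod_cast NeZero.ne (p * N))) hco
    (div_mem (h1 _ hwm) (pow_mem hwm _))
    (div_ne_zero (h2 _ hw0) (pow_ne_zero _ hw0)) hg he
  exact ⟨z, hz, hez⟩

attribute [-instance] DivisionRing.toRatAlgebra in
theorem ramAt_jLift (hq : q.Prime) [NeZero q] (hA : A.LiesOverPrime q) {M : ℕ} [NeZero M]
    (hqM : ¬ q ∣ M) (h : JLift (residue A) M)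
    {σ : GQ} (hσ : A.IsFrobeniusAt σ q) :
    ∃ D : ℕ, 0 < D ∧ ∀ n : ℕ, ¬ q ∣ n → RamAt A D (q * M) n q (σ : Qbar ≃+* Qbar) := by
  haveI : Fact q.Prime := ⟨hq⟩
  haveI := FrobDens.charP_residueField A hq hA
  haveI : Algebra.IsAlgebraic ℚ Qbar := AlgebraicClosure.isAlgebraic ℚ
  haveI : @Algebra.IsAlgebraic ℤ Qbar _ _ (Ring.toIntAlgebra Qbar) := algebraic_int_Qbar
  have hr : RankOne (residue A) := @rankOne_of_liesOver Qbar _ A _ algebraic_int_Qbar q hq hA
  have hqM' : Nat.Coprime q M := (Nat.Prime.coprime_iff_not_dvd hq).2 hqM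
  haveI : NeZero (q * M) := ⟨Nat.mul_ne_zero hq.ne_zero (NeZero.ne M)⟩
  haveI := isFunctionField_fullC Qbar (q * M) (by exact_mod_cast NeZero.ne (q * M))
  haveI := isFunctionField_fullC (ResidueField A) M (cast_ne_zero_of_coprime (q := q) hqM')
  obtain ⟨D, hD, H⟩ := exists_ram_bound (π := residue A) residue_surjective ιQ hqM' hA hr h
    (actsAt_frob hq hA hσ)
    (U := fun x => ⟨hW q (x : ℒ Qbar), hW_mem_Qbar (dvd_mul_right q M) x.2⟩) (fun x => rfl)
  refine ⟨D, hD, fun n hn u f hu hf hu0 hf0 hU hdiv hin v w hv hw => ?_⟩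
  have hnκ : (n : ResidueField A) ≠ 0 := by
    rw [Ne, CharP.cast_eq_zero_iff _ q]
    exact hn
  have hn0 : n ≠ 0 := fun h0 => hn (h0 ▸ dvd_zero q)
  have h0 : (⟨u, hu⟩ : modularFunctionFieldFullC Qbar (q * M)) ≠ 0 :=
    fun h => hu0 (congrArg Subtype.val h)
  have h1 : (⟨f, hf⟩ : modularFunctionFieldFullC Qbar (q * M)) ≠ 0 :=
    fun h => hf0 (congrArg Subtype.val h)
  obtain ⟨g, hg⟩ := H n hnκ ⟨u, hu⟩ ⟨f, hf⟩ h0 h1 (Subtype.ext hU) hdiv (by
    intro b hb hb1 m hm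
    refine value_lemma_res (residue A) residue_surjective hq hA hn hb (fun τ hτ => ?_) hm
    refine hb1 (τ : Qbar ≃+* Qbar) (actsAt_inertia hτ) ?_
    obtain ⟨g, hg, e⟩ := hin τ hτ
    refine ⟨⟨g, hg⟩, ?_⟩
    apply Subtype.ext
    show coeffMap ((τ : Qbar ≃+* Qbar) : Qbar →+* Qbar) u / u = g ^ n
    rw [e, mul_div_cancel_left₀ _ hu0]) _ _ rfl rfl
  refine ⟨g, g.2, ?_⟩
  have h3 := congrArg Subtype.val hg
  rw [hw, hv]
  exact h3

/-- inertia-invariant classes at `q ∥ N` -/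
theorem ramAt_all (H : JL23) (hq : q.Prime) [NeZero q] (hA : A.LiesOverPrime q) {M : ℕ} [NeZero M]
    (hqM : ¬ q ∣ M) {σ : GQ} (hσ : A.IsFrobeniusAt σ q) :
    ∃ D : ℕ, 0 < D ∧ ∀ n : ℕ, ¬ q ∣ n → RamAt A D (q * M) n q (σ : Qbar ≃+* Qbar) := by
  haveI : Fact q.Prime := ⟨hq⟩
  haveI := FrobDens.charP_residueField A hq hA
  have hqM' : Nat.Coprime q M := (Nat.Prime.coprime_iff_not_dvd hq).2 hqM
  by_cases h5 : 5 ≤ q
  · exact ramAt_jLift hq hA hqM (jLift_of_five residue_surjective ιQ hqM' h5) hσ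
  · have h23 : q = 2 ∨ q = 3 := by
      have h2 := hq.two_le
      interval_cases q
      · exact Or.inl rfl
      · exact Or.inr rfl
      · exact absurd hq (by decide)
    rcases h23 with rfl | rfl
    · by_cases h3 : 3 ∣ M
      · exact ramAt_jLift hq hA hqM (H 2 A hA M (Or.inl ⟨rfl, h3, hqM⟩)) hσ
      · haveI : NeZero (2 * M) := ⟨mul_ne_zero (by norm_num) (NeZero.ne M)⟩
        haveI : NeZero (3 * M) := ⟨mul_ne_zero (by norm_num) (NeZero.ne M)⟩
        have hM' : ¬ 2 ∣ 3 * M := by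
          intro h
          rcases hq.dvd_mul.mp h with h | h
          · revert h; decide
          · exact hqM h
        obtain ⟨D, hD, h⟩ := ramAt_jLift hq hA hM'
          (H 2 A hA (3 * M) (Or.inl ⟨rfl, ⟨M, rfl⟩, hM'⟩)) hσ
        refine ⟨D, hD, fun n hn => ramAt_of_level (p := 3) Nat.prime_three ?_ ?_ ?_⟩
        · intro h
          rcases Nat.prime_three.dvd_mul.mp h with h | h
          · revert h; decide
          · exact h3 h
        · exact Nat.Coprime.pow_left 2 ((Nat.Prime.coprime_iff_not_dvd Nat.prime_two).2 hn)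
        · rw [show 3 * (2 * M) = 2 * (3 * M) by ring]
          exact h n hn
    · by_cases h2 : 2 ∣ M
      · exact ramAt_jLift hq hA hqM (H 3 A hA M (Or.inr ⟨rfl, h2, hqM⟩)) hσ
      · haveI : NeZero (3 * M) := ⟨mul_ne_zero (by norm_num) (NeZero.ne M)⟩
        haveI : NeZero (2 * M) := ⟨mul_ne_zero (by norm_num) (NeZero.ne M)⟩
        have hM' : ¬ 3 ∣ 2 * M := by
          intro h
          rcases hq.dvd_mul.mp h with h | h
          · revert h; decide
          · exact hqM h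
        obtain ⟨D, hD, h⟩ := ramAt_jLift hq hA hM'
          (H 3 A hA (2 * M) (Or.inr ⟨rfl, ⟨M, rfl⟩, hM'⟩)) hσ
        refine ⟨D, hD, fun n hn => ramAt_of_level (p := 2) Nat.prime_two ?_ ?_ ?_⟩
        · intro h
          rcases Nat.prime_two.dvd_mul.mp h with h | h
          · revert h; decide
          · exact h2 h
        · exact (Nat.Prime.coprime_iff_not_dvd Nat.prime_three).2 hn
        · rw [show 2 * (3 * M) = 3 * (2 * M) by ring]
          exact h n hn

end Main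

end Fermat.Agent.SSMod
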