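import Fermat.Agent.SSMod.Scale
import Fermat.Agent.Frob.Localization

/-!
# A subfield with value group generated by `q` and full residue field
-/

set_option autoImplicit false
set_option linter.unusedSectionVars false
set_option linter.style.haveILetI false

noncomputable section

namespace Fermat.Agent.SSMod

open Polynomial

variable {K κ : Type*} [Field K] [Field κ] {A : ValuationSubring K}

/-- the values of `L` are powers of the value of `q` -/
def Unram (A : ValuationSubring K) (q : ℕ) (L : Subfield K) : Prop :=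
  ∀ a ∈ L, a ≠ 0 → ∃ n : ℤ, A.valuation a = A.valuation (q : K) ^ n

theorem unram_bot [CharZero K] {q : ℕ} (hq : q.Prime) (hA : A.LiesOverPrime q) :
    Unram A q (Rat.castHom K).fieldRange := by
  have hint : ∀ d : ℤ, d ≠ 0 → ∃ n : ℤ, A.valuation (d : K) = A.valuation (q : K) ^ n := by
    intro d hd0
    have hfin : FiniteMultiplicity (q : ℤ) d := Int.finiteMultiplicity_iff.2
      ⟨by simpa using hq.ne_one, hd0⟩
    obtain ⟨u, hu, hu'⟩ := hfin.exists_eq_pow_mul_and_not_dvd
    refine ⟨(multiplicity (q : ℤ) d : ℕ), ?_⟩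
    conv_lhs => rw [hu]
    push_cast
    rw [map_mul, map_pow, Frob.valuation_intCast_eq_one A hq hA hu', mul_one, zpow_natCast]
  rintro _ ⟨r, rfl⟩ hr
  have hr0 : r ≠ 0 := by rintro rfl; simp at hr
  obtain ⟨m, hm⟩ := hint r.num (Rat.num_ne_zero.mpr hr0)
  obtain ⟨n, hn⟩ := hint r.den (by exact_mod_cast r.den_ne_zero)
  refine ⟨m - n, ?_⟩
  have hq0 : A.valuation (q : K) ≠ 0 := by
    rw [Valuation.ne_zero_iff]
    exact_mod_cast hq.ne_zero
  rw [zpow_sub₀ hq0, ← hm, ← hn, ← map_div₀]
  congr 1
  have : (Rat.castHom K) r = (r : K) := rfl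
  rw [this]
  conv_lhs => rw [← Rat.num_div_den r]
  push_cast
  rfl

/-- elements of the residue field are algebraic over the prime field -/
theorem exists_int_poly [CharZero K] [Algebra.IsAlgebraic ℤ K] {q : ℕ} (hq : q.Prime)
    (π : A →+* κ) [CharP κ q] (a : A) :
    ∃ P : ℤ[X], P.map (Int.castRingHom κ) ≠ 0 ∧ (P.map (Int.castRingHom κ)).eval (π a) = 0 := by
  obtain ⟨p, hp0, hp⟩ := Algebra.IsAlgebraic.isAlgebraic (R := ℤ) (a : K)
  set P := p.primPart with hP
  have hP0 : aeval (a : K) P = 0 := aeval_primPart_eq_zero hp0 hp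
  refine ⟨P, fun h => ?_, ?_⟩
  · have h1 : ∀ i, (q : ℤ) ∣ P.coeff i := by
      intro i
      have := congrArg (fun z => z.coeff i) h
      simp only [coeff_map, coeff_zero] at this
      exact (CharP.intCast_eq_zero_iff κ q _).mp this
    have h2 := (isPrimitive_primPart p) (q : ℤ) ((C_dvd_iff_dvd_coeff _ _).2 h1)
    exact (Nat.prime_iff_prime_int.mp hq).not_isUnit h2
  · have h1 : (P.map (Int.castRingHom A)).eval a = 0 := by
      apply Subtype.val_injective
      have h2 := Polynomial.hom_eval₂ P (Int.castRingHom A) A.subtype a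
      rw [eval_map]
      refine h2.trans ?_
      rw [aeval_def] at hP0
      rw [RingHom.ext_int (A.subtype.comp (Int.castRingHom A)) (algebraMap ℤ K)]
      exact hP0
    have h3 := congrArg π h1
    rw [map_zero, ← eval_map_apply, Polynomial.map_map] at h3
    convert h3 using 3
    exact RingHom.ext_int _ _

/-- roots of monic integral polynomials reduce onto the roots of the reduction -/
theorem exists_root_lift [IsAlgClosed K] (π : A →+* κ) {m : A[X]} (hm : m.Monic) {α : κ}
    (hα : (m.map π).eval α = 0) : ∃ a : A, m.eval a = 0 ∧ π a = α := by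
  classical
  have hsp : (m.map A.subtype).Splits := IsAlgClosed.splits _
  have hroot : ∀ r ∈ (m.map A.subtype).roots, r ∈ A := by
    intro r hr
    rw [mem_roots (hm.map _).ne_zero, IsRoot.def, eval_map] at hr
    obtain ⟨a, ha⟩ := IsIntegrallyClosed.isIntegral_iff.1 (⟨m, hm, hr⟩ : IsIntegral A r)
    rw [← ha]
    exact a.2
  obtain ⟨s, hs⟩ : ∃ s : Multiset A, s.map A.subtype = (m.map A.subtype).roots := by
    refine ⟨(m.map A.subtype).roots.attach.map fun r => ⟨r.1, hroot r.1 r.2⟩, ?_⟩
    rw [Multiset.map_map]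
    exact Multiset.attach_map_val _
  have h1 : m = (s.map fun a => X - C a).prod := by
    apply Polynomial.map_injective A.subtype Subtype.val_injective
    rw [Polynomial.map_multiset_prod, Multiset.map_map]
    have h2 := hsp.eq_prod_roots_of_monic (hm.map _)
    rw [← hs, Multiset.map_map] at h2
    conv_lhs => rw [h2]
    congr 1
    refine Multiset.map_congr rfl fun a _ => ?_
    simp
  have h3 : (s.map fun a => α - π a).prod = 0 := by
    rw [h1, Polynomial.map_multiset_prod, Multiset.map_map] at hα
    rw [← coe_evalRingHom, map_multiset_prod, Multiset.map_map] at hα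
    convert hα using 2
    refine Multiset.map_congr rfl fun a _ => ?_
    simp
  rw [Multiset.prod_eq_zero_iff, Multiset.mem_map] at h3
  obtain ⟨a, ha, h4⟩ := h3
  refine ⟨a, ?_, (sub_eq_zero.mp h4).symm⟩
  rw [h1, ← coe_evalRingHom, map_multiset_prod, Multiset.map_map, Multiset.prod_eq_zero_iff,
    Multiset.mem_map]
  exact ⟨a, ha, by simp⟩

/-- **The subfield `K₀`.** -/
theorem exists_K0 [IsAlgClosed K] [CharZero K] [Algebra.IsAlgebraic ℤ K] {q : ℕ} (hq : q.Prime)
    (hA : A.LiesOverPrime q) (π : A →+* κ) [IsLocalHom π] (hπ : Function.Surjective π)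
    [CharP κ q] :
    ∃ L : Subfield K, Unram A q L ∧ ∀ α : κ, ∃ a : A, (a : K) ∈ L ∧ π a = α := by
  classical
  obtain ⟨L, hL0, hL, hmax⟩ := zorn_le_nonempty₀ {L : Subfield K | Unram A q L}
    (fun c hc hch y hy => ⟨sSup c, fun a ha ha0 => by
      rw [Subfield.mem_sSup_of_directedOn ⟨y, hy⟩ hch.directedOn] at ha
      obtain ⟨M, hM, haM⟩ := ha
      exact hc hM a haM ha0, fun z hz => le_sSup hz⟩) _ (unram_bot hq hA)
  refine ⟨L, hL, fun α => ?_⟩
  -- the residue field of `L`
  let RL : Subring A := L.toSubring.comap A.subtype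
  let κL : Subfield κ :=
    { RL.map π with
      inv_mem' := by
        rintro _ ⟨a, ha, rfl⟩
        by_cases h0 : π a = 0
        · rw [h0, inv_zero]; exact ⟨0, zero_mem RL, map_zero _⟩
        · have hu : IsUnit a := isUnit_of_map_unit π a (isUnit_iff_ne_zero.mpr h0)
          obtain ⟨u, rfl⟩ := hu
          refine ⟨((u⁻¹ : Aˣ) : A), ?_, ?_⟩
          · have h1 : (((u⁻¹ : Aˣ) : A) : K) = ((u : A) : K)⁻¹ := by
              refine eq_inv_of_mul_eq_one_left ?_
              exact congrArg A.subtype u.inv_mul
            show (((u⁻¹ : Aˣ) : A) : K) ∈ L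
            rw [h1]
            exact inv_mem ha
          · have := congrArg π u.inv_mul
            rw [map_mul, map_one] at this
            exact eq_inv_of_mul_eq_one_left this }
  have hκL : ∀ β ∈ κL, ∃ a : A, (a : K) ∈ L ∧ π a = β := by
    rintro β ⟨a, ha, rfl⟩
    exact ⟨a, ha, rfl⟩
  let ψ : RL →+* κL := (π.comp RL.subtype).codRestrict κL fun a => ⟨a, a.2, rfl⟩
  have hψ : Function.Surjective ψ := by
    rintro ⟨_, a, ha, rfl⟩
    exact ⟨⟨a, ha⟩, rfl⟩
  obtain ⟨a₀, ha₀⟩ := hπ α
  have halg : IsIntegral κL α := by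
    obtain ⟨P, hP0, hP⟩ := exists_int_poly hq π a₀
    rw [ha₀] at hP
    have h1 : IsAlgebraic κL α := by
      refine ⟨P.map (Int.castRingHom κL), fun h => hP0 ?_, ?_⟩
      · have h2 := congrArg (Polynomial.map (algebraMap κL κ)) h
        rw [Polynomial.map_map, Polynomial.map_zero] at h2
        rw [← RingHom.ext_int ((algebraMap κL κ).comp (Int.castRingHom κL)) (Int.castRingHom κ)]
        exact h2
      · rw [aeval_def, eval₂_map]
        rw [eval_map] at hP
        rw [RingHom.ext_int ((algebraMap κL κ).comp (Int.castRingHom κL)) (Int.castRingHom κ)]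
        exact hP
    exact h1.isIntegral
  have hlift : minpoly κL α ∈ lifts ψ := by
    rw [lifts_iff_coeff_lifts]
    intro n
    exact hψ _
  obtain ⟨m, hm, hmdeg, hmm⟩ := lifts_and_natDegree_eq_and_monic hlift (minpoly.monic halg)
  -- a root in `A`
  obtain ⟨a, ha, haα⟩ := exists_root_lift π (m := m.map RL.subtype) (hmm.map _) (α := α) (by
    rw [Polynomial.map_map]
    have h1 : π.comp RL.subtype = (algebraMap κL κ).comp ψ := rfl
    rw [h1, ← Polynomial.map_map, hm, eval_map]
    exact minpoly.aeval κL α)
  refine ⟨a, ?_, haα⟩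
  -- the extension `L(a)`
  let θ : RL →+* L := (A.subtype.comp RL.subtype).codRestrict L fun x => x.2
  let M : L[X] := m.map θ
  have hMm : M.Monic := hmm.map _
  have hMa : aeval (a : K) M = 0 := by
    rw [aeval_def, eval₂_map]
    have h1 := Polynomial.hom_eval₂ m RL.subtype A.subtype a
    rw [eval_map] at ha
    rw [ha, map_zero] at h1
    exact h1.symm
  have hMdeg : M.natDegree = (minpoly κL α).natDegree := by
    rw [← hmdeg]
    exact hmm.natDegree_map θ
  have haint : IsIntegral L (a : K) := ⟨M, hMm, hMa⟩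
  let L' : Subfield K := (IntermediateField.adjoin L {(a : K)}).toSubfield
  have hLL' : L ≤ L' := fun x hx =>
    (IntermediateField.adjoin L {(a : K)}).algebraMap_mem ⟨x, hx⟩
  have hL' : Unram A q L' := by
    intro y hy hy0
    have hy' : y ∈ IntermediateField.adjoin L {(a : K)} := hy
    obtain ⟨f, hf⟩ : ∃ f : L[X], y = aeval (a : K) f := by
      have h1 : y ∈ (IntermediateField.adjoin L {(a : K)}).toSubalgebra := hy'
      rw [IntermediateField.adjoin_simple_toSubalgebra_of_isAlgebraic haint.isAlgebraic,
        Algebra.adjoin_singleton_eq_range_aeval] at h1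
      obtain ⟨f, hf⟩ := h1
      exact ⟨f, hf.symm⟩
    have hf' : y = aeval (a : K) (f %ₘ M) := by
      rw [hf]
      conv_lhs => rw [← modByMonic_add_div f M]
      rw [map_add, map_mul, hMa, zero_mul, add_zero]
    set g := f %ₘ M with hg
    have hgdeg : g.degree < M.degree := degree_modByMonic_lt f hMm
    have hg0 : g ≠ 0 := by
      intro h
      rw [h, map_zero] at hf'
      exact hy0 hf'
    obtain ⟨j, hj, hjmax⟩ := Finset.exists_max_image g.support
      (fun i => A.valuation (g.coeff i : K)) (support_nonempty.mpr hg0)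
    have hcj : (g.coeff j : K) ≠ 0 := by
      have := mem_support_iff.mp hj
      exact fun h => this (Subtype.ext h)
    have hcA : ∀ i, (g.coeff j : K)⁻¹ * g.coeff i ∈ A := by
      intro i
      by_cases hi : i ∈ g.support
      · rw [← A.valuation_le_one_iff, map_mul, map_inv₀, mul_comm, ← div_eq_mul_inv]
        exact div_le_one_of_le₀ (hjmax i hi) zero_le
      · rw [notMem_support_iff.mp hi, ZeroMemClass.coe_zero, mul_zero]
        exact zero_mem _
    let d : ℕ → RL := fun i => ⟨⟨_, hcA i⟩, L.mul_mem (L.inv_mem (g.coeff j).2) (g.coeff i).2⟩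
    let h : RL[X] := ∑ i ∈ Finset.range M.natDegree, C (d i) * X ^ i
    have hcoef : ∀ i, i < M.natDegree → h.coeff i = d i := by
      intro i hi
      simp only [h, finsetSum_coeff, coeff_C_mul, coeff_X_pow]
      rw [Finset.sum_eq_single i]
      · simp
      · intro b _ hb; simp [hb.symm]
      · intro hi'; exact absurd (Finset.mem_range.mpr hi) hi'
    have hjM : j < M.natDegree := by
      have h1 := le_degree_of_ne_zero (mem_support_iff.mp hj)
      have h2 := h1.trans_lt hgdeg
      rw [degree_eq_natDegree hMm.ne_zero] at h2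
      exact_mod_cast h2
    have hψ0 : h.map ψ ≠ 0 := by
      intro h0
      have h1 := congrArg (fun z => z.coeff j) h0
      simp only [coeff_map, coeff_zero] at h1
      rw [hcoef j hjM] at h1
      have h2 : d j = 1 := by
        apply Subtype.ext
        apply Subtype.ext
        exact inv_mul_cancel₀ hcj
      rw [h2, map_one] at h1
      exact one_ne_zero h1
    have hdegh : (h.map ψ).degree < (minpoly κL α).degree := by
      rw [degree_eq_natDegree (minpoly.ne_zero halg), ← hMdeg]
      refine (degree_map_le).trans_lt ?_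
      refine (degree_sum_le _ _).trans_lt ?_
      rw [Finset.sup_lt_iff (by exact WithBot.bot_lt_coe _)]
      intro i hi
      refine (degree_C_mul_X_pow_le i _).trans_lt ?_
      exact_mod_cast Finset.mem_range.mp hi
    have hne : aeval α (h.map ψ) ≠ 0 := fun h0 =>
      absurd (minpoly.degree_le_of_ne_zero κL α hψ0 h0) (not_le.mpr hdegh)
    -- the value of `y`
    have hval : (g.coeff j : K)⁻¹ * y = ((h.map RL.subtype).eval a : A) := by
      have h1 : ((h.map RL.subtype).eval a : A) = ∑ i ∈ Finset.range M.natDegree, (d i : A) * a ^ i := by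
        simp only [h, Polynomial.map_sum, Polynomial.map_mul, map_C, Polynomial.map_pow, map_X,
          eval_finsetSum, eval_mul, eval_C, eval_pow, eval_X]
        rfl
      rw [h1, hf', aeval_eq_sum_range' (n := M.natDegree) (by
        rcases eq_or_ne M.natDegree 0 with h2 | h2
        · omega
        · exact (natDegree_lt_natDegree_iff hg0).mpr hgdeg)]
      push_cast
      rw [Finset.mul_sum]
      refine Finset.sum_congr rfl fun i _ => ?_
      rw [Algebra.smul_def, ← mul_assoc]
      rfl
    have hunit : A.valuation ((g.coeff j : K)⁻¹ * y) = 1 := by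
      rw [hval]
      have h1 : π ((h.map RL.subtype).eval a) ≠ 0 := by
        rw [← eval_map_apply, Polynomial.map_map, haα]
        have h2 : π.comp RL.subtype = (algebraMap κL κ).comp ψ := rfl
        rw [h2, ← Polynomial.map_map, eval_map]
        exact hne
      have h2 : IsUnit ((h.map RL.subtype).eval a) :=
        isUnit_of_map_unit π _ (isUnit_iff_ne_zero.mpr h1)
      exact (A.valuation_eq_one_iff _).mp h2
    obtain ⟨n, hn⟩ := hL _ (g.coeff j).2 hcj
    refine ⟨n, ?_⟩
    rw [map_mul, map_inv₀, inv_mul_eq_one₀ ((Valuation.ne_zero_iff _).mpr hcj)] at hunit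
    rw [← hunit, hn]
  have h1 : L' ≤ L := hmax hL' hLL'
  exact h1 (IntermediateField.mem_adjoin_simple_self L (a : K))

end Fermat.Agent.SSMod
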