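import Fermat.Agent.GalRep.WrapAdic

/-!
# Trace and determinant of representations compatible with Hecke-Galois data
-/

set_option autoImplicit false
set_option maxHeartbeats 400000

namespace Fermat.Agent.SSMod

open Fermat.Agent.DefRing IsLocalRing Matrix Fermat.Agent.GalRep Fermat.Agent.GalRep.HData

local notation "Qbar" => AlgebraicClosure ℚ
local notation "GQ" => Qbar ≃ₐ[ℚ] Qbar

variable {N p : ℕ} [Fact p.Prime] {D : HData N p} {S : Set ℕ}
  {R : Type} [CommRing R] [IsLocalRing R]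

/-- if `th σ` is an integral Hecke operator then it gives the trace -/
theorem trace_of_th (hS : S.Finite) (hN : N ≠ 0) [IsHausdorff (maximalIdeal R) R]
    (hp : (p : R) ∈ maximalIdeal R) {π : D.TT S →+* R}
    {T : GQ →* Matrix (Fin 2) (Fin 2) R} (hT : MatCont T) (hπ : FrobCond π T)
    {σ : GQ} {y : D.TT S} (hy : D.th σ = castHom D.r ℤ_[p] y) : (T σ).trace = π y := by
  obtain ⟨c, hc⟩ := exists_artinRees p (Subalgebra.toSubmodule (D.TT S))
  rw [← sub_eq_zero]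
  refine IsHausdorff.haus (inferInstance : IsHausdorff (maximalIdeal R) R) _ fun m => ?_
  rw [SModEq.zero, smul_eq_mul, Ideal.mul_top]
  obtain ⟨x, hx1, hx2⟩ := exists_trace_approx hS hN hT hπ σ (m + c)
  have hy1 : (PadicInt.toZModPow (m + c)).mapMatrix (D.th σ) = castHom D.r (ZMod (p ^ (m + c))) y := by
    rw [hy]
    ext i j
    rw [RingHom.mapMatrix_apply, Matrix.map_apply, castHom_apply, castHom_apply, map_intCast]
  rw [hy1] at hx1
  have hdvd : ∀ i j, (p : ℤ) ^ (m + c) ∣ ((x - y : D.TT S) : Matrix (Fin D.r) (Fin D.r) ℤ) i j := by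
    intro i j
    have h1 := congrFun (congrFun hx1 i) j
    rw [castHom_apply, castHom_apply] at h1
    have h2 : ((((x - y : D.TT S) : Matrix (Fin D.r) (Fin D.r) ℤ) i j : ℤ) :
        ZMod (p ^ (m + c))) = 0 := by
      have h3 : ((x - y : D.TT S) : Matrix (Fin D.r) (Fin D.r) ℤ) i j =
          (x : Matrix (Fin D.r) (Fin D.r) ℤ) i j - (y : Matrix (Fin D.r) (Fin D.r) ℤ) i j := rfl
      rw [h3, Int.cast_sub, h1, sub_self]
    rw [ZMod.intCast_zmod_eq_zero_iff_dvd] at h2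
    exact_mod_cast h2
  obtain ⟨z, hz, hxyz⟩ := hc (m + c) (Nat.le_add_left _ _) _ (x - y).2 hdvd
  have h4 : x - y = ((p : ℤ) ^ m) • (⟨z, hz⟩ : D.TT S) := by
    apply Subtype.ext
    rw [hxyz, Nat.add_sub_cancel]
    rfl
  have h5 : π x - π y ∈ maximalIdeal R ^ m := by
    rw [← map_sub, h4, map_zsmul, zsmul_eq_mul, Int.cast_pow, Int.cast_natCast]
    exact Ideal.mul_mem_right _ _ (Ideal.pow_mem_pow hp m)
  have h6 : maximalIdeal R ^ (m + c) ≤ maximalIdeal R ^ m :=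
    Ideal.pow_le_pow_right (Nat.le_add_right _ _)
  have h7 : (T σ).trace - π y = ((T σ).trace - π x) + (π x - π y) := by ring
  rw [h7]
  exact Ideal.add_mem _ (h6 hx2) h5

/-- the determinant is the cyclotomic character -/
theorem det_of_cycP (hS : S.Finite) (hN : N ≠ 0) [IsHausdorff (maximalIdeal R) R]
    (hp : (p : R) ∈ maximalIdeal R) {π : D.TT S →+* R}
    {T : GQ →* Matrix (Fin 2) (Fin 2) R} (hT : MatCont T) (hπ : FrobCond π T)
    {σ : GQ} {y : ℤ} (hy : cycP p σ = (y : ℤ_[p])) : (T σ).det = y := by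
  rw [← sub_eq_zero]
  refine IsHausdorff.haus (inferInstance : IsHausdorff (maximalIdeal R) R) _ fun n => ?_
  rw [SModEq.zero, smul_eq_mul, Ideal.mul_top]
  obtain ⟨L₁, hL₁, h₁⟩ := hT n
  obtain ⟨L₂, hL₂, h₂⟩ := cycP_finite p n
  have hfin : (S ∪ {ℓ | ℓ.Prime ∧ ℓ ∣ N * p}).Finite := by
    refine hS.union ((Set.finite_le_nat (N * p)).subset ?_)
    rintro ℓ ⟨-, hℓ⟩
    exact Nat.le_of_dvd (Nat.pos_of_ne_zero
      (mul_ne_zero hN (Fact.out : p.Prime).ne_zero)) hℓ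
  obtain ⟨ℓ, hℓ, hℓS, A, hA, τ, hτ, k, -, hk, -⟩ :=
    FrobDens.exists_frobenius (L₁ ⊔ L₂) _ hfin σ
  have hℓN : ¬ ℓ ∣ N * p := fun h => hℓS (Or.inr ⟨hℓ, h⟩)
  obtain ⟨htr, hdet⟩ := hπ ℓ hℓ hℓN (fun h => hℓS (Or.inl h)) A hA τ hτ
  have hk1 : ∀ x ∈ L₁, (τ ^ k) x = σ x := fun x hx => hk x (le_sup_left (a := L₁) hx)
  have hk2 : ∀ x ∈ L₂, (τ ^ k) x = σ x := fun x hx => hk x (le_sup_right (a := L₁) hx)
  -- the determinant
  have e1 : (T σ).det - (ℓ : R) ^ k ∈ maximalIdeal R ^ n := by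
    have h3 : ∀ i j, (T ((τ ^ k)⁻¹ * σ)) i j - (1 : Matrix (Fin 2) (Fin 2) R) i j ∈
        maximalIdeal R ^ n := h₁ _ (fun x hx => by
      rw [AlgEquiv.mul_apply, ← hk1 x hx]
      exact inv_smul_smul (τ ^ k) x)
    have h4 : (T ((τ ^ k)⁻¹ * σ)).det - 1 ∈ maximalIdeal R ^ n := by
      have h5 : (Ideal.Quotient.mk (maximalIdeal R ^ n)).mapMatrix (T ((τ ^ k)⁻¹ * σ)) = 1 := by
        rw [← map_one ((Ideal.Quotient.mk (maximalIdeal R ^ n)).mapMatrix)]
        ext i j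
        exact (Ideal.Quotient.eq).mpr (h3 i j)
      have h6 := congrArg Matrix.det h5
      rw [← RingHom.map_det, Matrix.det_one, ← map_one (Ideal.Quotient.mk (maximalIdeal R ^ n))] at h6
      exact (Ideal.Quotient.eq).mp h6
    have h7 : σ = τ ^ k * ((τ ^ k)⁻¹ * σ) := by group
    have h8 : (T σ).det = (ℓ : R) ^ k * (T ((τ ^ k)⁻¹ * σ)).det := by
      conv_lhs => rw [h7]
      rw [map_mul, Matrix.det_mul, map_pow, Matrix.det_pow, hdet]
    rw [h8, show (ℓ : R) ^ k * (T ((τ ^ k)⁻¹ * σ)).det - (ℓ : R) ^ k =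
      (ℓ : R) ^ k * ((T ((τ ^ k)⁻¹ * σ)).det - 1) by ring]
    exact Ideal.mul_mem_left _ _ h4
  -- the cyclotomic character
  have e3 : PadicInt.toZModPow n (cycP p (τ ^ k)) = PadicInt.toZModPow n (cycP p σ) := by
    have f1 : PadicInt.toZModPow n (cycP p (σ⁻¹ * τ ^ k)) = 1 := by
      refine h₂ _ fun x hx => ?_
      rw [AlgEquiv.mul_apply, hk2 x hx]
      exact inv_smul_smul σ x
    have f2 : τ ^ k = σ * (σ⁻¹ * τ ^ k) := by group
    rw [f2, map_mul, map_mul, f1, mul_one]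
  rw [map_pow, cycP_frob p hℓ hA (ne_p hℓN) hτ, hy, map_intCast, map_pow, map_natCast] at e3
  have e4 : ((p ^ n : ℕ) : ℤ) ∣ (ℓ : ℤ) ^ k - y := by
    rw [← ZMod.intCast_zmod_eq_zero_iff_dvd]
    push_cast
    rw [e3, sub_self]
  obtain ⟨c, hc⟩ := e4
  have e5 : (ℓ : R) ^ k - (y : R) = (p : R) ^ n * (c : R) := by
    have := congrArg (Int.cast : ℤ → R) hc
    push_cast at this
    exact this
  have e6 : (T σ).det - (y : R) = ((T σ).det - (ℓ : R) ^ k) + ((ℓ : R) ^ k - y) := by ring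
  rw [e6, e5]
  exact Ideal.add_mem _ e1 (Ideal.mul_mem_right _ _ (Ideal.pow_mem_pow hp n))

end Fermat.Agent.SSMod
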