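import Mathlib

/-!
# Representations satisfying a two-dimensional trace identity
-/

set_option autoImplicit false

noncomputable section

namespace Fermat.Agent.SSMod

open Matrix MulOpposite

variable {G : Type*} [Group G] {B : Type*} [CommRing B] {W : Type*} [AddCommGroup W] [Module B W]
  (T : G →* Matrix (Fin 2) (Fin 2) B) (ρ : G →* Module.End B W) (χ : G →* B)

/-- the representation on the group algebra -/
def Tt : MonoidAlgebra B G →ₐ[B] Matrix (Fin 2) (Fin 2) B := MonoidAlgebra.lift B _ G T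

/-- the action of the group algebra -/
def Rt : MonoidAlgebra B G →ₐ[B] Module.End B W := MonoidAlgebra.lift B _ G ρ

/-- the twisted dual action -/
def sHom : G →* (Module.End B W)ᵐᵒᵖ where
  toFun g := op (χ g • ρ g⁻¹)
  map_one' := by rw [map_one, inv_one, map_one, one_smul, op_one]
  map_mul' g h := by
    rw [← op_mul, _root_.mul_inv_rev, map_mul, map_mul, smul_mul_smul_comm, mul_comm (χ g)]

/-- the dual action of the group algebra -/
def St : MonoidAlgebra B G →ₐ[B] (Module.End B W)ᵐᵒᵖ := MonoidAlgebra.lift B _ G (sHom ρ χ)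

variable {T ρ χ}

@[simp] lemma Tt_of (g : G) : Tt T (MonoidAlgebra.of B G g) = T g := by
  rw [Tt, MonoidAlgebra.lift_of]

@[simp] lemma Rt_of (g : G) : Rt ρ (MonoidAlgebra.of B G g) = ρ g := by
  rw [Rt, MonoidAlgebra.lift_of]

@[simp] lemma St_of (g : G) : St ρ χ (MonoidAlgebra.of B G g) = op (χ g • ρ g⁻¹) := by
  rw [St, MonoidAlgebra.lift_of]
  rfl

/-- the trace identity on the group algebra -/
theorem trace_rel (h1 : ∀ g, ρ g + χ g • ρ g⁻¹ = (T g).trace • (1 : Module.End B W))
    (z : MonoidAlgebra B G) :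
    Rt ρ z + unop (St ρ χ z) = (Tt T z).trace • (1 : Module.End B W) := by
  induction z using MonoidAlgebra.induction_on with
  | of g => rw [Rt_of, St_of, Tt_of, unop_op, h1]
  | add x y hx hy =>
    rw [map_add, map_add, map_add, unop_add, Matrix.trace_add, add_smul, ← hx, ← hy]
    abel
  | smul b x hx =>
    rw [map_smul, map_smul, map_smul, unop_smul, Matrix.trace_smul, smul_eq_mul, mul_smul, ← hx,
      smul_add]

theorem Tt_surj (hT : Submodule.span B (Set.range T) = ⊤) : Function.Surjective (Tt T) := by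
  intro m
  have h : Submodule.span B (Set.range T) ≤ LinearMap.range (Tt T).toLinearMap := by
    rw [Submodule.span_le]
    rintro _ ⟨g, rfl⟩
    exact ⟨MonoidAlgebra.of B G g, Tt_of g⟩
  rw [hT] at h
  exact h (Submodule.mem_top (x := m))

variable [IsDomain B] [CharZero B] [Module.IsTorsionFree B W]

/-- the kernel of an irreducible representation acts trivially -/
theorem ker_acts (hT : Submodule.span B (Set.range T) = ⊤)
    (h1 : ∀ g, ρ g + χ g • ρ g⁻¹ = (T g).trace • (1 : Module.End B W))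
    {z : MonoidAlgebra B G} (hz : Tt T z = 0) : Rt ρ z = 0 := by
  have rel := trace_rel h1
  have hs : ∀ x, Tt T x = 0 → unop (St ρ χ x) = -Rt ρ x := by
    intro x hx
    have h := rel x
    rw [hx, Matrix.trace_zero, zero_smul] at h
    exact (neg_eq_of_add_eq_zero_right h).symm
  -- `ρ(z) ρ(y) = s(y) ρ(z)`
  have h2 : ∀ x y, Tt T x = 0 → Rt ρ x * Rt ρ y = unop (St ρ χ y) * Rt ρ x := by
    intro x y hx
    have hxy : Tt T (x * y) = 0 := by rw [map_mul, hx, zero_mul]
    have h := hs _ hxy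
    rw [map_mul, unop_mul, hs x hx, map_mul, mul_neg] at h
    exact (neg_injective h).symm
  -- commutators are killed
  have h3 : ∀ x y y', Tt T x = 0 → Rt ρ x * (Rt ρ y * Rt ρ y') = Rt ρ x * (Rt ρ y' * Rt ρ y) := by
    intro x y y' hx
    have h4 : Rt ρ x * Rt ρ (y * y') = unop (St ρ χ (y * y')) * Rt ρ x := h2 x _ hx
    rw [map_mul, map_mul, unop_mul, mul_assoc, ← h2 x y hx] at h4
    rw [h4, ← mul_assoc, ← h2 x y' hx, mul_assoc]
  obtain ⟨y, hy⟩ := Tt_surj hT !![0, 1; 0, 0]
  obtain ⟨y', hy'⟩ := Tt_surj hT !![0, 0; 1, 0]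
  set c := y * y' - y' * y with hc
  have hTc : Tt T c = !![1, 0; 0, -1] := by
    rw [hc, map_sub, map_mul, map_mul, hy, hy']
    ext i j
    fin_cases i <;> fin_cases j <;> simp [Matrix.mul_apply, Fin.sum_univ_two]
  set z' := c * c - 1 with hz'
  have hTz' : Tt T z' = 0 := by
    rw [hz', map_sub, map_mul, hTc, map_one]
    ext i j
    fin_cases i <;> fin_cases j <;> simp [Matrix.mul_apply, Fin.sum_univ_two]
  have h5 : ∀ x, Tt T x = 0 → Rt ρ x * Rt ρ c = 0 := by
    intro x hx
    rw [hc, map_sub, map_mul, map_mul, mul_sub, h3 x y y' hx, sub_self]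
  have h6 : ∀ x, Tt T x = 0 → Rt ρ x * Rt ρ z' = -Rt ρ x := by
    intro x hx
    rw [hz', map_sub, map_mul, map_one, mul_sub, ← mul_assoc, h5 x hx, zero_mul, mul_one, zero_sub]
  have h7 : ∀ x, Tt T x = 0 → Rt ρ z' * Rt ρ x = Rt ρ x := by
    intro x hx
    have h := h2 x z' hx
    rw [hs z' hTz', h6 x hx, neg_mul] at h
    exact (neg_injective h).symm
  have h8 : Rt ρ z' = 0 := by
    have e1 := h6 z' hTz'
    rw [h7 z' hTz'] at e1
    have e2 : (2 : B) • Rt ρ z' = 0 := by
      rw [two_smul]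
      nth_rw 1 [e1]
      exact neg_add_cancel _
    ext w
    have e3 := LinearMap.congr_fun e2 w
    rw [LinearMap.smul_apply, LinearMap.zero_apply] at e3
    exact (smul_eq_zero.mp e3).resolve_left two_ne_zero
  have h9 := h7 z hz
  rw [h8, zero_mul] at h9
  exact h9.symm

/-- elements acting trivially are in the kernel -/
theorem ker_of_acts [Nontrivial W] (hT : Submodule.span B (Set.range T) = ⊤)
    (h1 : ∀ g, ρ g + χ g • ρ g⁻¹ = (T g).trace • (1 : Module.End B W))
    {z : MonoidAlgebra B G} (hz : Rt ρ z = 0) : Tt T z = 0 := by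
  by_contra hne
  obtain ⟨i, j, hij⟩ : ∃ i j, Tt T z i j ≠ 0 := by
    by_contra hcon
    push Not at hcon
    exact hne (Matrix.ext hcon)
  choose E hE using fun ab : Fin 2 × Fin 2 =>
    Tt_surj hT (Matrix.single ab.1 ab.2 (1 : B))
  set x := (E (0, i) * z * E (j, 0) + E (1, i) * z * E (j, 1)) -
    algebraMap B (MonoidAlgebra B G) (Tt T z i j) with hx
  have hTx : Tt T x = 0 := by
    rw [hx, map_sub, map_add, map_mul, map_mul, map_mul, map_mul, hE, hE, hE, hE, AlgHom.commutes]
    simp only [Matrix.single_mul_mul_single, one_mul, mul_one]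
    ext a b
    fin_cases a <;> fin_cases b <;> simp [Matrix.algebraMap_matrix_apply]
  have h2 := ker_acts hT h1 hTx
  rw [hx, map_sub, map_add, map_mul, map_mul, map_mul, map_mul, hz, mul_zero, mul_zero, zero_mul,
    zero_mul, add_zero, zero_sub, neg_eq_zero, AlgHom.commutes] at h2
  obtain ⟨w, hw⟩ := exists_ne (0 : W)
  have h3 := LinearMap.congr_fun h2 w
  rw [Module.algebraMap_end_apply, LinearMap.zero_apply] at h3
  exact hw ((smul_eq_zero.mp h3).resolve_left hij)

/-- **Ramification from the toric part.** -/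
theorem exists_ram [Nontrivial W] (hT : Submodule.span B (Set.range T) = ⊤)
    (h1 : ∀ g, ρ g + χ g • ρ g⁻¹ = (T g).trace • (1 : Module.End B W)) {I : Set G} {φ : G} {q : ℕ}
    (hq : 2 ≤ q) (hφ : (T φ).det = q)
    (H : ∀ v z : W, (∀ σ ∈ I, ρ σ v = v) → z = ρ φ (ρ φ v) - ((q : B) ^ 2) • v →
      ρ φ (ρ φ z) = ((q : B) ^ 2) • z) : ∃ σ ∈ I, T σ ≠ 1 := by
  by_contra hcon
  push Not at hcon
  have hin : ∀ σ ∈ I, ∀ v, ρ σ v = v := by
    intro σ hσ v
    have h2 := ker_acts hT h1 (z := MonoidAlgebra.of B G σ - 1) (by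
      rw [map_sub, Tt_of, hcon σ hσ, map_one, sub_self])
    rw [map_sub, Rt_of, map_one, sub_eq_zero] at h2
    rw [h2]
    rfl
  set y : MonoidAlgebra B G := MonoidAlgebra.of B G φ * MonoidAlgebra.of B G φ -
    algebraMap B _ ((q : B) ^ 2) with hy
  have hRy : ∀ v, Rt ρ y v = ρ φ (ρ φ v) - ((q : B) ^ 2) • v := by
    intro v
    rw [hy, map_sub, map_mul, Rt_of, AlgHom.commutes, LinearMap.sub_apply, Module.End.mul_apply,
      Module.algebraMap_end_apply]
  have hyy : Rt ρ (y * y) = 0 := by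
    ext v
    rw [map_mul, Module.End.mul_apply, hRy, LinearMap.zero_apply, sub_eq_zero]
    exact H v _ (fun σ hσ => hin σ hσ v) (hRy v)
  have hTyy := ker_of_acts hT h1 hyy
  set N := Tt T y with hN
  have hNN : N * N = 0 := by rw [← map_mul]; exact hTyy
  have hdet : N.det = 0 := by
    have h2 := congrArg Matrix.det hNN
    rw [Matrix.det_mul, Matrix.det_zero] at h2
    exact mul_self_eq_zero.mp h2
  have htr : N.trace = 0 := by
    have e00 := congrFun (congrFun hNN 0) 0
    have e01 := congrFun (congrFun hNN 0) 1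
    have e10 := congrFun (congrFun hNN 1) 0
    have e11 := congrFun (congrFun hNN 1) 1
    rw [Matrix.mul_apply, Fin.sum_univ_two] at e00 e01 e10 e11
    rw [Matrix.det_fin_two] at hdet
    rw [Matrix.trace_fin_two]
    simp only [Matrix.zero_apply] at e00 e01 e10 e11
    have h2 : (N 0 0 + N 1 1) * (N 0 0 + N 1 1) = 0 := by linear_combination e00 + e11 + 2 * hdet
    exact mul_self_eq_zero.mp h2
  have hTφ : T φ * T φ = ((q : B) ^ 2) • (1 : Matrix (Fin 2) (Fin 2) B) + N := by
    rw [hN, hy, map_sub, map_mul, Tt_of, AlgHom.commutes, Algebra.algebraMap_eq_smul_one]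
    abel
  have h2 := congrArg Matrix.det hTφ
  rw [Matrix.det_mul, hφ, Matrix.det_fin_two] at h2
  rw [Matrix.det_fin_two] at hdet
  rw [Matrix.trace_fin_two] at htr
  simp only [Matrix.add_apply, Matrix.smul_apply, Matrix.one_apply, smul_eq_mul] at h2
  norm_num at h2
  have h3 : (q : B) * q = (q : B) ^ 4 := by
    linear_combination h2 + (q : B) ^ 2 * htr + hdet
  have h4 : (q * q : ℕ) = q ^ 4 := by exact_mod_cast h3
  have h5 : q * q < q ^ 4 := by
    calc q * q = q ^ 2 := (sq q).symm
      _ < q ^ 4 := Nat.pow_lt_pow_right (by omega) (by norm_num)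
  omega

end Fermat.Agent.SSMod
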