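import Fermat.Agent.SSMod.S35Core
import Fermat.Agent.SSMod.RamAlg

/-!
# Flat extension of families of relations, and the eigenspace as a representation
-/

set_option autoImplicit false
set_option linter.style.haveILetI false
set_option maxHeartbeats 400000
set_option synthInstance.maxHeartbeats 200000

noncomputable section

namespace Fermat.Agent.SSMod

open Fermat.Agent.DefRing IsLocalRing Matrix Fermat.Agent.GalRep Fermat.Agent.GalRep.HData

local notation "Qbar" => AlgebraicClosure ℚ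
local notation "GQ" => Qbar ≃ₐ[ℚ] Qbar

section Flat

variable {p : ℕ} [Fact p.Prime]

/-- inclusions of common kernels extend to torsion-free extensions -/
theorem ker_ext_family {r : ℕ} {B : Type} [CommRing B] [IsDomain B] {f : ℤ_[p] →+* B}
    (hf : Function.Injective f) {J : Type*} {N₁ : J → Matrix (Fin r) (Fin r) ℤ_[p]}
    {N₂ : Matrix (Fin r) (Fin r) ℤ_[p]}
    (h : ∀ x : Fin r → ℤ_[p], (∀ j, N₁ j *ᵥ x = 0) → N₂ *ᵥ x = 0) {v : Fin r → B}
    (hv : ∀ j, f.mapMatrix (N₁ j) *ᵥ v = 0) : f.mapMatrix N₂ *ᵥ v = 0 := by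
  letI := f.toAlgebra
  haveI : FaithfulSMul ℤ_[p] B := (faithfulSMul_iff_algebraMap_injective ℤ_[p] B).mpr hf
  haveI : Module.IsTorsionFree ℤ_[p] B := inferInstance
  haveI : Module.Flat ℤ_[p] B := inferInstance
  let x : (Fin r → ℤ_[p]) →ₗ[ℤ_[p]] B := Fintype.linearCombination ℤ_[p] v
  have hx : ∀ a, x a = ∑ i, f (a i) * v i := fun a => by
    rw [Fintype.linearCombination_apply]
    exact Finset.sum_congr rfl fun i _ => Algebra.smul_def _ _
  have hmv : ∀ (N : Matrix (Fin r) (Fin r) ℤ_[p]) i, (f.mapMatrix N *ᵥ v) i = x (N i) := by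
    intro N i
    rw [hx, Matrix.mulVec, dotProduct]
    rfl
  let S : Submodule ℤ_[p] (Fin r → ℤ_[p]) :=
    Submodule.span ℤ_[p] (Set.range fun ji : J × Fin r => N₁ ji.1 ji.2)
  have h0 : x ∘ₗ S.subtype = 0 := by
    have h1 : S ≤ LinearMap.ker x := by
      refine Submodule.span_le.mpr ?_
      rintro _ ⟨⟨j, i⟩, rfl⟩
      exact (hmv (N₁ j) i).symm.trans (congrFun (hv j) i)
    ext ⟨s, hs⟩
    exact h1 hs
  obtain ⟨k, a, y, hxa, ha⟩ := Module.Flat.exists_factorization_of_comp_eq_zero_of_free h0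
  have key : ∀ l : Fin k, ∀ j, N₁ j *ᵥ (fun j => a (Pi.single j 1) l) = 0 := by
    intro l j
    ext i
    have h1 : a (N₁ j i) = 0 :=
      LinearMap.congr_fun ha ⟨N₁ j i, Submodule.subset_span ⟨(j, i), rfl⟩⟩
    have h2 : N₁ j i = ∑ j', N₁ j i j' • Pi.single j' (1 : ℤ_[p]) := by
      ext j
      simp [Finset.sum_apply, Pi.single_apply]
    rw [h2, map_sum] at h1
    have h3 := DFunLike.congr_fun h1 l
    rw [Finsupp.finsetSum_apply] at h3
    rw [Matrix.mulVec, dotProduct]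
    refine (Finset.sum_congr rfl fun j _ => ?_).trans h3
    rw [map_smul, Finsupp.smul_apply, smul_eq_mul]
  ext i
  rw [hmv, hxa, LinearMap.comp_apply]
  have h2 : N₂ i = ∑ j, N₂ i j • Pi.single j (1 : ℤ_[p]) := by
    ext j
    simp [Finset.sum_apply, Pi.single_apply]
  have h4 : a (N₂ i) = 0 := by
    ext l
    rw [h2, map_sum, Finsupp.finsetSum_apply]
    have h5 := congrFun (h _ (key l)) i
    rw [Matrix.mulVec, dotProduct] at h5
    refine (Finset.sum_congr rfl fun j _ => ?_).trans h5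
    rw [map_smul, Finsupp.smul_apply, smul_eq_mul]
  rw [h4, map_zero]
  rfl

/-- extension of the relation on inertia-invariant vectors -/
theorem ram_rel_ext {r q : ℕ} {G : Type*} {I : Set G} {R : G → Matrix (Fin r) (Fin r) ℤ_[p]}
    {Φ U : Matrix (Fin r) (Fin r) ℤ_[p]}
    (H : ∀ x z : Fin r → ℤ_[p], U *ᵥ (U *ᵥ x) = x → (∀ τ ∈ I, R τ *ᵥ x = x) →
      z = Φ *ᵥ (Φ *ᵥ x) - (q ^ 2) • x → Φ *ᵥ (Φ *ᵥ z) = (q ^ 2) • z)
    {B : Type} [CommRing B] [IsDomain B] {f : ℤ_[p] →+* B} (hf : Function.Injective f)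
    {x z : Fin r → B}
    (hx : f.mapMatrix U *ᵥ (f.mapMatrix U *ᵥ x) = x)
    (hin : ∀ τ ∈ I, f.mapMatrix (R τ) *ᵥ x = x)
    (hz : z = f.mapMatrix Φ *ᵥ (f.mapMatrix Φ *ᵥ x) - ((q : B) ^ 2) • x) :
    f.mapMatrix Φ *ᵥ (f.mapMatrix Φ *ᵥ z) = ((q : B) ^ 2) • z := by
  let E : Matrix (Fin r) (Fin r) ℤ_[p] := 1
  have h2 : ∀ w : Fin r → ℤ_[p], (q ^ 2) • w = (q : ℤ_[p]) ^ 2 • w := by
    intro w
    rw [← Nat.cast_smul_eq_nsmul ℤ_[p], Nat.cast_pow]
  let N₁ : Option I → Matrix (Fin r) (Fin r) ℤ_[p] := fun o => match o with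
    | none => U * U - 1
    | some τ => R τ - 1
  have key := ker_ext_family hf (N₁ := N₁)
    (N₂ := (Φ * Φ - (q : ℤ_[p]) ^ 2 • E) * (Φ * Φ - (q : ℤ_[p]) ^ 2 • E))
    (fun x hx => by
      have hx0 : U *ᵥ (U *ᵥ x) = x := by
        have := hx none
        rw [Matrix.sub_mulVec, Matrix.one_mulVec, sub_eq_zero, ← Matrix.mulVec_mulVec] at this
        exact this
      have hx1 : ∀ τ ∈ I, R τ *ᵥ x = x := by
        intro τ hτ
        have := hx (some ⟨τ, hτ⟩)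
        rw [Matrix.sub_mulVec, Matrix.one_mulVec, sub_eq_zero] at this
        exact this
      have h1 := H x _ hx0 hx1 rfl
      rw [← Matrix.mulVec_mulVec]
      simp only [E, Matrix.sub_mulVec, Matrix.smul_mulVec, Matrix.one_mulVec,
        ← Matrix.mulVec_mulVec]
      rw [sub_eq_zero]
      simp only [h2] at h1
      exact h1) (v := x) (fun o => by
      match o with
      | none =>
        show f.mapMatrix (U * U - 1) *ᵥ x = 0
        rw [map_sub, map_mul, map_one, Matrix.sub_mulVec, Matrix.one_mulVec,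
          ← Matrix.mulVec_mulVec, hx, sub_self]
      | some τ =>
        show f.mapMatrix (R τ - 1) *ᵥ x = 0
        rw [map_sub, map_one, Matrix.sub_mulVec, Matrix.one_mulVec, hin τ τ.2, sub_self])
  have hI : f.mapMatrix ((q : ℤ_[p]) ^ 2 • E) = (q : B) ^ 2 • (1 : Matrix (Fin r) (Fin r) B) := by
    ext a b
    rw [RingHom.mapMatrix_apply, Matrix.map_apply, Matrix.smul_apply, Matrix.smul_apply,
      smul_eq_mul, smul_eq_mul, map_mul, map_pow, map_natCast]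
    congr 1
    show f ((1 : Matrix (Fin r) (Fin r) ℤ_[p]) a b) = (1 : Matrix (Fin r) (Fin r) B) a b
    rw [Matrix.one_apply, Matrix.one_apply]
    split_ifs <;> simp
  rw [map_mul, map_sub, map_mul, hI] at key
  rw [← Matrix.mulVec_mulVec] at key
  simp only [Matrix.sub_mulVec, Matrix.smul_mulVec, Matrix.one_mulVec,
        ← Matrix.mulVec_mulVec] at key
  rw [hz]
  exact sub_eq_zero.mp key

end Flat

section Eig

variable {N p : ℕ} [Fact p.Prime] {D : HData N p} {S : Set ℕ} {B : Type} [CommRing B]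

/-- the eigenspace -/
def Weig (π : D.TT S →+* B) (UB : Matrix (Fin D.r) (Fin D.r) B) : Submodule B (Fin D.r → B) where
  carrier := {v | (∀ x : D.TT S, castHom D.r B (x : Matrix (Fin D.r) (Fin D.r) ℤ) *ᵥ v =
    π x • v) ∧ UB *ᵥ (UB *ᵥ v) = v}
  zero_mem' := ⟨fun x => by rw [Matrix.mulVec_zero, smul_zero], by
    rw [Matrix.mulVec_zero, Matrix.mulVec_zero]⟩
  add_mem' := by
    rintro v w ⟨h1, h2⟩ ⟨h3, h4⟩
    exact ⟨fun x => by rw [Matrix.mulVec_add, h1, h3, smul_add], by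
      rw [Matrix.mulVec_add, Matrix.mulVec_add, h2, h4]⟩
  smul_mem' := by
    rintro c v ⟨h1, h2⟩
    exact ⟨fun x => by rw [Matrix.mulVec_smul, h1, smul_comm], by
      rw [Matrix.mulVec_smul, Matrix.mulVec_smul, h2]⟩

theorem mem_Weig {π : D.TT S →+* B} {UB : Matrix (Fin D.r) (Fin D.r) B} {v : Fin D.r → B} :
    v ∈ Weig π UB ↔ (∀ x : D.TT S, castHom D.r B (x : Matrix (Fin D.r) (Fin D.r) ℤ) *ᵥ v =
      π x • v) ∧ UB *ᵥ (UB *ᵥ v) = v := Iff.rfl

/-- matrices over `ℤ` -/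
theorem map_castHom' {r : ℕ} (f : ℤ_[p] →+* B) (A : Matrix (Fin r) (Fin r) ℤ) :
    f.mapMatrix (castHom r ℤ_[p] A) = castHom r B A := by
  ext a b
  show f ((A a b : ℤ) : ℤ_[p]) = _
  rw [map_intCast]
  rfl

theorem rho_mem_Weig {π : D.TT S →+* B} {U : Matrix (Fin D.r) (Fin D.r) ℤ_[p]}
    (f : ℤ_[p] →+* B) (hU : ∀ g, D.ρ g * U = U * D.ρ g) (g : GQ) {v : Fin D.r → B}
    (hv : v ∈ Weig π (f.mapMatrix U)) :
    f.mapMatrix (D.ρ g) *ᵥ v ∈ Weig π (f.mapMatrix U) := by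
  obtain ⟨h1, h2⟩ := hv
  have hU' : f.mapMatrix U * f.mapMatrix (D.ρ g) = f.mapMatrix (D.ρ g) * f.mapMatrix U := by
    rw [← map_mul, ← map_mul, hU]
  refine ⟨fun x => ?_, ?_⟩
  · rw [← map_castHom' f, Matrix.mulVec_mulVec, ← map_mul, ← rho_comm_mem g x.2, map_mul,
      ← Matrix.mulVec_mulVec, map_castHom', h1, Matrix.mulVec_smul]
  · rw [Matrix.mulVec_mulVec (M := f.mapMatrix U) (N := f.mapMatrix (D.ρ g)), hU',
      ← Matrix.mulVec_mulVec, Matrix.mulVec_mulVec (M := f.mapMatrix U) (N := f.mapMatrix (D.ρ g)),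
      hU', ← Matrix.mulVec_mulVec, h2]

/-- the representation on the eigenspace -/
def rhoW (π : D.TT S →+* B) (U : Matrix (Fin D.r) (Fin D.r) ℤ_[p]) (f : ℤ_[p] →+* B)
    (hU : ∀ g, D.ρ g * U = U * D.ρ g) : GQ →* Module.End B (Weig π (f.mapMatrix U)) where
  toFun g := (Matrix.mulVecLin (f.mapMatrix (D.ρ g))).restrict fun _ hv => rho_mem_Weig f hU g hv
  map_one' := by
    ext v : 1
    apply Subtype.ext
    show f.mapMatrix (D.ρ 1) *ᵥ (v : Fin D.r → B) = v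
    rw [map_one, map_one, Matrix.one_mulVec]
  map_mul' g h := by
    ext v : 1
    apply Subtype.ext
    show f.mapMatrix (D.ρ (g * h)) *ᵥ (v : Fin D.r → B) =
      f.mapMatrix (D.ρ g) *ᵥ (f.mapMatrix (D.ρ h) *ᵥ (v : Fin D.r → B))
    rw [map_mul, map_mul, Matrix.mulVec_mulVec]

theorem coe_rhoW {π : D.TT S →+* B} {U : Matrix (Fin D.r) (Fin D.r) ℤ_[p]} {f : ℤ_[p] →+* B}
    {hU : ∀ g, D.ρ g * U = U * D.ρ g} (g : GQ) (v : Weig π (f.mapMatrix U)) :
    (rhoW π U f hU g v : Fin D.r → B) = f.mapMatrix (D.ρ g) *ᵥ (v : Fin D.r → B) := rfl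

end Eig

/-- **Ramification at a Steinberg prime**, from an eigenvector. -/
theorem exists_ram_of_eigvec {N p : ℕ} [NeZero N] [Fact p.Prime] {D : HData N p} {S : Set ℕ}
    (hS : S.Finite)
    {B : Type} [CommRing B] [IsDomain B] [IsLocalRing B] [CharZero B]
    [IsAdicComplete (maximalIdeal B) B] (hp : (p : B) ∈ maximalIdeal B) {π : D.TT S →+* B}
    {T : GQ →* Matrix (Fin 2) (Fin 2) B} (hT : MatCont T)
    (hspan : Submodule.span B (Set.range T) = ⊤) (hπ : FrobCond π T)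
    {v : Fin D.r → B} (hv0 : v ≠ 0)
    (hv : ∀ x : D.TT S, castHom D.r B (x : Matrix (Fin D.r) (Fin D.r) ℤ) *ᵥ v = π x • v)
    {q : ℕ} (hq : 2 ≤ q) {σ : GQ} (hc : cycP p σ = (q : ℤ_[p]))
    {U : Matrix (Fin D.r) (Fin D.r) ℤ_[p]} (hUc : ∀ g, D.ρ g * U = U * D.ρ g) {I : Set GQ}
    (H : ∀ x z : Fin D.r → ℤ_[p], U *ᵥ (U *ᵥ x) = x → (∀ τ ∈ I, D.ρ τ *ᵥ x = x) →
      z = D.ρ σ *ᵥ (D.ρ σ *ᵥ x) - (q ^ 2) • x → D.ρ σ *ᵥ (D.ρ σ *ᵥ z) = (q ^ 2) • z)
    (hU : (padicTo p (maximalIdeal B) hp).mapMatrix U *ᵥ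
      ((padicTo p (maximalIdeal B) hp).mapMatrix U *ᵥ v) = v) : ∃ τ ∈ I, T τ ≠ 1 := by
  set f := padicTo p (maximalIdeal B) hp with hf
  have hfi : Function.Injective f := padicTo_injective hp
  have hvW : v ∈ Weig π (f.mapMatrix U) := ⟨hv, hU⟩
  haveI : Nontrivial (Weig π (f.mapMatrix U)) :=
    ⟨⟨⟨v, hvW⟩, 0, fun h => hv0 (congrArg Subtype.val h)⟩⟩
  have hdet : (T σ).det = (q : B) := by
    have := det_of_cycP hS (NeZero.ne N) hp hT hπ (σ := σ) (y := (q : ℤ)) (by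
      rw [hc, Int.cast_natCast])
    rw [this, Int.cast_natCast]
  refine exists_ram (ρ := rhoW π U f hUc)
    (χ := ((f : ℤ_[p] →* B).comp (cycP p))) hspan (fun g => ?_) hq hdet (fun v z h1 h2 => ?_)
  · ext w : 1
    apply Subtype.ext
    have h3 := trace_smul_eig hS (NeZero.ne N) hp hT hπ w.2.1 g
    rw [← hf, th, map_add] at h3
    show f.mapMatrix (D.ρ g) *ᵥ (w : Fin D.r → B) +
      f (cycP p g) • (f.mapMatrix (D.ρ g⁻¹) *ᵥ (w : Fin D.r → B)) =
        (T g).trace • (w : Fin D.r → B)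
    have h4 : f.mapMatrix (cycP p g • D.ρ g⁻¹) = f (cycP p g) • f.mapMatrix (D.ρ g⁻¹) := by
      ext a b
      exact map_mul f _ _
    rw [← h3, Matrix.add_mulVec, h4, Matrix.smul_mulVec]
  · apply Subtype.ext
    refine ram_rel_ext H hfi (x := (v : Fin D.r → B)) (z := (z : Fin D.r → B)) v.2.2
      (fun τ hτ => congrArg Subtype.val (h1 τ hτ)) ?_
    rw [h2]
    rfl

end Fermat.Agent.SSMod
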