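import Fermat.Agent.SSMod.S35Core
import Fermat.Agent.SSMod.JL

/-!
# S35
-/

set_option autoImplicit false
set_option linter.style.haveILetI false
set_option maxHeartbeats 1000000
set_option synthInstance.maxHeartbeats 200000

noncomputable section

namespace Fermat.Agent.SSMod

open Fermat.Agent.DefRing IsLocalRing Matrix Fermat.Agent.GalRep Fermat.Agent.GalRep.HData
open CuspForm Polynomial Fermat.Agent.AnJac Fermat.Agent.HeckeQ
open DSLift (heckeOp)
open ModularFormClass (qCoeff)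

local notation "Qbar" => AlgebraicClosure ℚ
local notation "GQ" => Qbar ≃ₐ[ℚ] Qbar

/-- the eigenvector property on generators -/
theorem eig_of_gen {N p : ℕ} [Fact p.Prime] {D : HData N p} {S : Set ℕ} {B : Type} [CommRing B]
    {π : D.TT S →+* B} {w : Fin D.r → B}
    (h : ∀ (ℓ : ℕ) (hℓ : ℓ.Prime) (hℓN : ¬ ℓ ∣ N * p) (hℓS : ℓ ∉ S),
      castHom D.r B (D.T ℓ) *ᵥ w = π ⟨D.T ℓ, T_mem hℓ hℓN hℓS⟩ • w) (x : D.TT S) :
    castHom D.r B (x : Matrix (Fin D.r) (Fin D.r) ℤ) *ᵥ w = π x • w := by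
  obtain ⟨x, hx⟩ := x
  show castHom D.r B x *ᵥ w = π ⟨x, hx⟩ • w
  induction hx using Algebra.adjoin_induction with
  | mem x hx =>
    obtain ⟨ℓ, hℓ, hℓN, hℓS, rfl⟩ := hx
    exact h ℓ hℓ hℓN hℓS
  | algebraMap m =>
    have h1 : (⟨algebraMap ℤ _ m, (D.TT S).algebraMap_mem m⟩ : D.TT S) = (m : D.TT S) :=
      Subtype.ext (eq_intCast (algebraMap ℤ (Matrix (Fin D.r) (Fin D.r) ℤ)) m)
    have h2 : castHom D.r B (algebraMap ℤ (Matrix (Fin D.r) (Fin D.r) ℤ) m) =
        algebraMap B (Matrix (Fin D.r) (Fin D.r) B) (m : B) := by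
      rw [eq_intCast, map_intCast, map_intCast]
    rw [h2, Algebra.algebraMap_eq_smul_one, Matrix.smul_mulVec, Matrix.one_mulVec]
    refine Eq.trans ?_ (congrArg (fun z => π z • w) h1.symm)
    show _ = π (m : D.TT S) • w
    rw [map_intCast]
  | add x y hx' hy' hx hy =>
    rw [map_add, Matrix.add_mulVec, hx, hy, ← add_smul, ← map_add]
    rfl
  | mul x y hx' hy' hx hy =>
    rw [map_mul, ← Matrix.mulVec_mulVec, hy, Matrix.mulVec_smul, hx, smul_smul, mul_comm,
      ← map_mul]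
    rfl

/-- the trace of Frobenius at `q ∥ M` for the representation attached to a newform -/
theorem trace_newform (HJ : JL23) {M : ℕ} [NeZero M]
    {g : CuspForm (CongruenceSubgroup.Gamma0 M) 2} (hg : g.IsNewform)
    {lam : ℕ} [Fact lam.Prime] (S : Finset ℕ)
    {B : Type} [CommRing B] [IsDomain B] [IsLocalRing B] [CharZero B]
    [IsAdicComplete (maximalIdeal B) B] (hp : (lam : B) ∈ maximalIdeal B)
    (chig : CuspForm.heckeAlgebra M 2 (↑S : Set ℕ) →+* ℂ)
    (hchig : ∀ (ℓ : ℕ) (hℓ : ℓ.Prime) (hℓM : ¬ ℓ ∣ M) (hℓS : ℓ ∉ (↑S : Set ℕ)),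
      chig (CuspForm.heckeAlgebra.T hℓ hℓM hℓS) = ModularFormClass.qCoeff g ℓ)
    (iota : chig.range →+* B)
    {T : GQ →* Matrix (Fin 2) (Fin 2) B} (hT : MatCont T)
    (hπ : FrobCond (D := hdata M lam (esHyp M lam)) (S := (↑S : Set ℕ))
      ((iota.comp chig.rangeRestrict).comp (HData.Phi (↑S : Set ℕ) (hdata_link (esHyp M lam)))) T)
    {q : ℕ} (hq : q.Prime) (hqp : q ≠ lam) (hqM : q ∣ M) (hq2 : ¬ q ^ 2 ∣ M)
    {A : ValuationSubring Qbar} (hA : A.LiesOverPrime q) {σ : GQ} (hσ : A.IsFrobeniusAt σ q) :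
    (T σ).trace = (q : B) + 1 ∨ (T σ).trace = -((q : B) + 1) := by
  haveI : NeZero q := ⟨hq.ne_zero⟩
  set D : HData M lam := hdata M lam (esHyp M lam) with hD
  have hε : qCoeff g q = 1 ∨ qCoeff g q = -1 := by
    have h := Newform.qCoeff_bad_sq hg hq hqM hq2
    exact sq_eq_one_iff.mp h
  have hεC : qCoeff g q ∈ chig.range := by
    rcases hε with h | h
    · rw [h]; exact one_mem _
    · rw [h]; exact neg_mem (one_mem _)
  let t : Option (HData.Jx M lam (↑S : Set ℕ)) → PrimeT := fun i => match i with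
    | none => ⟨q, hq⟩
    | some i => ⟨i.1, i.2.1⟩
  let e : Option (HData.Jx M lam (↑S : Set ℕ)) → chig.range := fun i => match i with
    | none => ⟨qCoeff g q, hεC⟩
    | some i => chig.rangeRestrict
        (CuspForm.heckeAlgebra.T i.2.1 (fun h => i.2.2.1 (h.mul_right lam)) i.2.2.2)
  have he : ∀ i, (e i : ℂ) = qCoeff g (t i).1 := by
    intro i
    match i with
    | none => rfl
    | some i => exact hchig i.1 i.2.1 _ _
  let K := FractionRing B
  haveI : CharZero K := IsFractionRing.charZero_of_isFractionRing B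
  obtain ⟨v, hv, hve⟩ := exists_eigvec_newform hg.isNormalizedEigenform t e he
    ((algebraMap B K).comp iota)
  obtain ⟨w, hw, hwe⟩ := exists_int_vec (fun i => KSys.tm (bL M) (LTot M (t i).1))
    (fun i => iota (e i)) hv hve
  have hwU := hwe none
  have hwT := fun i => hwe (some i)
  refine trace_of_eigvec (D := D) (S := (↑S : Set ℕ)) S.finite_toSet hp hT hπ (v := w) hw ?_
    (cycP_frob lam hq hA hqp hσ)
    (U := castHom _ ℤ_[lam] (KSys.tm (bL M) (LU M q hqM)))
    (fun x y z h1 h2 h3 => frob_vec HJ hq hqM hq2 hqp hA hσ h1 h2 h3) ?_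
  · refine eig_of_gen fun ℓ hℓ hℓN hℓS => ?_
    rw [RingHom.comp_apply]
    have h1 := HData.Phi_T (↑S : Set ℕ) (hdata_link (esHyp M lam)) hℓ hℓN hℓS
    have h2 := hwT ⟨ℓ, hℓ, hℓN, hℓS⟩
    refine h2.trans ?_
    exact congrArg (fun z => ((iota.comp chig.rangeRestrict) z) • w) h1.symm
  · have hcast : (padicTo lam (maximalIdeal B) hp).mapMatrix
        (castHom (Module.finrank ℤ (Lat M)) ℤ_[lam] (KSys.tm (bL M) (LU M q hqM))) =
        castHom _ B (KSys.tm (bL M) (LU M q hqM)) := by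
      ext a b
      show padicTo lam (maximalIdeal B) hp ((KSys.tm (bL M) (LU M q hqM) a b : ℤ) : ℤ_[lam]) = _
      rw [map_intCast]
      rfl
    have h1 : castHom _ B (KSys.tm (bL M) (LU M q hqM)) *ᵥ w = iota (e none) • w := by
      rw [← LTot_of_dvd M q hq hqM]
      exact hwU
    have h2 : iota (e none) * iota (e none) = 1 := by
      rw [← map_mul]
      have : e none * e none = 1 := Subtype.ext (by
        show qCoeff g q * qCoeff g q = 1
        rw [← sq]
        exact Newform.qCoeff_bad_sq hg hq hqM hq2)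
      rw [this, map_one]
    refine Eq.trans (congrArg₂ (· *ᵥ ·) hcast (congrArg₂ (· *ᵥ ·) hcast rfl)) ?_
    show castHom _ B (KSys.tm (bL M) (LU M q hqM)) *ᵥ
      (castHom _ B (KSys.tm (bL M) (LU M q hqM)) *ᵥ w) = w
    rw [h1, Matrix.mulVec_smul, h1, smul_smul, h2, one_smul]

end Fermat.Agent.SSMod
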