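import Fermat.Agent.SSMod.RamN
import Fermat.Agent.SSMod.FrobRho

/-!
# Inertia-invariant vectors with `U_q² = 1` in the Tate module
-/

set_option autoImplicit false
set_option linter.unusedSectionVars false
set_option linter.style.haveILetI false
set_option linter.unusedVariables false
set_option synthInstance.maxHeartbeats 400000

noncomputable section

namespace Fermat.Agent.SSMod

open ModularCurve Fermat.Agent.GoodRed Fermat.Agent.Models Fermat.Agent.ModFun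
open Fermat.Agent.GenusX0 Fermat.Agent.Curves Fermat.Agent.AnJac AlgebraicCurve IsLocalRing
open Fermat.Agent.HeckeQ Fermat.Agent.GalRep Matrix
open scoped Pointwise

local notation "ℒ" => LaurentSeries
local notation "Qbar" => AlgebraicClosure ℚ
local notation "GQ" => Qbar ≃ₐ[ℚ] Qbar

variable {A : ValuationSubring Qbar} {q : ℕ}

set_option maxHeartbeats 1000000 in
theorem ram_vec_mod (H : JL23) {N : ℕ} [NeZero N] (hq : q.Prime) [NeZero q]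
    (hqN : q ∣ N) (hq2 : ¬ q ^ 2 ∣ N) (hA : A.LiesOverPrime q)
    {σ : GQ} (hσ : A.IsFrobeniusAt σ q) :
    ∃ D : ℕ, 0 < D ∧ ∀ (n : ℕ) (hn0 : n ≠ 0), ¬ q ∣ n →
      ∀ x y z : Fin (Module.finrank ℤ (Lat N)) → ZMod n,
      ((Int.castRingHom (ZMod n)).mapMatrix (KSys.tm (bL N) (LU N q hqN)) *ᵥ
        ((Int.castRingHom (ZMod n)).mapMatrix (KSys.tm (bL N) (LU N q hqN)) *ᵥ x) = x) →
      (∀ τ ∈ A.inertiaSubgroupIn ℚ, (KQ N).M (bL N) hn0 τ *ᵥ x = x) →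
      y = D • x →
      z = (KQ N).M (bL N) hn0 σ *ᵥ ((KQ N).M (bL N) hn0 σ *ᵥ y) - (q ^ 2) • y →
      (KQ N).M (bL N) hn0 σ *ᵥ ((KQ N).M (bL N) hn0 σ *ᵥ z) = (q ^ 2) • z := by
  obtain ⟨M, rfl⟩ := hqN
  haveI : NeZero M := ⟨fun h => NeZero.ne (q * M) (by rw [h, mul_zero])⟩
  have hqM : ¬ q ∣ M := by
    rintro ⟨M', rfl⟩
    exact hq2 ⟨M', by ring⟩
  obtain ⟨D, hD, HD⟩ := ramAt_all H hq hA hqM hσ
  refine ⟨D, hD, fun n hn0 hn x y z hx hin hy hz => ?_⟩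
  obtain ⟨ζ, hζ⟩ := exists_zeta q
  obtain ⟨u, hu⟩ := (KQ (q * M)).exists_cls (bL (q * M)) hn0 x
  have hu0 := hu.ne_zero
  have hu0' : (u : ℒ Qbar) ≠ 0 := fun h => hu0 (Subtype.ext h)
  have hU := (hu.compat (compat_LU (N := q * M) ιQ fQ (dvd_mul_right q M) hζ)).compat
    (compat_LU (N := q * M) ιQ fQ (dvd_mul_right q M) hζ)
  rw [hx] at hU
  obtain ⟨f, hf0, hf⟩ := hU.exists_pow hn0 hu
  have hf0' : (f : ℒ Qbar) ≠ 0 := fun h => hf0 (Subtype.ext h)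
  have hu' := hu
  obtain ⟨φ, hφ, -⟩ := hu'
  set Φ := (KQ (q * M)).act σ with hΦ
  have hcoe : ∀ a, ((Φ a : modularFunctionFieldFullC Qbar (q * M)) : ℒ Qbar) =
      coeffMap ((σ : Qbar ≃+* Qbar) : Qbar →+* Qbar) (a : ℒ Qbar) := fun a => rfl
  set v := u ^ D with hv
  set w := Φ (Φ v) / v ^ (q ^ 2) with hw
  have hUf : hW q (hW q (u : ℒ Qbar)) = (u : ℒ Qbar) * (f : ℒ Qbar) ^ n := by
    rw [← AnJacH.heckeW_eq_hW hζ, ← AnJacH.heckeW_eq_hW hζ]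
    exact congrArg Subtype.val hf
  obtain ⟨g, hg, he⟩ := HD n hn (u : ℒ Qbar) (f : ℒ Qbar) u.2 f.2 hu0' hf0'
    hUf (fun P => ClX.dvd_ord ιQ hφ P) (fun τ hτ => by
      have h1 := hu.act hn0 τ
      rw [hin τ hτ] at h1
      obtain ⟨g, hg0, hg⟩ := h1.exists_pow hn0 hu
      exact ⟨g, g.2, congrArg Subtype.val hg⟩) (v : ℒ Qbar) (w : ℒ Qbar) rfl rfl
  have hΦ0 : ∀ {a}, a ≠ 0 → Φ a ≠ 0 := fun ha => (map_ne_zero _).mpr ha
  have hv0 : v ≠ 0 := pow_ne_zero _ hu0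
  have hw0 : w ≠ 0 := div_ne_zero (hΦ0 (hΦ0 hv0)) (pow_ne_zero _ hv0)
  have h1 : (KQ (q * M)).Cls (bL (q * M)) n v y := by
    rw [hy]
    exact KSys.Cls.npow hn0 hu D
  have h2 : (KQ (q * M)).Cls (bL (q * M)) n w z := by
    rw [hz]
    exact KSys.Cls.div hn0 ((h1.act hn0 σ).act hn0 σ) (KSys.Cls.npow hn0 h1 _)
  have h3 := KSys.Cls.div hn0 ((h2.act hn0 σ).act hn0 σ) (KSys.Cls.npow hn0 h2 (q ^ 2))
  have e : Φ (Φ w) / w ^ (q ^ 2) = (⟨g, hg⟩ : modularFunctionFieldFullC Qbar (q * M)) ^ n :=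
    Subtype.ext he
  have hg0 : (⟨g, hg⟩ : modularFunctionFieldFullC Qbar (q * M)) ≠ 0 := by
    intro h
    rw [h, zero_pow hn0] at e
    exact div_ne_zero (hΦ0 (hΦ0 hw0)) (pow_ne_zero _ hw0) e
  rw [← hΦ, e] at h3
  have h4 := h3.unique hn0 (KSys.cls_pow hn0 hg0)
  rwa [sub_eq_zero] at h4

/-- passage from finite level to `ℤ_p` -/
theorem padic_step {r p : ℕ} [Fact p.Prime] {T : Type*} {I : Set T} {q D : ℕ} (hD : 0 < D)
    {R : T → Matrix (Fin r) (Fin r) ℤ_[p]} {U Φ : Matrix (Fin r) (Fin r) ℤ_[p]}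
    (H : ∀ (n : ℕ) (x y z : Fin r → ZMod (p ^ n)),
      (PadicInt.toZModPow n).mapMatrix U *ᵥ ((PadicInt.toZModPow n).mapMatrix U *ᵥ x) = x →
      (∀ τ ∈ I, (PadicInt.toZModPow n).mapMatrix (R τ) *ᵥ x = x) → y = D • x →
      z = (PadicInt.toZModPow n).mapMatrix Φ *ᵥ ((PadicInt.toZModPow n).mapMatrix Φ *ᵥ y) -
        (q ^ 2) • y →
      (PadicInt.toZModPow n).mapMatrix Φ *ᵥ ((PadicInt.toZModPow n).mapMatrix Φ *ᵥ z) =
        (q ^ 2) • z)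
    {x z : Fin r → ℤ_[p]} (hx : U *ᵥ (U *ᵥ x) = x) (hin : ∀ τ ∈ I, R τ *ᵥ x = x)
    (hz : z = Φ *ᵥ (Φ *ᵥ x) - (q ^ 2) • x) : Φ *ᵥ (Φ *ᵥ z) = (q ^ 2) • z := by
  have hmain : Φ *ᵥ (Φ *ᵥ (D • z)) = (q ^ 2) • (D • z) := by
    ext i
    rw [← PadicInt.ext_of_toZModPow]
    intro n
    have hmv : ∀ (T : Matrix (Fin r) (Fin r) ℤ_[p]) (x : Fin r → ℤ_[p]),
        (fun i => PadicInt.toZModPow n ((T *ᵥ x) i)) =
          (PadicInt.toZModPow n).mapMatrix T *ᵥ fun i => PadicInt.toZModPow n (x i) := by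
      intro T x
      ext j
      exact RingHom.map_mulVec _ _ _ _
    have hsm : ∀ (m : ℕ) (x : Fin r → ℤ_[p]),
        (fun i => PadicInt.toZModPow n ((m • x) i)) = m • fun i => PadicInt.toZModPow n (x i) := by
      intro m x
      ext j
      exact map_nsmul _ _ _
    have hsub : ∀ (x y : Fin r → ℤ_[p]),
        (fun i => PadicInt.toZModPow n ((x - y) i)) =
          (fun i => PadicInt.toZModPow n (x i)) - fun i => PadicInt.toZModPow n (y i) := by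
      intro x y
      ext j
      exact map_sub _ _ _
    have hDz : D • z = Φ *ᵥ (Φ *ᵥ (D • x)) - (q ^ 2) • (D • x) := by
      rw [hz, Matrix.mulVec_smul, Matrix.mulVec_smul, smul_sub, smul_comm D]
    have key := H n
      (fun i => PadicInt.toZModPow n (x i)) (fun i => PadicInt.toZModPow n ((D • x) i))
      (fun i => PadicInt.toZModPow n ((D • z) i)) (by
        rw [← hmv, ← hmv, hx]) (fun τ hτ => by
        rw [← hmv, hin τ hτ]) (hsm D x) (by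
        rw [← hmv, ← hmv, ← hsm, ← hsub, ← hDz])
    rw [← hmv, ← hmv, ← hsm] at key
    exact congrFun key i
  rw [Matrix.mulVec_smul, Matrix.mulVec_smul, smul_comm (q ^ 2) D] at hmain
  ext i
  have h1 := congrFun hmain i
  rw [Pi.smul_apply, Pi.smul_apply, nsmul_eq_mul, nsmul_eq_mul] at h1
  exact mul_left_cancel₀ (by exact_mod_cast hD.ne') h1

/-- **Inertia-invariant vectors**: `(Φ² - q²)² v = 0` if `U_q² v = v` and inertia fixes `v`. -/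
theorem ram_vec (H : JL23) {N p : ℕ} [NeZero N] [Fact p.Prime] (hq : q.Prime) [NeZero q]
    (hqN : q ∣ N) (hq2 : ¬ q ^ 2 ∣ N) (hqp : q ≠ p) (hA : A.LiesOverPrime q)
    {σ : GQ} (hσ : A.IsFrobeniusAt σ q)
    {x z : Fin (Module.finrank ℤ (Lat N)) → ℤ_[p]}
    (hx : (Int.castRingHom ℤ_[p]).mapMatrix (KSys.tm (bL N) (LU N q hqN)) *ᵥ
      ((Int.castRingHom ℤ_[p]).mapMatrix (KSys.tm (bL N) (LU N q hqN)) *ᵥ x) = x)
    (hin : ∀ τ ∈ A.inertiaSubgroupIn ℚ, (KQ N).rho (bL N) p τ *ᵥ x = x)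
    (hz : z = (KQ N).rho (bL N) p σ *ᵥ ((KQ N).rho (bL N) p σ *ᵥ x) - (q ^ 2) • x) :
    (KQ N).rho (bL N) p σ *ᵥ ((KQ N).rho (bL N) p σ *ᵥ z) = (q ^ 2) • z := by
  obtain ⟨D, hD, HD⟩ := ram_vec_mod H hq hqN hq2 hA hσ
  refine padic_step (I := (A.inertiaSubgroupIn ℚ : Set GQ)) (R := fun τ => (KQ N).rho (bL N) p τ)
    hD (fun n x y z h1 h2 h3 h4 => ?_) hx hin hz
  have hn : ¬ q ∣ p ^ n := fun h =>
    hqp ((Nat.prime_dvd_prime_iff_eq hq Fact.out).mp (hq.dvd_of_dvd_pow h))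
  rw [KSys.map_castHom] at h1
  simp only [KSys.rho_spec] at h2 h4 ⊢
  exact HD (p ^ n) (KSys.pn0 p n) hn x y z h1 h2 h3 h4

end Fermat.Agent.SSMod
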