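import Fermat.Agent.SSMod.Coord
import Fermat.Agent.GoodRed.HauptChart

/-!
# Modular equations on the function field of level `qM`
-/

set_option autoImplicit false
set_option linter.unusedSectionVars false
set_option linter.style.haveILetI false
set_option linter.unusedVariables false
set_option synthInstance.maxHeartbeats 400000

noncomputable section

namespace Fermat.Agent.SSMod

open ModularCurve Fermat.Agent.GoodRed Fermat.Agent.Models Fermat.Agent.ModFun
open Fermat.Agent.GenusX0 Fermat.Agent.Curves Fermat.Agent.AnJac AlgebraicCurve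

local notation "ℒ" => LaurentSeries

section Rel

variable {F : Type*} [Field F]

theorem mem_of_monic_rel (O : ValuationSubring F) {n : ℕ} {y : F} (d : ℕ → F)
    (hd : ∀ i < n, d i ∈ O) (h : y ^ n = -∑ i ∈ Finset.range n, d i * y ^ i) : y ∈ O := by
  by_contra hy
  have h1 : y⁻¹ ∈ O := (O.mem_or_inv_mem y).resolve_left hy
  have hy0 : y ≠ 0 := by rintro rfl; exact hy (zero_mem _)
  rcases n with _ | m
  · simp at h
  apply hy
  have e : y = -∑ i ∈ Finset.range (m + 1), d i * (y⁻¹) ^ (m - i) := by
    have hym : y ^ m ≠ 0 := pow_ne_zero _ hy0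
    apply mul_right_cancel₀ hym
    rw [← pow_succ', h, neg_mul, Finset.sum_mul]
    congr 1
    refine Finset.sum_congr rfl fun i hi => ?_
    rw [Finset.mem_range] at hi
    have h2 : y ^ m = y ^ (m - i) * y ^ i := by rw [← pow_add]; congr 1; omega
    rw [h2, inv_pow]
    field_simp
  rw [e]
  exact neg_mem (sum_mem fun i hi => mul_mem (hd i (Finset.mem_range.mp hi)) (pow_mem h1 _))

variable {K : Type*} [Field K] [Algebra K F]

/-- evaluation of bivariate polynomials -/
def ev (K : Type*) [Field K] [Algebra K F] (x y : F) : Polynomial (Polynomial K) →+* F :=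
  Polynomial.eval₂RingHom (Polynomial.aeval x : Polynomial K →ₐ[K] F).toRingHom y

theorem ev_apply (x y : F) (P : Polynomial (Polynomial K)) :
    ev K x y P = ∑ i ∈ Finset.range (P.natDegree + 1), Polynomial.aeval x (P.coeff i) * y ^ i := by
  rw [ev, Polynomial.coe_eval₂RingHom, Polynomial.eval₂_eq_sum_range]
  rfl

theorem ev_monic {x y : F} {P : Polynomial (Polynomial K)} (hP : P.Monic) (h : ev K x y P = 0) :
    y ^ P.natDegree = -∑ i ∈ Finset.range P.natDegree, Polynomial.aeval x (P.coeff i) * y ^ i := by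
  rw [ev_apply, Finset.sum_range_succ] at h
  have h1 : P.coeff P.natDegree = 1 := hP
  rw [h1, map_one, one_mul, add_comm] at h
  exact eq_neg_of_add_eq_zero_left h

theorem map_ev {F' : Type*} [Field F'] [Algebra K F'] (w : F →ₐ[K] F') (x y : F)
    (P : Polynomial (Polynomial K)) : w (ev K x y P) = ev K (w x) (w y) P := by
  rw [ev_apply, ev_apply, map_sum]
  refine Finset.sum_congr rfl fun i _ => ?_
  rw [map_mul, map_pow, Polynomial.aeval_algHom_apply]

variable [IsAlgClosed K] [IsFunctionField K F]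

theorem mem_of_ev {x y : F} {P : Polynomial (Polynomial K)} (hP : P.Monic) (h : ev K x y P = 0)
    {v : Place K F} (hx : x ∈ v.toValuationSubring) : y ∈ v.toValuationSubring :=
  mem_of_monic_rel _ _ (fun i _ => aeval_mem_place v hx _) (ev_monic hP h)

theorem growth {x y : F} {P : Polynomial (Polynomial K)} (hP : P.Monic) (h : ev K x y P = 0)
    {m : ℕ} (hdeg : ∀ i < P.natDegree, (P.coeff i).natDegree ≤ m * (P.natDegree - i))
    {v : Place K F} (hx : x ∉ v.toValuationSubring) : y / x ^ m ∈ v.toValuationSubring := by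
  have hx0 : x ≠ 0 := by rintro rfl; exact hx (zero_mem _)
  have hxi : x⁻¹ ∈ v.toValuationSubring := (v.toValuationSubring.mem_or_inv_mem x).resolve_left hx
  set n := P.natDegree with hn
  refine mem_of_monic_rel _ (n := n)
    (fun i => Polynomial.aeval x (P.coeff i) / x ^ (m * (n - i))) (fun i hi => ?_) ?_
  · show Polynomial.aeval x (P.coeff i) / x ^ (m * (n - i)) ∈ _
    rw [Polynomial.aeval_eq_sum_range, Finset.sum_div]
    refine sum_mem fun j hj => ?_
    rw [Finset.mem_range] at hj
    have h1 := hdeg i hi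
    have h2 : x ^ (m * (n - i)) = x ^ (m * (n - i) - j) * x ^ j := by
      rw [← pow_add]; congr 1; omega
    have e : (P.coeff i).coeff j • x ^ j / x ^ (m * (n - i)) =
        algebraMap K F ((P.coeff i).coeff j) * (x⁻¹) ^ (m * (n - i) - j) := by
      rw [Algebra.smul_def, h2, inv_pow]
      field_simp
    rw [e]
    exact mul_mem (v.algebraMap_mem' _) (pow_mem hxi _)
  · have h1 := ev_monic hP h
    rw [div_pow, h1, neg_div, Finset.sum_div]
    congr 1
    refine Finset.sum_congr rfl fun i hi => ?_
    have hi' : i < n := Finset.mem_range.mp hi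
    rw [← pow_mul, div_pow, ← pow_mul]
    have h2 : x ^ (m * n) = x ^ (m * (n - i)) * x ^ (m * i) := by
      rw [← pow_add, ← mul_add]; congr 2; omega
    rw [h2]
    field_simp

end Rel

/-! ### growth of the coefficients of the modular polynomial -/

section Growth

variable {k : Type*} [Field k] (p : ℕ) [hp : Fact p.Prime] (z : kˣ)

theorem bd_prodPoly {I : Type*} [DecidableEq I] (s : Finset I) (x : I → ℒ k) (m : ℤ)
    (hx : ∀ i ∈ s, Bd (-m) (x i)) (i : ℕ) :
    Bd (-(m * ((s.card : ℤ) - i)))
      ((∏ j ∈ s, (Polynomial.X - Polynomial.C (x j))).coeff i) := by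
  induction s using Finset.induction_on generalizing i with
  | empty =>
    rw [Finset.prod_empty, Polynomial.coeff_one, Finset.card_empty]
    split_ifs with h
    · subst h
      intro n hn
      simp only [Nat.cast_zero, sub_self, mul_zero, neg_zero] at hn
      rw [HahnSeries.coeff_one]
      exact if_neg hn.ne
    · intro n _; rfl
  | insert a s ha ih =>
    have ih' := ih fun i hi => hx i (Finset.mem_insert_of_mem hi)
    rw [Finset.prod_insert ha, sub_mul, Polynomial.coeff_sub, Polynomial.coeff_C_mul,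
      Finset.card_insert_of_notMem ha]
    have h2 := (hx a (Finset.mem_insert_self a s)).mul (ih' i)
    have e2 : (-m) + -(m * ((s.card : ℤ) - i)) = -(m * (((s.card + 1 : ℕ) : ℤ) - i)) := by
      push_cast; ring
    rw [e2] at h2
    refine Bd.sub ?_ h2
    rcases i with _ | i
    · rw [Polynomial.coeff_X_mul_zero]
      intro n _; rfl
    · rw [Polynomial.coeff_X_mul]
      have h1 := ih' i
      have e1 : -(m * ((s.card : ℤ) - i)) =
          -(m * (((s.card + 1 : ℕ) : ℤ) - ((i + 1 : ℕ) : ℤ))) := by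
        push_cast; ring
      rw [e1] at h1
      exact h1

theorem bd_xfam (i : Option (ZMod p)) : Bd (-(p * p : ℤ)) (xfam p k z i) := by
  cases i with
  | none =>
    have h1 := ((ld_jq k).qExpand (p * p)).bd
    refine h1.mono ?_
    push_cast
    linarith
  | some b =>
    refine ((ld_jq k).twist (z ^ b.val)).bd.mono ?_
    have : (1 : ℤ) ≤ p := by exact_mod_cast hp.out.one_lt.le
    nlinarith

theorem monic_of_map {P : Polynomial (Polynomial k)} {x : Option (ZMod p) → ℒ k}
    (h : P.map ((qExpand k p).comp (jev k)) = prodPoly x) :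
    P.Monic ∧ P.natDegree = p + 1 := by
  have h1 : P.Monic := by
    apply Polynomial.monic_of_injective (GoodRed.phi_injective (k := k) p)
    rw [h]
    exact prodPoly_monic _
  refine ⟨h1, ?_⟩
  have h2 := h1.natDegree_map ((qExpand k p).comp (jev k))
  rw [h, prodPoly_natDegree] at h2
  rw [← h2]
  simp [Fintype.card_option, ZMod.card]

theorem natDegree_coeff_Phi {P : Polynomial (Polynomial k)}
    (h : P.map ((qExpand k p).comp (jev k)) = prodPoly (xfam p k z)) (i : ℕ)
    (hi : i < P.natDegree) : (P.coeff i).natDegree ≤ p * (P.natDegree - i) := by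
  have hn := (monic_of_map p h).2
  have h1 := bd_prodPoly Finset.univ (xfam p k z) (p * p : ℤ) (fun i _ => bd_xfam p z i) i
  have hcard : ((Finset.univ : Finset (Option (ZMod p))).card : ℤ) = P.natDegree := by
    rw [hn, Finset.card_univ, Fintype.card_option, ZMod.card]
  rw [hcard] at h1
  have e : (∏ j, (Polynomial.X - Polynomial.C (xfam p k z j))).coeff i =
      qExpand k p (jev k (P.coeff i)) := by
    have := congrArg (fun Q => Polynomial.coeff Q i) h
    simp only [Polynomial.coeff_map] at this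
    exact this.symm
  rw [e] at h1
  have hi' : (0 : ℤ) ≤ (P.natDegree : ℤ) - i := by
    have : (i : ℤ) < P.natDegree := by exact_mod_cast hi
    omega
  have h2 := natDegree_le_of_bd p (P := P.coeff i) (b := (p * p : ℤ) * ((P.natDegree : ℤ) - i))
    (mul_nonneg (by positivity) hi') h1
  have hp0 : (0 : ℤ) < p := by exact_mod_cast hp.out.pos
  have h3 : ((P.coeff i).natDegree : ℤ) ≤ p * ((P.natDegree : ℤ) - i) := by
    apply le_of_mul_le_mul_left _ hp0
    linarith
  have h4 : ((p * (P.natDegree - i) : ℕ) : ℤ) = p * ((P.natDegree : ℤ) - i) := by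
    rw [Nat.cast_mul, Nat.cast_sub hi.le]
  rw [← h4] at h3
  exact_mod_cast h3

end Growth

section ModEq

variable {K : Type*} [Field K] {q M : ℕ} [NeZero M] [hq : Fact q.Prime] [NeZero q]
  [IsAlgClosed K] [CharZero K] (ι : K →+* ℂ) (hqM : Nat.Coprime q M)

/-- `j(T)` -/
def jA (K : Type*) [Field K] (q M : ℕ) [NeZero q] [NeZero M] :
    modularFunctionFieldFullC K (q * M) := alpha K q M (je K M)

/-- `j(T^q)` -/
def jB (K : Type*) [Field K] (q M : ℕ) [NeZero q] [NeZero M] :
    modularFunctionFieldFullC K (q * M) := beta K q M (je K M)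

theorem coe_jA : ((jA K q M : modularFunctionFieldFullC K (q * M)) : ℒ K) = jqModC K := rfl

theorem coe_jB : ((jB K q M : modularFunctionFieldFullC K (q * M)) : ℒ K) =
    qExpand K q (jqModC K) := rfl

theorem coe_ev_ab (y : modularFunctionFieldFullC K (q * M)) (P : Polynomial (Polynomial K)) :
    ((ev K (jA K q M) y P : modularFunctionFieldFullC K (q * M)) : ℒ K) =
      P.eval₂ (jev K) (y : ℒ K) := by
  rw [ev_apply, AddSubmonoidClass.coe_finsetSum, Polynomial.eval₂_eq_sum_range]
  refine Finset.sum_congr rfl fun i _ => ?_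
  rw [MulMemClass.coe_mul, SubmonoidClass.coe_pow, jev_eq_aeval]
  congr 1
  exact (Polynomial.aeval_algHom_apply (modularFunctionFieldFullC K (q * M)).val
    (jA K q M) (P.coeff i)).symm

theorem coe_ev_ba (y : modularFunctionFieldFullC K (q * M)) (P : Polynomial (Polynomial K)) :
    ((ev K (jB K q M) y P : modularFunctionFieldFullC K (q * M)) : ℒ K) =
      (P.map ((qExpand K q).comp (jev K))).eval (y : ℒ K) := by
  rw [ev_apply, AddSubmonoidClass.coe_finsetSum, Polynomial.eval_map,
    Polynomial.eval₂_eq_sum_range]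
  refine Finset.sum_congr rfl fun i _ => ?_
  rw [MulMemClass.coe_mul, SubmonoidClass.coe_pow, RingHom.comp_apply, jev_eq_aeval]
  congr 1
  have h2 : Polynomial.aeval (jB K q M) (P.coeff i) =
      beta K q M (Polynomial.aeval (je K M) (P.coeff i)) :=
    Polynomial.aeval_algHom_apply (beta K q M) (je K M) (P.coeff i)
  have h3 : ((Polynomial.aeval (je K M) (P.coeff i) : modularFunctionFieldFullC K M) : ℒ K) =
      Polynomial.aeval (jqModC K) (P.coeff i) :=
    (Polynomial.aeval_algHom_apply (modularFunctionFieldFullC K M).val (je K M)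
      (P.coeff i)).symm
  rw [h2, coe_beta, h3]

/-- `q^{12} Δ(T^q)/Δ(T)` as a function of level `qM` -/
def uM (K : Type*) [Field K] [IsAlgClosed K] [CharZero K] (q M : ℕ) [NeZero M]
    [hq : Fact q.Prime] [NeZero q] : modularFunctionFieldFullC K (q * M) :=
  ⟨uSer q K, by
    have hq0 : ((q : ℕ) : K) ≠ 0 := by exact_mod_cast hq.out.ne_zero
    obtain ⟨z, hz⟩ := exists_prim_unit K q hq0
    refine uSer_mem q z hz _ (jqModC_mem_full K (q * M)) ?_
    rw [Jd_eq]
    exact (jB K q M).2⟩

theorem coe_uM : ((uM K q M : modularFunctionFieldFullC K (q * M)) : ℒ K) = uSer q K := rfl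

theorem al_jA : al ι hqM (jA K q M) = jB K q M := al_alpha ι hqM _

theorem al_jB : al ι hqM (jB K q M) = jA K q M := al_beta ι hqM _

theorem al_ev (x y : modularFunctionFieldFullC K (q * M)) (P : Polynomial (Polynomial K)) :
    al ι hqM (ev K x y P) = ev K (al ι hqM x) (al ι hqM y) P :=
  map_ev (alA (K := K) ι hqM : modularFunctionFieldFullC K (q * M) →ₐ[K]
    modularFunctionFieldFullC K (q * M)) x y P

theorem xfam_some_zero (z : Kˣ) : xfam q K z (some 0) = jqModC K := by
  show twist (z ^ (0 : ZMod q).val) (jqModC K) = _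
  rw [ZMod.val_zero, pow_zero]
  ext m
  rw [twist_coeff, one_zpow, Units.val_one, one_mul]

theorem gfam_some_zero (z : Kˣ) : gfam q K z (some 0) =
    DeltaSer K * qExpand K q (DeltaInvSer K) := by
  show twist (z ^ (0 : ZMod q).val) (DeltaSer K) * _ = _
  rw [ZMod.val_zero, pow_zero]
  congr 1
  ext m
  rw [twist_coeff, one_zpow, Units.val_one, one_mul]

/-- the modular polynomial -/
theorem exists_Phi' (K : Type*) [Field K] (q M : ℕ) [NeZero M] [hq : Fact q.Prime] [NeZero q]
    [IsAlgClosed K] [CharZero K] : ∃ P : Polynomial (Polynomial K), P.Monic ∧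
    (∀ i < P.natDegree, (P.coeff i).natDegree ≤ q * (P.natDegree - i)) ∧
    ev K (jA K q M) (jB K q M) P = 0 ∧ ev K (jB K q M) (jA K q M) P = 0 := by
  have hq0 : ((q : ℕ) : K) ≠ 0 := by exact_mod_cast hq.out.ne_zero
  obtain ⟨z, hz⟩ := exists_prim_unit K q hq0
  obtain ⟨P, hP⟩ := exists_Phi q z hz
  refine ⟨P, (monic_of_map q hP).1, fun i hi => natDegree_coeff_Phi q z hP i hi, ?_, ?_⟩
  · apply Subtype.ext
    rw [coe_ev_ab]
    apply qExpand_injective q
    show qExpand K q _ = qExpand K q 0
    rw [map_zero, qExpand_eval₂, hP, coe_jB, qExpand_qExpand]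
    exact prodPoly_eval (xfam q K z) none
  · apply Subtype.ext
    rw [coe_ev_ba, hP, coe_jA, ← xfam_some_zero (q := q) z]
    exact prodPoly_eval (xfam q K z) (some 0)

theorem al_uM : ((al ι hqM (uM K q M) : modularFunctionFieldFullC K (q * M)) : ℒ K) =
    DeltaSer K * qExpand K q (DeltaInvSer K) := by
  have hq0 : ((q : ℕ) : K) ≠ 0 := by exact_mod_cast hq.out.ne_zero
  obtain ⟨z, hz⟩ := exists_prim_unit K q hq0
  obtain ⟨Φ, hΦ⟩ := exists_Phi q z hz
  obtain ⟨W, hW⟩ := exists_W q z hz
  have hv : ∀ i, ((Polynomial.derivative Φ).map ((qExpand K q).comp (jev K))).eval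
      (xfam q K z i) = ∏ j ∈ Finset.univ.erase i, (xfam q K z i - xfam q K z j) := by
    intro i
    rw [← Polynomial.derivative_map, hΦ, derivative_prodPoly, sumPoly_eval, one_mul]
  have hw : ∀ i, (W.map ((qExpand K q).comp (jev K))).eval (xfam q K z i) =
      gfam q K z i * ((Polynomial.derivative Φ).map ((qExpand K q).comp (jev K))).eval
      (xfam q K z i) := by
    intro i
    rw [hv, hW, sumPoly_eval]
  have hv0 : ∀ i, ((Polynomial.derivative Φ).map ((qExpand K q).comp (jev K))).eval
      (xfam q K z i) ≠ 0 := by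
    intro i
    rw [hv, Finset.prod_ne_zero_iff]
    intro j hj h0
    rw [sub_eq_zero] at h0
    exact (Finset.ne_of_mem_erase hj) (xfam_injective q z hz h0).symm
  have hx : qExpand K q (qExpand K q (jqModC K)) = xfam q K z none := by
    rw [qExpand_qExpand]; rfl
  have h1 : ev K (jA K q M) (jB K q M) W =
      uM K q M * ev K (jA K q M) (jB K q M) (Polynomial.derivative Φ) := by
    apply Subtype.ext
    rw [MulMemClass.coe_mul, coe_ev_ab, coe_ev_ab]
    apply qExpand_injective q
    rw [map_mul, qExpand_eval₂, qExpand_eval₂, coe_jB, hx, coe_uM, ← gfam_none q z]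
    exact hw none
  have h2 := congrArg (al ι hqM) h1
  rw [map_mul, al_ev, al_ev, al_jA, al_jB] at h2
  have h3 := congrArg (Subtype.val : modularFunctionFieldFullC K (q * M) → ℒ K) h2
  rw [MulMemClass.coe_mul, coe_ev_ba, coe_ev_ba, coe_jA, ← xfam_some_zero (q := q) z, hw] at h3
  rw [← gfam_some_zero (q := q) z]
  exact (mul_right_cancel₀ (hv0 (some 0)) h3).symm

theorem uM_mul_al : uM K q M * al ι hqM (uM K q M) = algebraMap K _ ((q : K) ^ 12) := by
  apply Subtype.ext
  rw [MulMemClass.coe_mul, al_uM, coe_uM, uSer]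
  have h1 := DeltaSer_mul_inv K
  have h2 : qExpand K q (DeltaSer K) * qExpand K q (DeltaInvSer K) = 1 := by
    rw [← map_mul, h1, map_one]
  have h3 : ((algebraMap K (modularFunctionFieldFullC K (q * M)) ((q : K) ^ 12) :
      modularFunctionFieldFullC K (q * M)) : ℒ K) = HahnSeries.C ((q : K) ^ 12) := by
    rw [ModFun.C_eq_algebraMap]; rfl
  rw [h3]
  linear_combination HahnSeries.C ((q : K) ^ 12) * (h1 + (DeltaSer K * DeltaInvSer K) * h2)

/-- the equation of `uM` over `K[j]` -/
theorem exists_U' (K : Type*) [Field K] (q M : ℕ) [NeZero M] [hq : Fact q.Prime] [NeZero q]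
    [IsAlgClosed K] [CharZero K] : ∃ P : Polynomial (Polynomial K), P.Monic ∧
    ev K (jA K q M) (uM K q M) P = 0 := by
  have hq0 : ((q : ℕ) : K) ≠ 0 := by exact_mod_cast hq.out.ne_zero
  obtain ⟨z, hz⟩ := exists_prim_unit K q hq0
  obtain ⟨U, hU⟩ := exists_U q z hz
  refine ⟨U, (monic_of_map q hU).1, ?_⟩
  apply Subtype.ext
  rw [coe_ev_ab, coe_uM, eval_uSer_eq_zero hU]
  rfl

/-! ### consequences for places -/

variable [IsFunctionField K (modularFunctionFieldFullC K (q * M))]

theorem jA_mem_iff (P : Place K (modularFunctionFieldFullC K (q * M))) :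
    jA K q M ∈ P.toValuationSubring ↔ jB K q M ∈ P.toValuationSubring := by
  obtain ⟨Φ, h1, -, h2, h3⟩ := exists_Phi' K q M
  exact ⟨mem_of_ev h1 h2, mem_of_ev h1 h3⟩

theorem jB_div_mem (P : Place K (modularFunctionFieldFullC K (q * M)))
    (h : jA K q M ∉ P.toValuationSubring) : jB K q M / jA K q M ^ q ∈ P.toValuationSubring := by
  obtain ⟨Φ, h1, h2, h3, -⟩ := exists_Phi' K q M
  exact growth h1 h3 h2 h

theorem uM_mem (P : Place K (modularFunctionFieldFullC K (q * M)))
    (h : jA K q M ∈ P.toValuationSubring) : uM K q M ∈ P.toValuationSubring := by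
  obtain ⟨U, h1, h2⟩ := exists_U' K q M
  exact mem_of_ev h1 h2 h

theorem al_uM_mem (P : Place K (modularFunctionFieldFullC K (q * M)))
    (h : jA K q M ∈ P.toValuationSubring) : al ι hqM (uM K q M) ∈ P.toValuationSubring := by
  obtain ⟨U, h1, h2⟩ := exists_U' K q M
  have h3 := congrArg (al ι hqM) h2
  rw [al_ev, map_zero, al_jA] at h3
  exact mem_of_ev h1 h3 ((jA_mem_iff P).mp h)

end ModEq

end Fermat.Agent.SSMod
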