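import Fermat.Agent.SSMod.Nodes

/-!
# The action of the decomposition group on the two-component model
-/

set_option autoImplicit false
set_option linter.unusedSectionVars false
set_option linter.style.haveILetI false
set_option linter.unusedVariables false
set_option synthInstance.maxHeartbeats 400000

noncomputable section

namespace Fermat.Agent.SSMod

open ModularCurve Fermat.Agent.GoodRed Fermat.Agent.Models Fermat.Agent.ModFun
open Fermat.Agent.GenusX0 Fermat.Agent.Curves Fermat.Agent.AnJac AlgebraicCurve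

local notation "ℒ" => LaurentSeries

/-! ### places -/

section Places

variable {k F : Type*} [Field k] [Field F] [Algebra k F] [IsAlgClosed k] [IsFunctionField k F]

theorem place_eq_of_ord {v v' : Place k F} (h : ∀ f : F, v.ord f = v'.ord f) : v = v' := by
  refine Place.ext (SetLike.ext fun f => ?_)
  rcases eq_or_ne f 0 with rfl | hf0
  · simp
  rw [mem_iff_ord v hf0, mem_iff_ord v' hf0, h]

end Places

section PlaceE

variable {k : Type*} [Field k] [IsAlgClosed k] {N : ℕ} [NeZero N]
  [IsFunctionField k (modularFunctionFieldFullC k N)]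

/-- the bijection of places induced by an automorphism of the constants -/
def placeE (N : ℕ) [NeZero N] [IsFunctionField k (modularFunctionFieldFullC k N)] (σ : k ≃+* k) :
    Place k (modularFunctionFieldFullC k N) ≃ Place k (modularFunctionFieldFullC k N) where
  toFun P := (exists_place_galF (N := N) σ.symm P).choose
  invFun P := (exists_place_galF (N := N) σ P).choose
  left_inv P := by
    apply place_eq_of_ord
    intro f
    rw [(exists_place_galF (N := N) σ _).choose_spec, (exists_place_galF (N := N) σ.symm P).choose_spec]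
    congr 1
    exact (galF N σ).symm_apply_apply f
  right_inv P := by
    apply place_eq_of_ord
    intro f
    rw [(exists_place_galF (N := N) σ.symm _).choose_spec, (exists_place_galF (N := N) σ P).choose_spec]
    congr 1
    exact (galF N σ).apply_symm_apply f

theorem placeE_ord (σ : k ≃+* k) (P : Place k (modularFunctionFieldFullC k N))
    (x : modularFunctionFieldFullC k N) : (placeE N σ P).ord (galF N σ x) = P.ord x := by
  have h := (exists_place_galF (N := N) σ.symm P).choose_spec (galF N σ x)
  rw [show galF N σ.symm (galF N σ x) = x from (galF N σ).symm_apply_apply x] at h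
  exact h

theorem placeE_symm (σ : k ≃+* k) : placeE N σ.symm = (placeE N σ).symm := by
  ext P : 1
  apply place_eq_of_ord
  intro f
  have h1 := placeE_ord σ.symm P (galF N σ f)
  rw [show galF N σ.symm (galF N σ f) = f from (galF N σ).symm_apply_apply f] at h1
  have h2 := placeE_ord σ ((placeE N σ).symm P) f
  rw [Equiv.apply_symm_apply] at h2
  rw [h1, h2]

end PlaceE

/-! ### automorphisms of the constants compatible with the residue map -/

variable {K κ : Type*} [Field K] [Field κ] {A : ValuationSubring K}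

/-- `σ` preserves `A` and acts as `φ` on residues -/
structure ActsAt (π : A →+* κ) (σ : K ≃+* K) (φ : κ ≃+* κ) : Prop where
  mem : ∀ x, σ x ∈ A ↔ x ∈ A
  res : ∀ (x : A), π ⟨σ x, (mem x).mpr x.2⟩ = φ (π x)

namespace ActsAt

variable {π : A →+* κ} {σ : K ≃+* K} {φ : κ ≃+* κ}

/-- restriction to `A` -/
def toA (h : ActsAt π σ φ) : A →+* A where
  toFun x := ⟨σ x, (h.mem x).mpr x.2⟩
  map_one' := Subtype.ext (map_one σ)
  map_mul' x y := Subtype.ext (map_mul σ (x : K) (y : K))
  map_zero' := Subtype.ext (map_zero σ)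
  map_add' x y := Subtype.ext (map_add σ (x : K) (y : K))

theorem symm (h : ActsAt π σ φ) : ActsAt π σ.symm φ.symm where
  mem x := by rw [← h.mem, σ.apply_symm_apply]
  res x := by
    have h1 : σ.symm (x : K) ∈ A := by rw [← h.mem, σ.apply_symm_apply]; exact x.2
    have h2 := h.res ⟨_, h1⟩
    have e : (⟨σ (σ.symm (x : K)), (h.mem _).mpr h1⟩ : A) = x := Subtype.ext (σ.apply_symm_apply _)
    rw [e] at h2
    rw [h2, φ.symm_apply_apply]

theorem LR (h : ActsAt π σ φ) {x : ℒ K} {y : ℒ κ} (hx : LR π x y) :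
    GoodRed.LR π (coeffMap (σ : K →+* K) x) (coeffMap (φ : κ →+* κ) y) := by
  obtain ⟨f, g, hg, h1, h2⟩ := hx
  have e1 : ∀ z : ℒ A, coeffMap A.subtype (coeffMap h.toA z) =
      coeffMap (σ : K →+* K) (coeffMap A.subtype z) := by
    intro z
    rw [coeffMap_coeffMap, coeffMap_coeffMap]
    rfl
  have e2 : ∀ z : ℒ A, coeffMap π (coeffMap h.toA z) =
      coeffMap (φ : κ →+* κ) (coeffMap π z) := by
    intro z
    rw [coeffMap_coeffMap, coeffMap_coeffMap]
    congr 2
    exact RingHom.ext fun a => h.res a
  refine ⟨coeffMap h.toA f, coeffMap h.toA g, ?_, ?_, ?_⟩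
  · rw [e2]
    intro h0
    exact hg (coeffMap_injective (φ : κ →+* κ).injective (by rw [h0, map_zero]))
  · rw [e1, e1, ← map_mul, h1]
  · rw [e2, e2, ← map_mul, h2]

theorem valuation_eq [CharZero K] [Algebra.IsAlgebraic ℤ K] {q : ℕ} (hq : q.Prime)
    (hA : A.LiesOverPrime q) (h : ActsAt π σ φ) (a : K) : A.valuation (σ a) = A.valuation a := by
  rcases eq_or_ne a 0 with rfl | ha
  · rw [map_zero]
  obtain ⟨m, hm, n, hn⟩ := exists_val_pow hq hA ha
  have hq0 : (q : K) ≠ 0 := by exact_mod_cast hq.ne_zero
  have hσa : σ a ≠ 0 := (map_ne_zero σ).mpr ha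
  have hx : A.valuation (a ^ m / (q : K) ^ n) = 1 := by
    rw [map_div₀, map_pow, map_zpow₀, hn, div_self (zpow_ne_zero _ ((Valuation.ne_zero_iff _).mpr hq0))]
  have hle : ∀ x : K, A.valuation x = 1 → A.valuation (σ x) = 1 := by
    intro x hx
    have hx0 : x ≠ 0 := by rintro rfl; rw [map_zero] at hx; exact zero_ne_one hx
    apply le_antisymm
    · rw [A.valuation_le_one_iff, h.mem, ← A.valuation_le_one_iff, hx]
    · have h1 : A.valuation (σ x)⁻¹ ≤ 1 := by
        rw [← map_inv₀ σ, A.valuation_le_one_iff, h.mem, ← A.valuation_le_one_iff, map_inv₀, hx,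
          inv_one]
      have hs0 : A.valuation (σ x) ≠ 0 := (Valuation.ne_zero_iff _).mpr ((map_ne_zero σ).mpr hx0)
      rw [map_inv₀] at h1
      exact (inv_le_one₀ (zero_lt_iff.mpr hs0)).mp h1
  have h1 := hle _ hx
  rw [map_div₀ σ, map_pow σ, map_zpow₀ σ, map_natCast σ, map_div₀, map_pow, map_zpow₀,
    div_eq_one_iff_eq (zpow_ne_zero _ ((Valuation.ne_zero_iff _).mpr hq0)), ← hn] at h1
  exact (pow_left_inj₀ zero_le zero_le hm.ne').mp h1

end ActsAt

variable {π : A →+* κ}
  {q M : ℕ} [NeZero M] [IsLocalHom π] [hq : Fact q.Prime] [CharP κ q]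
  [IsAlgClosed K] [IsAlgClosed κ] [CharZero K] [NeZero q]
  {hπ : Function.Surjective π} (ι : K →+* ℂ) (hqM : Nat.Coprime q M)
  (hE : modularFunctionFieldFullC κ M = resField q hπ (q * M))
  {σ : K ≃+* K} {φ : κ ≃+* κ}

theorem two_gal (h : ActsAt π σ φ) (b : Bool) {x : modularFunctionFieldFullC K (q * M)}
    (hx : x ∈ (two hπ ι hqM _ hE b).O) :
    galF (q * M) σ x ∈ (two hπ ι hqM _ hE b).O ∧
      (two hπ ι hqM _ hE b).r (galF (q * M) σ x) = galF M φ ((two hπ ι hqM _ hE b).r x) := by
  cases b
  · apply two_false_r ι hqM hE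
    rw [al_galF, coe_galF, coe_galF]
    exact h.LR (two_false_spec ι hqM hE hx)
  · apply two_true_r ι hqM hE
    rw [coe_galF, coe_galF]
    exact h.LR (two_true_spec ι hqM hE hx)

theorem galF_refl (x : modularFunctionFieldFullC κ M) : galF M (RingEquiv.refl κ) x = x := by
  apply Subtype.ext
  rw [coe_galF]
  ext n
  rw [coeffMap_coeff]
  rfl

variable [IsFunctionField K (modularFunctionFieldFullC K (q * M))]

theorem inertial [Algebra.IsAlgebraic ℤ K] (hA : A.LiesOverPrime q)
    (h : ActsAt π σ (RingEquiv.refl κ)) :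
    Inertial (two hπ ι hqM _ hE) (galF (q * M) σ) σ (placeE (q * M) σ) where
  map_const := galF_const σ
  unit c hc := by
    rw [baseRes_ne_zero_iff, map_div₀, h.valuation_eq hq.out hA,
      div_self ((Valuation.ne_zero_iff _).mpr hc)]
  res c hc := by
    rw [baseRes_r π hπ hc, baseRes_r π hπ ((h.mem c).mpr hc)]
    exact h.res ⟨c, hc⟩
  mem i x hx := (two_gal ι hqM hE h i hx).1
  r_eq i x hx := by
    rw [(two_gal ι hqM hE h i hx).2, galF_refl]
  ord P x := placeE_ord σ P x

end Fermat.Agent.SSMod
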