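import Fermat.Agent.SSMod.Level
import Fermat.Agent.GalRep.Final
import Fermat.Agent.GoodRed.HauptGood

/-!
# Unipotence of inertia on the Tate module of `J₀(N)` at `q ∥ N`
-/

set_option autoImplicit false
set_option linter.unusedSectionVars false
set_option linter.style.haveILetI false
set_option linter.unusedVariables false
set_option synthInstance.maxHeartbeats 400000

noncomputable section

namespace Fermat.Agent.SSMod

open ModularCurve Fermat.Agent.GoodRed Fermat.Agent.Models Fermat.Agent.ModFun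
open Fermat.Agent.GenusX0 Fermat.Agent.Curves Fermat.Agent.AnJac AlgebraicCurve IsLocalRing
open Fermat.Agent.GalRep Fermat.Agent.HeckeQ Matrix
open scoped Pointwise

local notation "ℒ" => LaurentSeries
local notation "Qbar" => AlgebraicClosure ℚ
local notation "GQ" => Qbar ≃ₐ[ℚ] Qbar

section KSysLemmas

variable {F G Λ : Type*} [Field F] [Group G] [AddCommGroup Λ] (K : KSys F G Λ)
variable {r : ℕ} (b : Module.Basis (Fin r) ℤ Λ)

theorem M_unip {n : ℕ} (hn : n ≠ 0) (σ : G)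
    (hH : ∀ φ u, K.cl n φ u →
      ∃ g, g ≠ 0 ∧ K.act σ (K.act σ u) * u = K.act σ u ^ 2 * g ^ n) :
    K.M b hn σ * K.M b hn σ + 1 = 2 • K.M b hn σ := by
  apply KSys.mat_ext b
  intro φ
  obtain ⟨u, hu⟩ := K.ex hn φ
  obtain ⟨ψ, hψ⟩ := K.gal hn σ hu
  obtain ⟨χ, hχ⟩ := K.gal hn σ hψ
  obtain ⟨g, hg, e⟩ := hH φ u hu
  have h1 := K.mul hχ hu
  have h2 := K.mul (K.npow hn hψ 2) (K.pow hn hg 0)
  rw [e] at h1
  obtain ⟨ω, hω⟩ := K.uniq hn h1 h2
  have h3 := (KSys.red_eq_iff b).mpr ⟨ω, hω⟩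
  rw [Matrix.add_mulVec, ← Matrix.mulVec_mulVec, K.M_mulVec b hn σ hu hψ, K.M_mulVec b hn σ hψ hχ,
    Matrix.one_mulVec, Matrix.smul_mulVec, K.M_mulVec b hn σ hu hψ, ← map_add, h3, smul_zero,
    add_zero, map_nsmul]

variable {p : ℕ} [Fact p.Prime]

theorem rho_unip (σ : G)
    (hH : ∀ n φ u, K.cl (p ^ n) φ u →
      ∃ g, g ≠ 0 ∧ K.act σ (K.act σ u) * u = K.act σ u ^ 2 * g ^ (p ^ n)) :
    K.rho b p σ * K.rho b p σ + 1 = 2 • K.rho b p σ := by
  apply KSys.padic_mat_ext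
  intro n
  rw [map_add, map_mul, map_one, map_nsmul, K.rho_spec]
  exact M_unip K b (KSys.pn0 p n) σ (hH n)

end KSysLemmas

section Acts

variable {A : ValuationSubring Qbar}

theorem actsAt_of_dec {σ : GQ} (hσ : σ • A = A) :
    ActsAt (residue A) (σ : Qbar ≃+* Qbar) (actK σ hσ) where
  mem x := by
    have h1 : σ x ∈ σ • A ↔ x ∈ A := by
      exact ValuationSubring.smul_mem_pointwise_smul_iff
    rw [hσ] at h1
    exact h1
  res x := rfl

theorem actsAt_inertia {σ : GQ} (hσ : σ ∈ A.inertiaSubgroupIn ℚ) :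
    ActsAt (residue A) (σ : Qbar ≃+* Qbar) (RingEquiv.refl (ResidueField A)) := by
  obtain ⟨h, h1⟩ := actK_inertia hσ
  have h2 := actsAt_of_dec h
  have e : actK σ h = RingEquiv.refl (ResidueField A) := RingEquiv.ext h1
  rwa [e] at h2

end Acts

section Main

variable {A : ValuationSubring Qbar} {q : ℕ}

/-- lifting for the `j`-charts at `q = 2` (levels divisible by `3`) and `q = 3` (even levels) -/
def JL23 : Prop := ∀ (q : ℕ) (A : ValuationSubring Qbar), A.LiesOverPrime q → ∀ (M : ℕ) [NeZero M],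
  (q = 2 ∧ 3 ∣ M ∧ ¬ 2 ∣ M) ∨ (q = 3 ∧ 2 ∣ M ∧ ¬ 3 ∣ M) → JLift (residue A) M

attribute [-instance] DivisionRing.toRatAlgebra in
theorem unipAt_jLift (hq : q.Prime) (hA : A.LiesOverPrime q) {M : ℕ} [NeZero M]
    (hqM : ¬ q ∣ M) {n : ℕ} (hn : ¬ q ∣ n) (h : JLift (residue A) M)
    {σ : GQ} (hσ : σ ∈ A.inertiaSubgroupIn ℚ) : UnipAt (q * M) n (σ : Qbar ≃+* Qbar) := by
  haveI : Fact q.Prime := ⟨hq⟩
  haveI : NeZero q := ⟨hq.ne_zero⟩
  haveI := FrobDens.charP_residueField A hq hA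
  haveI : Algebra.IsAlgebraic ℚ Qbar := AlgebraicClosure.isAlgebraic ℚ
  haveI : @Algebra.IsAlgebraic ℤ Qbar _ _ (Ring.toIntAlgebra Qbar) := algebraic_int_Qbar
  have hr : RankOne (residue A) := @rankOne_of_liesOver Qbar _ A _ algebraic_int_Qbar q hq hA
  have hnκ : (n : ResidueField A) ≠ 0 := by
    rw [Ne, CharP.cast_eq_zero_iff _ q]
    exact hn
  exact unipAt_of_jLift residue_surjective ιQ
    ((Nat.Prime.coprime_iff_not_dvd hq).2 hqM) hA hr h (actsAt_inertia hσ) hnκ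

/-- unipotence of inertia at `q ∥ N` -/
theorem unipAt_all (H : JL23) (hq : q.Prime) (hA : A.LiesOverPrime q) {M : ℕ} [NeZero M]
    (hqM : ¬ q ∣ M) {n : ℕ} (hn : ¬ q ∣ n)
    {σ : GQ} (hσ : σ ∈ A.inertiaSubgroupIn ℚ) : UnipAt (q * M) n (σ : Qbar ≃+* Qbar) := by
  haveI : Fact q.Prime := ⟨hq⟩
  haveI : NeZero q := ⟨hq.ne_zero⟩
  haveI := FrobDens.charP_residueField A hq hA
  have hqM' : Nat.Coprime q M := (Nat.Prime.coprime_iff_not_dvd hq).2 hqM
  by_cases h5 : 5 ≤ q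
  · exact unipAt_jLift hq hA hqM hn (jLift_of_five residue_surjective ιQ hqM' h5) hσ
  · have h23 : q = 2 ∨ q = 3 := by
      have h2 := hq.two_le
      interval_cases q
      · exact Or.inl rfl
      · exact Or.inr rfl
      · exact absurd hq (by decide)
    rcases h23 with rfl | rfl
    · by_cases h3 : 3 ∣ M
      · exact unipAt_jLift hq hA hqM hn (H 2 A hA M (Or.inl ⟨rfl, h3, hqM⟩)) hσ
      · haveI : NeZero (2 * M) := ⟨mul_ne_zero (by norm_num) (NeZero.ne M)⟩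
        haveI : NeZero (3 * M) := ⟨mul_ne_zero (by norm_num) (NeZero.ne M)⟩
        have hM' : ¬ 2 ∣ 3 * M := by
          intro h
          rcases hq.dvd_mul.mp h with h | h
          · revert h; decide
          · exact hqM h
        refine unipAt_of_level (p := 3) Nat.prime_three ?_ ?_ ?_
        · intro h
          rcases Nat.prime_three.dvd_mul.mp h with h | h
          · revert h; decide
          · exact h3 h
        · exact Nat.Coprime.pow_left 2 ((Nat.Prime.coprime_iff_not_dvd Nat.prime_two).2 hn)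
        · rw [show 3 * (2 * M) = 2 * (3 * M) by ring]
          exact unipAt_jLift hq hA hM' hn (H 2 A hA (3 * M) (Or.inl ⟨rfl, ⟨M, rfl⟩, hM'⟩)) hσ
    · by_cases h2 : 2 ∣ M
      · exact unipAt_jLift hq hA hqM hn (H 3 A hA M (Or.inr ⟨rfl, h2, hqM⟩)) hσ
      · haveI : NeZero (3 * M) := ⟨mul_ne_zero (by norm_num) (NeZero.ne M)⟩
        haveI : NeZero (2 * M) := ⟨mul_ne_zero (by norm_num) (NeZero.ne M)⟩
        have hM' : ¬ 3 ∣ 2 * M := by
          intro h
          rcases hq.dvd_mul.mp h with h | h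
          · revert h; decide
          · exact hqM h
        refine unipAt_of_level (p := 2) Nat.prime_two ?_ ?_ ?_
        · intro h
          rcases Nat.prime_two.dvd_mul.mp h with h | h
          · revert h; decide
          · exact h2 h
        · exact (Nat.Prime.coprime_iff_not_dvd Nat.prime_three).2 hn
        · rw [show 2 * (3 * M) = 3 * (2 * M) by ring]
          exact unipAt_jLift hq hA hM' hn (H 3 A hA (2 * M) (Or.inr ⟨rfl, ⟨M, rfl⟩, hM'⟩)) hσ

/-- **Inertia at `q ∥ N` acts unipotently on the Tate module of `J₀(N)`**: `(ρ σ - 1)² = 0`. -/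
theorem rho_inertia_unip (H : JL23) {N p : ℕ} [NeZero N] [Fact p.Prime] (hq : q.Prime)
    (hqN : q ∣ N) (hq2 : ¬ q ^ 2 ∣ N) (hqp : q ≠ p) (hA : A.LiesOverPrime q)
    {σ : GQ} (hσ : σ ∈ A.inertiaSubgroupIn ℚ) :
    (KQ N).rho (bL N) p σ * (KQ N).rho (bL N) p σ + 1 = 2 • (KQ N).rho (bL N) p σ := by
  refine rho_unip (KQ N) (bL N) σ fun n φ u hu => ?_
  obtain ⟨M, rfl⟩ := hqN
  haveI : NeZero M := ⟨fun h => NeZero.ne (q * M) (by rw [h, mul_zero])⟩
  have hqM : ¬ q ∣ M := by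
    rintro ⟨M', rfl⟩
    exact hq2 ⟨M', by ring⟩
  have hn : ¬ q ∣ p ^ n := fun h =>
    hqp ((Nat.prime_dvd_prime_iff_eq hq Fact.out).mp (hq.dvd_of_dvd_pow h))
  have hu0 := (KQ (q * M)).ne_zero hu
  have hu0' : (u : ℒ Qbar) ≠ 0 := fun h => hu0 (Subtype.ext h)
  obtain ⟨f, hf, he⟩ := unipAt_all H hq hA hqM hn hσ (u : ℒ Qbar) u.2 hu0'
    (fun v => ClX.dvd_ord ιQ hu v)
  have h3 : coeffMap (((σ : Qbar ≃+* Qbar) : Qbar →+* Qbar)) (u : ℒ Qbar) ≠ 0 :=
    (map_ne_zero _).mpr hu0'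
  have h4 : coeffMap (((σ : Qbar ≃+* Qbar) : Qbar →+* Qbar))
      (coeffMap (((σ : Qbar ≃+* Qbar) : Qbar →+* Qbar)) (u : ℒ Qbar)) ≠ 0 :=
    (map_ne_zero _).mpr h3
  refine ⟨⟨f, hf⟩, ?_, ?_⟩
  · intro h
    have hf0 : f = 0 := congrArg Subtype.val h
    rw [hf0, zero_pow (pow_ne_zero n (Fact.out : p.Prime).ne_zero)] at he
    exact div_ne_zero (mul_ne_zero h4 hu0') (pow_ne_zero 2 h3) he
  · apply Subtype.ext
    rw [div_eq_iff (pow_ne_zero 2 h3)] at he
    exact he.trans (mul_comm _ _)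

end Main

end Fermat.Agent.SSMod
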