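import Fermat.Agent.GenusX0.Sigma
import Fermat.Agent.AnJac.Canon

/-!
# Atkin–Lehner involutions on the function field of `X₀(QM)`, `gcd(Q, M) = 1`
-/

set_option autoImplicit false
set_option linter.unusedSectionVars false
set_option linter.style.haveILetI false
set_option linter.unusedVariables false

noncomputable section

open HahnSeries ModularCurve UpperHalfPlane Function.Periodic IntermediateField
open scoped MatrixGroups

namespace Fermat.Agent.SSMod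

open Fermat.Agent.ModFun Fermat.Agent.GenusX0 Fermat.Agent.AnJac

/-- `d e ↦ (Q/d) e` -/
def swapDiv (Q M δ : ℕ) : ℕ := Q / Nat.gcd δ Q * Nat.gcd δ M

theorem swapDiv_mul {Q M : ℕ} (hQM : Nat.Coprime Q M) {d e : ℕ} (hd : d ∣ Q) (he : e ∣ M) :
    swapDiv Q M (d * e) = Q / d * e := by
  have h1 : Nat.gcd (d * e) Q = d := by
    rw [Nat.Coprime.gcd_mul_right_cancel d (hQM.symm.coprime_dvd_left he)]
    exact Nat.gcd_eq_left hd
  have h2 : Nat.gcd (d * e) M = e := by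
    rw [Nat.Coprime.gcd_mul_left_cancel e (hQM.coprime_dvd_left hd)]
    exact Nat.gcd_eq_left he
  rw [swapDiv, h1, h2]

theorem exists_div_decomp {Q M : ℕ} (hQM : Nat.Coprime Q M) {δ : ℕ} (hδ : δ ∣ Q * M) :
    ∃ d e, d ∣ Q ∧ e ∣ M ∧ δ = d * e := by
  obtain ⟨d, e, hd, he, h⟩ := exists_dvd_and_dvd_of_dvd_mul hδ
  exact ⟨d, e, hd, he, h⟩

theorem swapDiv_dvd {Q M : ℕ} (hQM : Nat.Coprime Q M) {δ : ℕ} (hδ : δ ∣ Q * M) :
    swapDiv Q M δ ∣ Q * M := by
  obtain ⟨d, e, hd, he, rfl⟩ := exists_div_decomp hQM hδ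
  rw [swapDiv_mul hQM hd he]
  exact Nat.mul_dvd_mul (Nat.div_dvd_of_dvd hd) he

theorem swapDiv_swapDiv {Q M : ℕ} [NeZero Q] (hQM : Nat.Coprime Q M) {δ : ℕ} (hδ : δ ∣ Q * M) :
    swapDiv Q M (swapDiv Q M δ) = δ := by
  obtain ⟨d, e, hd, he, rfl⟩ := exists_div_decomp hQM hδ
  rw [swapDiv_mul hQM hd he, swapDiv_mul hQM (Nat.div_dvd_of_dvd hd) he,
    Nat.div_div_self hd (NeZero.ne Q)]

theorem swapDiv_ne_zero {Q M : ℕ} [NeZero Q] [NeZero M] (hQM : Nat.Coprime Q M) {δ : ℕ}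
    (hδ : δ ∣ Q * M) : swapDiv Q M δ ≠ 0 := by
  intro h
  have := swapDiv_dvd hQM hδ
  rw [h, zero_dvd_iff] at this
  exact mul_ne_zero (NeZero.ne Q) (NeZero.ne M) this

section Point

variable {Q M : ℕ} [NeZero Q] [NeZero M]

/-- the matrix entries of the Atkin–Lehner map -/
theorem exists_al_mat (hQM : Nat.Coprime Q M) : ∃ γ : SL(2, ℤ), γ 1 0 = M ∧ γ 1 1 = Q := by
  have h1 := Nat.isCoprime_iff_coprime.mpr hQM
  obtain ⟨a, b, hab⟩ := h1
  refine ⟨⟨!![a, -b; (M : ℤ), (Q : ℤ)], ?_⟩, rfl, rfl⟩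
  rw [Matrix.det_fin_two_of]
  linear_combination hab

/-- the Atkin–Lehner map on the upper half plane -/
def alPt (hQM : Nat.Coprime Q M) (τ : ℍ) : ℍ := (exists_al_mat hQM).choose • dm Q τ

theorem jfun_alPt (hQM : Nat.Coprime Q M) {d d' e : ℕ} [NeZero d] [NeZero d'] [NeZero e]
    (hd : d * d' = Q) (he : e ∣ M) (τ : ℍ) :
    jfun (dm (d * e) (alPt hQM τ)) = jfun (dm (d' * e) τ) := by
  obtain ⟨h10, h11⟩ := (exists_al_mat hQM).choose_spec
  rw [alPt]
  set γ := (exists_al_mat hQM).choose with hγ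
  obtain ⟨m, rfl⟩ := he
  have hdet := Matrix.SpecialLinearGroup.det_coe γ
  rw [Matrix.det_fin_two, h10, h11] at hdet
  have e1 : (Q : ℤ) = d * d' := by exact_mod_cast hd.symm
  rw [e1] at hdet
  push_cast at hdet
  obtain ⟨γ', c00, c01, c10, c11⟩ : ∃ γ' : SL(2, ℤ), γ' 0 0 = γ 0 0 * d ∧ γ' 0 1 = γ 0 1 * e ∧
      γ' 1 0 = m ∧ γ' 1 1 = d' :=
    ⟨⟨!![γ 0 0 * d, γ 0 1 * e; (m : ℤ), (d' : ℤ)], by
      rw [Matrix.det_fin_two_of]
      linear_combination hdet⟩, rfl, rfl, rfl, rfl⟩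
  rw [← jfun_smul γ' (dm (d' * e) τ)]
  congr 1
  ext
  rw [coe_dm, UpperHalfPlane.coe_specialLinearGroup_apply,
    UpperHalfPlane.coe_specialLinearGroup_apply, coe_dm, coe_dm]
  have hd0 : (d : ℂ) ≠ 0 := by exact_mod_cast NeZero.ne d
  simp only [eq_intCast]
  rw [c00, c01, c10, c11, h10, h11]
  have hQ : (Q : ℂ) = d * d' := by exact_mod_cast hd.symm
  push_cast
  rw [hQ]
  have n1 : (d : ℂ) * e * ((((γ 0 0 : ℤ) : ℂ) * (d * d' * (τ : ℂ)) + ((γ 0 1 : ℤ) : ℂ)) /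
      ((e : ℂ) * m * (d * d' * τ) + d * d')) =
      (d * (((γ 0 0 : ℤ) : ℂ) * d * (d' * e * τ) + ((γ 0 1 : ℤ) : ℂ) * e)) /
        (d * (m * (d' * e * τ) + d')) := by
    rw [mul_div_assoc']
    congr 1 <;> ring
  rw [n1, mul_div_mul_left _ _ hd0]

end Point

section Field

variable {k : Type*} [Field k] (ι : k →+* ℂ)

theorem fn_injective {N : ℕ} {x y : LaurentSeries k} (hx : x ∈ Bk k N) (hy : y ∈ Bk k N)
    (h : ∀ τ, fn ι x τ = fn ι y τ) : x = y := by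
  have h5 : coeffMap ι (x - y) = 0 := by
    apply eq_zero_of_evf (conv_of_mem_Bk ι (sub_mem hx hy))
    intro z hz
    have hz' := hz.ne_zero
    obtain ⟨τ, hτ⟩ : ∃ τ : ℍ, qParam 1 (τ : ℂ) = z :=
      ⟨⟨_, im_invQParam_pos_of_norm_lt_one one_pos hz.2 hz'⟩, qParam_right_inv one_ne_zero hz'⟩
    rw [← hτ]
    have h1 : fn ι x τ = fn ι (x - y) τ + fn ι y τ := by
      rw [← fn_add ι (conv_of_mem_Bk ι (sub_mem hx hy)) (conv_of_mem_Bk ι hy), sub_add_cancel]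
    rw [h τ] at h1
    exact left_eq_add.mp (h1.trans (add_comm _ _))
  rw [← sub_eq_zero]
  ext n
  have h6 := congrArg (fun F => HahnSeries.coeff F n) h5
  simp only [coeffMap_coeff, HahnSeries.coeff_zero] at h6
  exact (map_eq_zero ι).mp h6

theorem fn_gen' (d : ℕ) (hd : NeZero d) (τ : ℍ) :
    fn ι (qExpand k d (jqModC k)) τ = jfun (dm d τ) := fn_gen ι d τ

variable {Q M : ℕ} [NeZero Q] [NeZero M] (hQM : Nat.Coprime Q M)

/-- `qExpand` with a bare index -/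
def genx (k : Type*) [Field k] (d : ℕ) (h : d ≠ 0) : LaurentSeries k :=
  @qExpand k _ d ⟨h⟩ (jqModC k)

theorem genx_mem (k : Type*) [Field k] {N d : ℕ} (h : d ≠ 0) (hd : d ∣ N) : genx k d h ∈ Bk k N :=
  Algebra.subset_adjoin ⟨d, ⟨h⟩, hd, rfl⟩

theorem genx_congr (k : Type*) [Field k] {d d' : ℕ} (h : d ≠ 0) (h' : d' ≠ 0) (e : d = d') :
    genx k d h = genx k d' h' := by subst e; rfl

theorem fn_genx_alPt {δ : ℕ} (h : δ ≠ 0) (hδ : δ ∣ Q * M) (τ : ℍ) :
    fn ι (genx k δ h) (alPt hQM τ) =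
      fn ι (genx k (swapDiv Q M δ) (swapDiv_ne_zero hQM hδ)) τ := by
  obtain ⟨d, e, hd, he, rfl⟩ := exists_div_decomp hQM hδ
  have hd0 : d ≠ 0 := left_ne_zero_of_mul h
  have he0 : e ≠ 0 := right_ne_zero_of_mul h
  haveI : NeZero d := ⟨hd0⟩
  haveI : NeZero e := ⟨he0⟩
  have hd'0 : Q / d ≠ 0 := (Nat.div_pos (Nat.le_of_dvd (Nat.pos_of_ne_zero (NeZero.ne Q)) hd)
    (Nat.pos_of_ne_zero hd0)).ne'
  haveI : NeZero (Q / d) := ⟨hd'0⟩
  rw [genx_congr k _ (mul_ne_zero hd'0 he0) (swapDiv_mul hQM hd he)]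
  rw [genx, fn_gen, jfun_alPt hQM (Nat.mul_div_cancel' hd) he, genx, fn_gen]

theorem exists_al {x : LaurentSeries k} (hx : x ∈ Bk k (Q * M)) :
    ∃ y : Bk k (Q * M), ∀ τ, fn ι (y : LaurentSeries k) τ = fn ι x (alPt hQM τ) := by
  induction hx using Algebra.adjoin_induction with
  | mem x hx =>
    obtain ⟨δ, ⟨hδ0⟩, hδ, rfl⟩ := hx
    exact ⟨⟨_, genx_mem k (swapDiv_ne_zero hQM hδ) (swapDiv_dvd hQM hδ)⟩,
      fun τ => (fn_genx_alPt ι hQM hδ0 hδ τ).symm⟩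
  | algebraMap c =>
    exact ⟨algebraMap k _ c, fun τ => (fn_algebraMap ι c τ).trans (fn_algebraMap ι c _).symm⟩
  | add x y hx' hy' hx hy =>
    obtain ⟨F, hF⟩ := hx
    obtain ⟨G, hG⟩ := hy
    refine ⟨F + G, fun τ => ?_⟩
    rw [fn_add ι (conv_of_mem_Bk ι hx') (conv_of_mem_Bk ι hy'), ← hF, ← hG,
      ← fn_add ι (conv_of_mem_Bk ι F.2) (conv_of_mem_Bk ι G.2)]
    rfl
  | mul x y hx' hy' hx hy =>
    obtain ⟨F, hF⟩ := hx
    obtain ⟨G, hG⟩ := hy
    refine ⟨F * G, fun τ => ?_⟩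
    rw [fn_mul ι (conv_of_mem_Bk ι hx') (conv_of_mem_Bk ι hy'), ← hF, ← hG,
      ← fn_mul ι (conv_of_mem_Bk ι F.2) (conv_of_mem_Bk ι G.2)]
    rfl

/-- the Atkin–Lehner map on polynomials in the `j(dτ)`, as a function -/
def alFun (x : Bk k (Q * M)) : Bk k (Q * M) := (exists_al ι hQM x.2).choose

theorem alFun_spec (x : Bk k (Q * M)) (τ : ℍ) :
    fn ι (alFun ι hQM x : LaurentSeries k) τ = fn ι (x : LaurentSeries k) (alPt hQM τ) :=
  (exists_al ι hQM x.2).choose_spec τ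

theorem alFun_eq {x y : Bk k (Q * M)} (h : ∀ τ, fn ι (y : LaurentSeries k) τ =
    fn ι (x : LaurentSeries k) (alPt hQM τ)) : alFun ι hQM x = y :=
  Subtype.ext (fn_injective ι (alFun ι hQM x).2 y.2 fun τ => by rw [alFun_spec, h])

/-- the Atkin–Lehner map on polynomials in the `j(dτ)` -/
def alB : Bk k (Q * M) →ₐ[k] Bk k (Q * M) where
  toFun := alFun ι hQM
  map_one' := alFun_eq ι hQM fun τ => by
    have h (τ : ℍ) : fn ι ((1 : Bk k (Q * M)) : LaurentSeries k) τ = 1 := by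
      have := fn_algebraMap ι 1 τ
      rwa [map_one, map_one] at this
    rw [h, h]
  map_mul' x y := alFun_eq ι hQM fun τ => by
    show fn ι ((alFun ι hQM x : LaurentSeries k) * (alFun ι hQM y : LaurentSeries k)) τ =
      fn ι ((x : LaurentSeries k) * y) _
    rw [fn_mul ι (conv_of_mem_Bk ι (alFun ι hQM x).2) (conv_of_mem_Bk ι (alFun ι hQM y).2),
      fn_mul ι (conv_of_mem_Bk ι x.2) (conv_of_mem_Bk ι y.2), alFun_spec, alFun_spec]
  map_zero' := alFun_eq ι hQM fun τ => by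
    have h (τ : ℍ) : fn ι ((0 : Bk k (Q * M)) : LaurentSeries k) τ = 0 := by
      have := fn_algebraMap ι 0 τ
      rwa [map_zero, map_zero] at this
    rw [h, h]
  map_add' x y := alFun_eq ι hQM fun τ => by
    show fn ι ((alFun ι hQM x : LaurentSeries k) + (alFun ι hQM y : LaurentSeries k)) τ =
      fn ι ((x : LaurentSeries k) + y) _
    rw [fn_add ι (conv_of_mem_Bk ι (alFun ι hQM x).2) (conv_of_mem_Bk ι (alFun ι hQM y).2),
      fn_add ι (conv_of_mem_Bk ι x.2) (conv_of_mem_Bk ι y.2), alFun_spec, alFun_spec]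
  commutes' c := alFun_eq ι hQM fun τ => (fn_algebraMap ι c τ).trans (fn_algebraMap ι c _).symm

theorem alB_genx {δ : ℕ} (h : δ ≠ 0) (hδ : δ ∣ Q * M) :
    alB ι hQM ⟨genx k δ h, genx_mem k h hδ⟩ =
      ⟨genx k (swapDiv Q M δ) (swapDiv_ne_zero hQM hδ), genx_mem k _ (swapDiv_dvd hQM hδ)⟩ :=
  alFun_eq ι hQM fun τ => (fn_genx_alPt ι hQM h hδ τ).symm

theorem algHom_ext_Bk {N : ℕ} {R : Type*} [Semiring R] [Algebra k R] {f g : Bk k N →ₐ[k] R}
    (h : ∀ (d : ℕ) (h0 : d ≠ 0) (hd : d ∣ N), f ⟨genx k d h0, genx_mem k h0 hd⟩ =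
      g ⟨genx k d h0, genx_mem k h0 hd⟩) : f = g := by
  ext ⟨x, hx⟩
  induction hx using Algebra.adjoin_induction with
  | mem x hx =>
    obtain ⟨d, ⟨h0⟩, hd, rfl⟩ := hx
    exact h d h0 hd
  | algebraMap c => exact (f.commutes c).trans (g.commutes c).symm
  | add x y hx' hy' hx hy =>
    exact ((f.map_add ⟨x, hx'⟩ ⟨y, hy'⟩).trans (congrArg₂ _ hx hy)).trans
      (g.map_add ⟨x, hx'⟩ ⟨y, hy'⟩).symm
  | mul x y hx' hy' hx hy =>
    exact ((f.map_mul ⟨x, hx'⟩ ⟨y, hy'⟩).trans (congrArg₂ _ hx hy)).trans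
      (g.map_mul ⟨x, hx'⟩ ⟨y, hy'⟩).symm

theorem alB_alB (x : Bk k (Q * M)) : alB ι hQM (alB ι hQM x) = x := by
  have h : (alB ι hQM).comp (alB ι hQM) = AlgHom.id k (Bk k (Q * M)) := by
    apply algHom_ext_Bk
    intro d h0 hd
    rw [AlgHom.comp_apply, alB_genx ι hQM h0 hd,
      alB_genx ι hQM (swapDiv_ne_zero hQM hd) (swapDiv_dvd hQM hd), AlgHom.id_apply]
    exact Subtype.ext (genx_congr k (swapDiv_ne_zero hQM (swapDiv_dvd hQM hd)) h0
      (swapDiv_swapDiv hQM hd))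
  exact DFunLike.congr_fun h x

/-- the Atkin–Lehner automorphism on polynomials in the `j(dτ)` -/
def alBE : Bk k (Q * M) ≃ₐ[k] Bk k (Q * M) :=
  AlgEquiv.ofAlgHom (alB ι hQM) (alB ι hQM) (AlgHom.ext (alB_alB ι hQM))
    (AlgHom.ext (alB_alB ι hQM))

/-- the Atkin–Lehner automorphism of the function field -/
def al : modularFunctionFieldFullC k (Q * M) ≃+* modularFunctionFieldFullC k (Q * M) :=
  IsFractionRing.ringEquivOfRingEquiv (alBE ι hQM).toRingEquiv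

theorem al_algebraMap (x : Bk k (Q * M)) :
    al ι hQM (algebraMap (Bk k (Q * M)) (modularFunctionFieldFullC k (Q * M)) x) =
      algebraMap _ _ (alB ι hQM x) :=
  IsFractionRing.ringEquivOfRingEquiv_algebraMap _ _

theorem al_const (c : k) : al ι hQM (algebraMap k _ c) = algebraMap k _ c := by
  have h1 : algebraMap k (modularFunctionFieldFullC k (Q * M)) c =
      algebraMap (Bk k (Q * M)) (modularFunctionFieldFullC k (Q * M)) (algebraMap k _ c) := rfl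
  rw [h1, al_algebraMap, AlgHom.commutes]

/-- the generators of the function field -/
def gj (k : Type*) [Field k] {N : ℕ} (d : ℕ) (h : d ≠ 0) (hd : d ∣ N) :
    modularFunctionFieldFullC k N :=
  ⟨genx k d h, IntermediateField.subset_adjoin k _ ⟨d, ⟨h⟩, hd, rfl⟩⟩

theorem gj_eq_algebraMap (k : Type*) [Field k] {N : ℕ} (d : ℕ) (h : d ≠ 0) (hd : d ∣ N) :
    gj k d h hd = algebraMap (Bk k N) (modularFunctionFieldFullC k N)
      ⟨genx k d h, genx_mem k h hd⟩ := rfl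

theorem al_gj {δ : ℕ} (h : δ ≠ 0) (hδ : δ ∣ Q * M) : al ι hQM (gj k δ h hδ) =
    gj k (swapDiv Q M δ) (swapDiv_ne_zero hQM hδ) (swapDiv_dvd hQM hδ) := by
  rw [gj_eq_algebraMap, al_algebraMap, alB_genx ι hQM h hδ]
  rfl

/-- homomorphisms out of the function field are determined by constants and generators -/
theorem ringHom_ext_gj {N : ℕ} {R : Type*} [Field R]
    {f g : modularFunctionFieldFullC k N →+* R}
    (hc : ∀ c : k, f (algebraMap k _ c) = g (algebraMap k _ c))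
    (h : ∀ (d : ℕ) (h0 : d ≠ 0) (hd : d ∣ N), f (gj k d h0 hd) = g (gj k d h0 hd)) : f = g := by
  apply ringHom_ext_Bk
  intro x
  obtain ⟨x, hx⟩ := x
  have key : ∀ (x : LaurentSeries k) (hx : x ∈ Bk k N),
      f (algebraMap (Bk k N) _ ⟨x, hx⟩) = g (algebraMap (Bk k N) _ ⟨x, hx⟩) := by
    intro x hx
    induction hx using Algebra.adjoin_induction with
    | mem x hx =>
      obtain ⟨d, ⟨h0⟩, hd, rfl⟩ := hx
      exact h d h0 hd
    | algebraMap c => exact hc c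
    | add x y hx' hy' hx hy =>
      exact ((f.map_add (algebraMap (Bk k N) _ ⟨x, hx'⟩) (algebraMap (Bk k N) _ ⟨y, hy'⟩)).trans
        (congrArg₂ _ hx hy)).trans
        (g.map_add (algebraMap (Bk k N) _ ⟨x, hx'⟩) (algebraMap (Bk k N) _ ⟨y, hy'⟩)).symm
    | mul x y hx' hy' hx hy =>
      exact ((f.map_mul (algebraMap (Bk k N) _ ⟨x, hx'⟩) (algebraMap (Bk k N) _ ⟨y, hy'⟩)).trans
        (congrArg₂ _ hx hy)).trans
        (g.map_mul (algebraMap (Bk k N) _ ⟨x, hx'⟩) (algebraMap (Bk k N) _ ⟨y, hy'⟩)).symm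
  exact key x hx

theorem al_al (x : modularFunctionFieldFullC k (Q * M)) : al ι hQM (al ι hQM x) = x := by
  have h : (al ι hQM).toRingHom.comp (al ι hQM).toRingHom = RingHom.id _ := by
    apply ringHom_ext_Bk
    intro x
    show al ι hQM (al ι hQM _) = _
    rw [al_algebraMap, al_algebraMap, alB_alB]
    rfl
  exact DFunLike.congr_fun h x

theorem al_symm (x : modularFunctionFieldFullC k (Q * M)) : (al ι hQM).symm x = al ι hQM x := by
  rw [RingEquiv.symm_apply_eq, al_al]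

/-- Atkin–Lehner automorphisms are defined over the prime field -/
theorem al_galF (σ : k ≃+* k) (x : modularFunctionFieldFullC k (Q * M)) :
    al ι hQM (galF (Q * M) σ x) = galF (Q * M) σ (al ι hQM x) := by
  have hgal : ∀ (d : ℕ) (h0 : d ≠ 0) (hd : d ∣ Q * M),
      galF (Q * M) σ (gj k d h0 hd) = gj k d h0 hd := by
    intro d h0 hd
    apply Subtype.ext
    rw [coe_galF]
    haveI : NeZero d := ⟨h0⟩
    exact coeffMap_jqNModC (f := (σ : k →+* k)) d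
  have h : (al ι hQM).toRingHom.comp (galF (Q * M) σ).toRingHom =
      (galF (Q * M) σ).toRingHom.comp (al ι hQM).toRingHom := by
    apply ringHom_ext_gj
    · intro c
      show al ι hQM (galF (Q * M) σ _) = galF (Q * M) σ (al ι hQM _)
      rw [galF_const, al_const, al_const, galF_const]
    · intro d h0 hd
      show al ι hQM (galF (Q * M) σ _) = galF (Q * M) σ (al ι hQM _)
      rw [hgal, al_gj, hgal]
  exact DFunLike.congr_fun h x

end Field

end Fermat.Agent.SSMod
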