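import Fermat.Agent.SSMod.Base
import Fermat.Agent.SSMod.AL

/-!
# The Gauss component of fields of Laurent series
-/

set_option autoImplicit false
set_option linter.unusedSectionVars false
set_option linter.style.haveILetI false

noncomputable section

namespace Fermat.Agent.SSMod

open ModularCurve Fermat.Agent.GoodRed Fermat.Agent.Models Fermat.Agent.ModFun

local notation "ℒ" => LaurentSeries

section Rat

variable {K : Type*} [Field K]

/-- fractions of `L`-combinations of integral series -/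
def RatS (L : Subfield K) : Subfield (ℒ K) := Subfield.closure (PS L : Set (ℒ K))

theorem PS_le_RatS (L : Subfield K) {x : ℒ K} (hx : x ∈ PS L) : x ∈ RatS L :=
  Subfield.subset_closure hx

theorem mem_RatS {L : Subfield K} {x : ℒ K} (hx : x ∈ RatS L) :
    ∃ y ∈ PS L, ∃ z ∈ PS L, x = y / z := by
  rw [RatS, Subfield.mem_closure_iff] at hx
  obtain ⟨y, hy, z, hz, h⟩ := hx
  rw [Subring.closure_eq] at hy hz
  exact ⟨y, hy, z, hz, h.symm⟩

end Rat

variable {K κ : Type*} [Field K] [Field κ] {A : ValuationSubring K} {π : A →+* κ}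

theorem LR.div {x x' : ℒ K} {y y' : ℒ κ} (h : LR π x y) (h' : LR π x' y') (hy : y' ≠ 0) :
    LR π (x / x') (y / y') := by
  rw [div_eq_mul_inv, div_eq_mul_inv]
  exact h.mul (h'.inv hy)

theorem LR.C (a : A) : LR π (HahnSeries.C (a : K)) (HahnSeries.C (π a)) := by
  have := LR.const π a
  rwa [← ModFun.C_eq_algebraMap, ← ModFun.C_eq_algebraMap] at this

theorem LR.pow {x : ℒ K} {y : ℒ κ} (h : LR π x y) (n : ℕ) : LR π (x ^ n) (y ^ n) := by
  induction n with
  | zero => rw [pow_zero, pow_zero]; exact LR.one π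
  | succ n ih => rw [pow_succ, pow_succ]; exact ih.mul h

theorem LR.sub {x x' : ℒ K} {y y' : ℒ κ} (h : LR π x y) (h' : LR π x' y') :
    LR π (x - x') (y - y') := by
  rw [sub_eq_add_neg, sub_eq_add_neg]
  exact h.add h'.neg

/-- **Scaling of fractions.** -/
theorem exists_scale_rat {q : ℕ} [Fact q.Prime] [CharP κ q] {L : Subfield K} {x : ℒ K}
    (hx : x ∈ RatS L) (hx0 : x ≠ 0) :
    ∃ c ∈ L, c ≠ 0 ∧ ∃ y, y ≠ 0 ∧ LR π (HahnSeries.C c * x) y := by
  obtain ⟨f, hf, g, hg, rfl⟩ := mem_RatS hx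
  have hf0 : f ≠ 0 := by rintro rfl; exact hx0 (zero_div _)
  have hg0 : g ≠ 0 := by rintro rfl; exact hx0 (div_zero _)
  obtain ⟨c, hc, F, hc0, hF, hF0⟩ := exists_scale_PS (q := q) π hf hf0
  obtain ⟨d, hd, G, hd0, hG, hG0⟩ := exists_scale_PS (q := q) π hg hg0
  have hCd : (HahnSeries.C d : ℒ K) ≠ 0 := by simpa using hd0
  have h1 : LR π (coeffMap A.subtype F) (coeffMap π F) := LR.of F
  have h2 : LR π (coeffMap A.subtype G) (coeffMap π G) := LR.of G
  refine ⟨c / d, div_mem hc hd, div_ne_zero hc0 hd0, _, div_ne_zero hF0 hG0, ?_⟩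
  have e : (HahnSeries.C (c / d) : ℒ K) * (f / g) =
      coeffMap A.subtype F / coeffMap A.subtype G := by
    rw [hF, hG, map_div₀]
    field_simp
  rw [e]
  exact LR.div h1 h2 hG0

/-- reductions from `LR` are multiplicative units -/
theorem LR_mem_or_inv {x : ℒ K} {c : K} (hc0 : c ≠ 0) {y : ℒ κ} (hy : y ≠ 0)
    (h : LR π (HahnSeries.C c * x) y) : (∃ y', LR π x y') ∨ ∃ y', LR π x⁻¹ y' := by
  have hC : (HahnSeries.C c : ℒ K) ≠ 0 := by simpa using hc0
  rcases A.mem_or_inv_mem c with hc | hc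
  · right
    refine ⟨HahnSeries.C (π ⟨c, hc⟩) * y⁻¹, ?_⟩
    have e : x⁻¹ = HahnSeries.C c * (HahnSeries.C c * x)⁻¹ := by
      rw [mul_inv, ← mul_assoc, mul_inv_cancel₀ hC, one_mul]
    rw [e]
    exact (LR.C ⟨c, hc⟩).mul (h.inv hy)
  · left
    refine ⟨HahnSeries.C (π ⟨c⁻¹, hc⟩) * y, ?_⟩
    have e : x = HahnSeries.C c⁻¹ * (HahnSeries.C c * x) := by
      rw [← mul_assoc, map_inv₀, inv_mul_cancel₀ hC, one_mul]
    rw [e]
    exact (LR.C ⟨c⁻¹, hc⟩).mul h

section Comp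

variable [IsLocalHom π] (hπ : Function.Surjective π)
  (F : IntermediateField K (ℒ K)) (E : IntermediateField κ (ℒ κ))
  (hE : ∀ x ∈ F, ∀ y, LR π x y → y ∈ E) (hsurj : ∀ y ∈ E, ∃ x ∈ F, LR π x y)
  (hscale : ∀ x ∈ F, x ≠ 0 → ∃ c : K, c ≠ 0 ∧ ∃ y, y ≠ 0 ∧ LR π (HahnSeries.C c * x) y)

include hscale in
/-- the valuation ring of elements with a reduction -/
def lrO : ValuationSubring F where
  carrier := {x | ∃ y, LR π (x : ℒ K) y}
  mul_mem' := by
    rintro a b ⟨x, hx⟩ ⟨y, hy⟩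
    exact ⟨x * y, hx.mul hy⟩
  one_mem' := ⟨1, LR.one π⟩
  add_mem' := by
    rintro a b ⟨x, hx⟩ ⟨y, hy⟩
    exact ⟨x + y, hx.add hy⟩
  zero_mem' := ⟨0, LR.zero π⟩
  neg_mem' := by
    rintro a ⟨x, hx⟩
    exact ⟨-x, hx.neg⟩
  mem_or_inv_mem' := by
    intro x
    rcases eq_or_ne x 0 with rfl | hx
    · exact Or.inl ⟨0, LR.zero π⟩
    · obtain ⟨c, hc0, y, hy, h⟩ := hscale x x.2 fun h => hx (Subtype.ext h)
      exact LR_mem_or_inv hc0 hy h

theorem mem_lrO {x : F} : x ∈ lrO F hscale ↔ ∃ y, LR π (x : ℒ K) y := Iff.rfl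

/-- the residue map -/
def lrRes : lrO F hscale →+* E where
  toFun x := ⟨x.2.choose, hE _ x.1.2 _ x.2.choose_spec⟩
  map_one' := Subtype.ext ((1 : lrO F hscale).2.choose_spec.unique (LR.one π))
  map_mul' x y := Subtype.ext ((x * y).2.choose_spec.unique
    (x.2.choose_spec.mul y.2.choose_spec))
  map_zero' := Subtype.ext ((0 : lrO F hscale).2.choose_spec.unique (LR.zero π))
  map_add' x y := Subtype.ext ((x + y).2.choose_spec.unique
    (x.2.choose_spec.add y.2.choose_spec))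

theorem lrRes_spec (x : lrO F hscale) : LR π ((x : F) : ℒ K) (lrRes F E hE hscale x : ℒ κ) :=
  x.2.choose_spec

theorem lrRes_eq {x : lrO F hscale} {y : E} (h : LR π ((x : F) : ℒ K) (y : ℒ κ)) :
    lrRes F E hE hscale x = y := Subtype.ext ((lrRes_spec F E hE hscale x).unique h)

/-- the residue structure -/
def lrStr : Res F E where
  O := lrO F hscale
  res := lrRes F E hE hscale
  res_surjective y := by
    obtain ⟨x, hx, h⟩ := hsurj y y.2
    exact ⟨⟨⟨x, hx⟩, y, h⟩, lrRes_eq F E hE hscale h⟩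
  res_ne_zero_iff x := by
    have h := lrRes_spec F E hE hscale x
    constructor
    · intro h0
      have h1 : (lrRes F E hE hscale x : ℒ κ) ≠ 0 := fun h2 => h0 (Subtype.ext h2)
      refine ⟨?_, _, h.inv h1⟩
      intro h2
      apply h1
      rw [h2] at h
      exact h.unique (LR.zero π)
    · rintro ⟨h0, y, hy⟩ h1
      rw [h1] at h
      have h2 := h.mul hy
      have h3 : ((x : F) : ℒ K) * (((x : F)⁻¹ : F) : ℒ K) = 1 := by
        have : ((x : F) : ℒ K) ≠ 0 := fun h => h0 (Subtype.ext h)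
        rw [IntermediateField.coe_inv, mul_inv_cancel₀ this]
      rw [h3] at h2
      have h4 := h2.unique (LR.one π)
      rw [show ((0 : E) : ℒ κ) = 0 from rfl, zero_mul] at h4
      exact zero_ne_one h4

theorem lrStr_r_eq {x : F} {y : E} (h : LR π (x : ℒ K) (y : ℒ κ)) :
    x ∈ (lrStr F E hE hsurj hscale).O ∧ (lrStr F E hE hsurj hscale).r x = y := by
  have h1 : x ∈ (lrStr F E hE hsurj hscale).O := ⟨_, h⟩
  refine ⟨h1, ?_⟩
  rw [Res.r_of_mem h1]
  exact lrRes_eq F E hE hscale (x := ⟨x, h1⟩) h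

theorem lrStr_spec {x : F} (hx : x ∈ (lrStr F E hE hsurj hscale).O) :
    LR π (x : ℒ K) ((lrStr F E hE hsurj hscale).r x : ℒ κ) := by
  rw [Res.r_of_mem hx]
  exact lrRes_spec F E hE hscale ⟨x, hx⟩

theorem lr_algebraMap {a : K} (ha : a ∈ A) :
    LR π ((algebraMap K F a : F) : ℒ K) ((algebraMap κ E (π ⟨a, ha⟩) : E) : ℒ κ) :=
  LR.const π ⟨a, ha⟩

/-- the Gauss component -/
def lrComp : Comp (baseRes π hπ) F E where
  toRes := lrStr F E hE hsurj hscale
  algebraMap_mem a ha := ⟨_, lr_algebraMap (π := π) F E ha⟩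
  r_algebraMap a ha := by
    rw [baseRes_r π hπ ha]
    exact (lrStr_r_eq F E hE hsurj hscale (lr_algebraMap (π := π) F E ha)).2
  exists_scale f hf := by
    obtain ⟨c, hc, y, hy, h⟩ := hscale f f.2 fun h => hf (Subtype.ext h)
    refine ⟨c, hc, ?_⟩
    have e : ((algebraMap K F c * f : F) : ℒ K) = HahnSeries.C c * (f : ℒ K) := by
      rw [ModFun.C_eq_algebraMap]
      rfl
    rw [← e] at h
    have h1 := (lrStr_r_eq F E hE hsurj hscale
      (y := ⟨y, hE _ (algebraMap K F c * f).2 _ h⟩) h).2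
    rw [h1]
    exact fun h0 => hy (congrArg Subtype.val h0)

theorem lrComp_mem {x : F} : x ∈ (lrComp hπ F E hE hsurj hscale).O ↔
    ∃ y, LR π (x : ℒ K) y := Iff.rfl

theorem lrComp_r_eq {x : F} {y : E} (h : LR π (x : ℒ K) (y : ℒ κ)) :
    x ∈ (lrComp hπ F E hE hsurj hscale).O ∧ (lrComp hπ F E hE hsurj hscale).r x = y :=
  lrStr_r_eq F E hE hsurj hscale h

theorem lrComp_spec {x : F} (hx : x ∈ (lrComp hπ F E hE hsurj hscale).O) :
    LR π (x : ℒ K) ((lrComp hπ F E hE hsurj hscale).r x : ℒ κ) :=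
  lrStr_spec F E hE hsurj hscale hx

end Comp

/-! ### The function fields of arbitrary level -/

theorem genx_eq_zK (K : Type*) [Field K] (d : ℕ) (h : d ≠ 0) :
    genx K d h = zK K (@qExpand ℤ _ d ⟨h⟩ (jqModC ℤ)) := by
  haveI : NeZero d := ⟨h⟩
  rw [genx, zK, coeffMap_qExpand, coeffMap_jqModC]

theorem mem_RatS_of_mem {N : ℕ} {x : ℒ K} (hx : x ∈ modularFunctionFieldFullC K N) :
    x ∈ RatS (⊤ : Subfield K) := by
  induction hx using IntermediateField.adjoin_induction with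
  | mem y hy =>
    obtain ⟨d, ⟨hd⟩, hdN, rfl⟩ := hy
    have h1 : genx K d hd ∈ RatS (⊤ : Subfield K) := by
      rw [genx_eq_zK]
      exact PS_le_RatS _ (zK_mem_PS _)
    exact h1
  | algebraMap c =>
    rw [← ModFun.C_eq_algebraMap]
    exact PS_le_RatS _ (C_mem_PS (Subfield.mem_top c))
  | add y y' _ _ h h' => exact add_mem h h'
  | mul y y' _ _ h h' => exact mul_mem h h'
  | inv y _ h => exact inv_mem h

theorem scale_full (q : ℕ) [Fact q.Prime] [CharP κ q] (N : ℕ) (x : ℒ K)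
    (hx : x ∈ modularFunctionFieldFullC K N) (hx0 : x ≠ 0) :
    ∃ c : K, c ≠ 0 ∧ ∃ y, y ≠ 0 ∧ LR π (HahnSeries.C c * x) y := by
  obtain ⟨c, -, hc, h⟩ := exists_scale_rat (π := π) (q := q) (mem_RatS_of_mem hx) hx0
  exact ⟨c, hc, h⟩

/-- the residue field of the Gauss valuation -/
def resField (q : ℕ) [Fact q.Prime] [CharP κ q] (hπ : Function.Surjective π) (N : ℕ) :
    IntermediateField κ (ℒ κ) where
  carrier := {y | ∃ x ∈ modularFunctionFieldFullC K N, LR π x y}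
  mul_mem' := by
    rintro a b ⟨x, hx, h⟩ ⟨y, hy, h'⟩
    exact ⟨x * y, mul_mem hx hy, h.mul h'⟩
  one_mem' := ⟨1, one_mem _, LR.one π⟩
  add_mem' := by
    rintro a b ⟨x, hx, h⟩ ⟨y, hy, h'⟩
    exact ⟨x + y, add_mem hx hy, h.add h'⟩
  zero_mem' := ⟨0, zero_mem _, LR.zero π⟩
  algebraMap_mem' c := by
    obtain ⟨a, rfl⟩ := hπ c
    exact ⟨algebraMap K _ a, IntermediateField.algebraMap_mem _ _, LR.const π a⟩
  inv_mem' := by
    rintro a ⟨x, hx, h⟩
    rcases eq_or_ne a 0 with rfl | ha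
    · rw [inv_zero]; exact ⟨0, zero_mem _, LR.zero π⟩
    · exact ⟨x⁻¹, inv_mem hx, h.inv ha⟩

theorem mem_resField {q : ℕ} [Fact q.Prime] [CharP κ q] {hπ : Function.Surjective π} {N : ℕ}
    {y : ℒ κ} : y ∈ resField q hπ N ↔ ∃ x ∈ modularFunctionFieldFullC K N, LR π x y := Iff.rfl

theorem LR_genx (d : ℕ) (h : d ≠ 0) : LR π (genx K d h) (genx κ d h) := by
  haveI : NeZero d := ⟨h⟩
  exact LR_jqd π d

theorem fullC_le_resField (q : ℕ) [Fact q.Prime] [CharP κ q] (hπ : Function.Surjective π)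
    (N : ℕ) : modularFunctionFieldFullC κ N ≤ resField q hπ N := by
  rw [modularFunctionFieldFullC, IntermediateField.adjoin_le_iff]
  rintro _ ⟨d, ⟨hd⟩, hdN, rfl⟩
  exact ⟨_, IntermediateField.subset_adjoin K _ ⟨d, ⟨hd⟩, hdN, rfl⟩, LR_genx d hd⟩

end Fermat.Agent.SSMod
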