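import Fermat.Agent.SSMod.NormU
import Fermat.Agent.SSMod.Act
import Fermat.Agent.Models.FrobChain

/-!
# The action of `U_q` and of Frobenius on the two components
-/

set_option autoImplicit false
set_option linter.unusedSectionVars false
set_option linter.style.haveILetI false
set_option linter.unusedVariables false
set_option synthInstance.maxHeartbeats 400000

noncomputable section

namespace Fermat.Agent.SSMod

open ModularCurve Fermat.Agent.GoodRed Fermat.Agent.Models Fermat.Agent.ModFun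
open Fermat.Agent.GenusX0 Fermat.Agent.Curves Fermat.Agent.AnJac AlgebraicCurve Fermat.Agent.HeckeQ

local notation "ℒ" => LaurentSeries

section LRW

variable {K κ : Type*} [Field K] [Field κ] {A : ValuationSubring K} {π : A →+* κ}
  {q : ℕ} [hq : Fact q.Prime] [CharP κ q] [NeZero q]

theorem hasPrim_val' [IsAlgClosed K] [CharZero K] (A : ValuationSubring K) : HasPrim A q := by
  haveI : NeZero (q : K) := ⟨by exact_mod_cast hq.out.ne_zero⟩
  obtain ⟨ζ, hζ⟩ := HasEnoughRootsOfUnity.exists_primitiveRoot K q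
  have hmem : ∀ z : K, z ^ q = 1 → z ∈ A := by
    intro z hz
    rw [← A.valuation_le_one_iff]
    have h1 : A.valuation z ^ q = 1 := by rw [← map_pow, hz, map_one]
    exact ((pow_eq_one_iff_of_nonneg zero_le hq.out.ne_zero).mp h1).le
  have h2 : ζ⁻¹ ^ q = 1 := by rw [inv_pow, hζ.pow_eq_one, inv_one]
  have hζ0 : ζ ≠ 0 := hζ.ne_zero hq.out.ne_zero
  let z : Aˣ := ⟨⟨ζ, hmem _ hζ.pow_eq_one⟩, ⟨ζ⁻¹, hmem _ h2⟩, Subtype.ext (mul_inv_cancel₀ hζ0),
    Subtype.ext (inv_mul_cancel₀ hζ0)⟩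
  refine ⟨z, ?_⟩
  have h3 : IsPrimitiveRoot ((A.subtype.toMonoidHom.comp (Units.coeHom A)) z) q := hζ
  exact h3.of_map_of_injective (fun x y h => Units.ext (Subtype.ext h))

theorem hasPrim_K [IsAlgClosed K] [CharZero K] : HasPrim K q := by
  haveI : NeZero (q : K) := ⟨by exact_mod_cast hq.out.ne_zero⟩
  obtain ⟨ζ, hζ⟩ := HasEnoughRootsOfUnity.exists_primitiveRoot K q
  have hζ0 : ζ ≠ 0 := hζ.ne_zero hq.out.ne_zero
  refine ⟨Units.mk0 ζ hζ0, ?_⟩
  have h3 : IsPrimitiveRoot ((Units.coeHom K) (Units.mk0 ζ hζ0)) q := hζ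
  exact h3.of_map_of_injective (fun x y h => Units.ext h)

theorem LR_hW [HasPrim A q] [HasPrim K q] {x : ℒ K} {y : ℒ κ} (h : LR π x y) :
    LR π (hW q x) (coeffMap (frobenius κ q) y) := by
  obtain ⟨f, g, hg, h1, h2⟩ := h
  refine ⟨hW q f, hW q g, ?_, ?_, ?_⟩
  · rw [red_hW]
    intro h0
    exact hg (coeffMap_injective (frobenius κ q).injective (by rw [h0, map_zero]))
  · rw [coeffMap_hW q A.subtype Subtype.val_injective, coeffMap_hW q A.subtype
      Subtype.val_injective, ← hW_mul, h1]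
  · rw [red_hW, red_hW, ← map_mul, h2]

theorem hW_C [HasPrim K q] (c : K) : hW q (HahnSeries.C c : ℒ K) = HahnSeries.C (c ^ q) := by
  symm
  apply hW_unique
  obtain ⟨ζ, hζ⟩ := (inferInstance : HasPrim K q).ex
  rw [qExpand_C, prodTwist_eq_range q hζ, Finset.prod_congr rfl fun j _ => twist_C _ _,
    Finset.prod_const, Finset.card_range, map_pow]

end LRW

section Two

variable {K κ : Type*} [Field K] [Field κ] {A : ValuationSubring K} {π : A →+* κ}
  {q M : ℕ} [NeZero M] [IsLocalHom π] [hq : Fact q.Prime] [CharP κ q]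
  [IsAlgClosed K] [IsAlgClosed κ] [CharZero K] [NeZero q]
  {hπ : Function.Surjective π} (ι : K →+* ℂ) (hqM : Nat.Coprime q M)
  (hE : modularFunctionFieldFullC κ M = resField q hπ (q * M))
  {φ : κ ≃+* κ} {n : ℕ}

theorem rp_true_iff {u : modularFunctionFieldFullC K (q * M)}
    {a : modularFunctionFieldFullC κ M} (ha : a ≠ 0) :
    RP (two hπ ι hqM _ hE) n true u a ↔ ∃ c : K, c ≠ 0 ∧ ∃ h : modularFunctionFieldFullC κ M,
      h ≠ 0 ∧ LR π (HahnSeries.C c * (u : ℒ K)) ((a : ℒ κ) * (h : ℒ κ) ^ n) := by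
  have hcoe : ∀ c : K, ((algebraMap K (modularFunctionFieldFullC K (q * M)) c * u :
      modularFunctionFieldFullC K (q * M)) : ℒ K) = HahnSeries.C c * (u : ℒ K) := by
    intro c
    rw [ModFun.C_eq_algebraMap]
    rfl
  constructor
  · rintro ⟨-, c, hc, h, hh, e⟩
    refine ⟨c, hc, h, hh, ?_⟩
    have h1 : (two hπ ι hqM _ hE true).r (algebraMap K _ c * u) ≠ 0 := by
      rw [e]; exact mul_ne_zero ha (pow_ne_zero _ hh)
    have h2 := two_true_spec ι hqM hE (Res.mem_of_r_ne_zero h1)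
    rw [e, hcoe] at h2
    exact h2
  · rintro ⟨c, hc, h, hh, e⟩
    refine ⟨ha, c, hc, h, hh, ?_⟩
    refine (two_true_r ι hqM hE (x := algebraMap K _ c * u) (y := a * h ^ n) ?_).2
    rw [hcoe]
    exact e

theorem rp_false_iff {u : modularFunctionFieldFullC K (q * M)}
    {a : modularFunctionFieldFullC κ M} :
    RP (two hπ ι hqM _ hE) n false u a ↔ RP (two hπ ι hqM _ hE) n true (al ι hqM u) a := by
  have h1 : ∀ c : K, (two hπ ι hqM _ hE false).r (algebraMap K _ c * u) =
      (two hπ ι hqM _ hE true).r (algebraMap K _ c * al ι hqM u) := by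
    intro c
    have := two_r_al ι hqM hE true (algebraMap K _ c * u)
    rw [map_mul, al_const] at this
    exact this.symm
  constructor
  · rintro ⟨ha, c, hc, h, hh, e⟩
    exact ⟨ha, c, hc, h, hh, by rw [← h1, e]⟩
  · rintro ⟨ha, c, hc, h, hh, e⟩
    exact ⟨ha, c, hc, h, hh, by rw [h1, e]⟩

/-- the coefficient Frobenius -/
theorem coe_galF_frob (hφ : ∀ x, φ x = x ^ q) (y : modularFunctionFieldFullC κ M) :
    (galF M φ y : ℒ κ) = coeffMap (frobenius κ q) (y : ℒ κ) := by
  rw [coe_galF]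
  ext m
  rw [coeffMap_coeff, coeffMap_coeff]
  exact hφ _

theorem rp_U_true [HasPrim A q] [HasPrim K q] (hφ : ∀ x, φ x = x ^ q)
    {u u' : modularFunctionFieldFullC K (q * M)} (hu' : (u' : ℒ K) = hW q (u : ℒ K))
    {a : modularFunctionFieldFullC κ M} (h : RP (two hπ ι hqM _ hE) n true u a) :
    RP (two hπ ι hqM _ hE) n true u' (galF M φ a) := by
  have ha := h.ne_zero
  obtain ⟨c, hc, x, hx, e⟩ := (rp_true_iff ι hqM hE ha).mp h
  have ha' : galF M φ a ≠ 0 := by simpa using ha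
  have hx' : galF M φ x ≠ 0 := by simpa using hx
  refine (rp_true_iff ι hqM hE ha').mpr ⟨c ^ q, pow_ne_zero _ hc, galF M φ x, hx', ?_⟩
  have h1 := LR_hW e
  rw [hW_mul, hW_C, ← hu', map_mul, map_pow (coeffMap (frobenius κ q)), ← coe_galF_frob hφ,
    ← coe_galF_frob hφ] at h1
  exact h1

theorem rp_beta (hφ : ∀ x, φ x = x ^ q) {x : modularFunctionFieldFullC K M}
    {a : modularFunctionFieldFullC κ M}
    (h : RP (two hπ ι hqM _ hE) n true (alpha K q M x) a) :
    RP (two hπ ι hqM _ hE) n true (beta K q M x) ((galF M φ).symm a ^ q) := by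
  have ha := h.ne_zero
  obtain ⟨c, hc, y, hy, e⟩ := (rp_true_iff ι hqM hE ha).mp h
  have ha' : (galF M φ).symm a ^ q ≠ 0 := pow_ne_zero _ (by simpa using ha)
  have hy' : (galF M φ).symm y ^ q ≠ 0 := pow_ne_zero _ (by simpa using hy)
  have key : ∀ z : modularFunctionFieldFullC κ M,
      ((((galF M φ).symm z ^ q : modularFunctionFieldFullC κ M)) : ℒ κ) =
        qExpand κ q (z : ℒ κ) := by
    intro z
    have h1 : ((((galF M φ).symm z ^ q : modularFunctionFieldFullC κ M)) : ℒ κ) =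
      (((galF M φ).symm z : modularFunctionFieldFullC κ M) : ℒ κ) ^ q := rfl
    rw [h1, laurent_pow_char, ← coe_galF_frob hφ, RingEquiv.apply_symm_apply]
  refine (rp_true_iff ι hqM hE ha').mpr ⟨c, hc, (galF M φ).symm y ^ q, hy', ?_⟩
  have h1 := LR_qExpand (q := q) e
  rw [map_mul, qExpand_C, coe_alpha, ← coe_beta, map_mul, map_pow, ← key, ← key] at h1
  exact h1

theorem rp_U_false [HasPrim A q] [HasPrim K q] (hφ : ∀ x, φ x = x ^ q)
    {u u' : modularFunctionFieldFullC K (q * M)} (hu' : (u' : ℒ K) = hW q (u : ℒ K))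
    {a b : modularFunctionFieldFullC κ M} (h : RP (two hπ ι hqM _ hE) n true u a)
    (hb : RP (two hπ ι hqM _ hE) n false u b) :
    RP (two hπ ι hqM _ hE) n false u' ((galF M φ).symm b ^ q * a ^ (q - 1)) := by
  obtain ⟨N₀, hN₀⟩ := exists_norm_al ι hqM u
  have h1 : alpha K q M N₀ = al ι hqM u * u' := by
    apply Subtype.ext
    rw [coe_alpha, hN₀, ← hu']
    rfl
  have h2 := ((rp_false_iff ι hqM hE).mp hb).mul (rp_U_true ι hqM hE hφ hu' h)
  rw [← h1] at h2
  have h3 := rp_beta ι hqM hE hφ h2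
  rw [← al_alpha ι hqM, h1, map_mul, al_al, map_mul, RingEquiv.symm_apply_apply, mul_pow] at h3
  have hu0 : u ≠ 0 := by
    rintro rfl
    have ha := h.ne_zero
    obtain ⟨-, c, hc, y, hy, e⟩ := h
    rw [mul_zero, Res.r_zero] at e
    exact mul_ne_zero ha (pow_ne_zero _ hy) e.symm
  have h4 := h3.div h
  rw [rp_false_iff]
  refine h4.of_eq ?_ ?_
  · field_simp
  · have := h.ne_zero
    obtain ⟨m, rfl⟩ : ∃ m, q = m + 1 := ⟨q - 1, (Nat.succ_pred_prime hq.out).symm⟩
    rw [Nat.add_sub_cancel]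
    field_simp
    ring

theorem rp_gal {σ : K ≃+* K} (h : ActsAt π σ φ) {i : Bool}
    {u : modularFunctionFieldFullC K (q * M)} {a : modularFunctionFieldFullC κ M}
    (hu : RP (two hπ ι hqM _ hE) n i u a) :
    RP (two hπ ι hqM _ hE) n i (galF (q * M) σ u) (galF M φ a) := by
  obtain ⟨ha, c, hc, x, hx, e⟩ := hu
  have h1 : (two hπ ι hqM _ hE i).r (algebraMap K _ c * u) ≠ 0 := by
    rw [e]; exact mul_ne_zero ha (pow_ne_zero _ hx)
  have h2 := (two_gal ι hqM hE h i (Res.mem_of_r_ne_zero h1)).2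
  rw [e, map_mul, map_mul, map_pow, galF_const] at h2
  exact ⟨by simpa using ha, σ c, by simpa using hc, galF M φ x, by simpa using hx, h2⟩

end Two

end Fermat.Agent.SSMod
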