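import Fermat.Agent.SSMod.Comps
import Fermat.Agent.GoodRed.HeckeNorm

/-!
# The relation between `U_q`, the Atkin–Lehner involution and the norm to level `M`
-/

set_option autoImplicit false
set_option linter.unusedSectionVars false
set_option linter.style.haveILetI false
set_option synthInstance.maxHeartbeats 400000

noncomputable section

namespace Fermat.Agent.SSMod

open HahnSeries ModularCurve IntermediateField Fermat.Agent.ModFun Fermat.Agent.HeckeQ Module
open Fermat.Agent.GoodRed AlgebraicCurve

local notation "ℒ" => LaurentSeries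

variable {k : Type*} [Field k] [IsAlgClosed k] [CharZero k] {q M : ℕ} [hq : Fact q.Prime]
  [NeZero q] [NeZero M]

/-- `w(u) · U(u)` is the norm of `w(u)` to level `M`. -/
theorem exists_norm_al (ι : k →+* ℂ) (hqM : Nat.Coprime q M) [HasPrim k q]
    (u : modularFunctionFieldFullC k (q * M)) :
    ∃ N₀ : modularFunctionFieldFullC k M, (N₀ : ℒ k) =
      ((al ι hqM u : modularFunctionFieldFullC k (q * M)) : ℒ k) * hW q (u : ℒ k) := by
  have hqM' : ¬ q ∣ M := (Nat.Prime.coprime_iff_not_dvd hq.out).1 hqM
  haveI : CharZero (modularFunctionFieldFullC k M) :=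
    charZero_of_injective_algebraMap (algebraMap k (modularFunctionFieldFullC k M)).injective
  haveI : NeZero (q * M) := ⟨Nat.mul_ne_zero (NeZero.ne q) (NeZero.ne M)⟩
  have hNp : q * M ≠ 0 := NeZero.ne _
  have hNpk : ((q * M : ℕ) : k) ≠ 0 := by exact_mod_cast hNp
  have hle : modularFunctionFieldFullC k M ≤ modularFunctionFieldFullC k (q * M) :=
    full_degeneracyC_le (K := k) (dvd_mul_left M q)
  have hdeg : (letI := algebraAlong (alpha k q M); finrank (modularFunctionFieldFullC k M)
      (modularFunctionFieldFullC k (q * M))) = q + 1 := by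
    have h1 := finrank_incl hle (alpha k q M) (fun x => coe_alpha x)
    rw [h1]
    exact relfinrank_full (k := k) (N := M) (p := q) hq.out hqM' hNpk
  let ρ : modularFunctionFieldFullC k M →+* ℒ k :=
    (qExpand k q).comp (algebraMap (modularFunctionFieldFullC k M) (ℒ k))
  let w : modularFunctionFieldFullC k (q * M) →+* ℒ k :=
    (algebraMap (modularFunctionFieldFullC k (q * M)) (ℒ k)).comp (al ι hqM).toRingHom
  let φ : Option (rootsOfUnity q k) → (modularFunctionFieldFullC k (q * M) →+* ℒ k) :=
    fun o => match o with
      | none => (qExpand k q).comp (algebraMap (modularFunctionFieldFullC k (q * M)) (ℒ k))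
      | some ξ => (twist (ξ : kˣ)).comp w
  have hwα : ∀ x : modularFunctionFieldFullC k M, w (alpha k q M x) = qExpand k q (x : ℒ k) := by
    intro x
    show ((al ι hqM (alpha k q M x) : modularFunctionFieldFullC k (q * M)) : ℒ k) = _
    rw [al_alpha, coe_beta]
  have hwβ : ∀ x : modularFunctionFieldFullC k M, w (beta k q M x) = (x : ℒ k) := by
    intro x
    show ((al ι hqM (beta k q M x) : modularFunctionFieldFullC k (q * M)) : ℒ k) = _
    rw [al_beta, coe_alpha]
  have hφα : ∀ i x, φ i (alpha k q M x) = ρ x := by
    intro i x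
    cases i with
    | none =>
      change qExpand k q ((alpha k q M x : _) : ℒ k) = qExpand k q (x : ℒ k)
      rw [coe_alpha]
    | some ξ =>
      change twist (ξ : kˣ) (w (alpha k q M x)) = qExpand k q (x : ℒ k)
      rw [hwα]
      exact twist_qExpand _ q ((mem_rootsOfUnity q _).1 ξ.2) _
  have hφ : Function.Injective φ := by
    let J : modularFunctionFieldFullC k M := ⟨Jd k 1, Jd_mem k (NeZero.ne M) (one_dvd M)⟩
    have h0 : (φ none (beta k q M J)).coeff (-1) = 0 := by
      change (qExpand k q ((beta k q M J : _) : ℒ k)).coeff (-1) = 0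
      apply qExpand_coeff_of_not_dvd
      rw [dvd_neg]
      intro h
      have h2 := Int.natCast_dvd_natCast.1 (by simpa using h : ((q : ℕ) : ℤ) ∣ ((1 : ℕ) : ℤ))
      exact hq.out.one_lt.ne' (Nat.dvd_one.1 h2)
    have h1 : ∀ ξ : rootsOfUnity q k, (φ (some ξ) (beta k q M J)).coeff (-1) =
        (((ξ : kˣ) ^ (-1 : ℤ) : kˣ) : k) := by
      intro ξ
      change (twist (ξ : kˣ) (w (beta k q M J))).coeff (-1) = _
      rw [hwβ, twist_coeff]
      change _ * (Jd k 1).coeff (-1) = _
      rw [Jd_coeff_neg_one, mul_one]
    intro a b hab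
    have h2 := congrArg (fun F => HahnSeries.coeff (F (beta k q M J)) (-1)) hab
    cases a with
    | none =>
      cases b with
      | none => rfl
      | some ξ =>
        exfalso
        rw [h0, h1] at h2
        exact (Units.ne_zero _) h2.symm
    | some ξ =>
      cases b with
      | none =>
        exfalso
        rw [h0, h1] at h2
        exact (Units.ne_zero _) h2
      | some ξ' =>
        rw [h1, h1] at h2
        have h3 := Units.ext h2
        rw [zpow_neg_one, zpow_neg_one] at h3
        rw [Subtype.ext (inv_injective h3)]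
  have hcard : (letI := algebraAlong (alpha k q M); finrank (modularFunctionFieldFullC k M)
      (modularFunctionFieldFullC k (q * M))) = Fintype.card (Option (rootsOfUnity q k)) := by
    rw [hdeg, Fintype.card_option, card_roots]
  have key := norm_aux (alpha k q M).toRingHom hcard (by rw [Fintype.card_option]; omega) ρ φ hφα hφ
    (al ι hqM u)
  rw [Fintype.prod_option] at key
  refine ⟨_, qExpand_inj q (key.trans ?_)⟩
  rw [map_mul, qExpand_hW, prodTwist]
  congr 1
  refine Finset.prod_congr rfl fun ξ _ => ?_
  change twist (ξ : kˣ) ((al ι hqM (al ι hqM u) : modularFunctionFieldFullC k (q * M)) : ℒ k) = _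
  rw [al_al]

end Fermat.Agent.SSMod
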