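import Fermat.Agent.SSMod.Act
import Fermat.Agent.GoodRed.ModKL
import Fermat.Agent.HeckeQ.Inst

/-!
# Unipotence of inertia on `J₀(qM)[n]`
-/

set_option autoImplicit false
set_option linter.unusedSectionVars false
set_option linter.style.haveILetI false
set_option linter.unusedVariables false
set_option synthInstance.maxHeartbeats 400000

noncomputable section

namespace Fermat.Agent.SSMod

open ModularCurve Fermat.Agent.GoodRed Fermat.Agent.Models Fermat.Agent.ModFun
open Fermat.Agent.GenusX0 Fermat.Agent.Curves Fermat.Agent.AnJac AlgebraicCurve IsLocalRing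

local notation "ℒ" => LaurentSeries

section General

variable {K κ : Type*} [Field K] [Field κ] {A : ValuationSubring K} {π : A →+* κ}
  {q M : ℕ} [NeZero M] [IsLocalHom π] [hq : Fact q.Prime] [CharP κ q]
  [IsAlgClosed K] [IsAlgClosed κ] [CharZero K] [NeZero q]

/-- lifting for `j` from good charts -/
theorem jLift_of_good (hπ : Function.Surjective π) (hNK : (M : K) ≠ 0) (hNκ : (M : κ) ≠ 0)
    (h : haveI := isFunctionField_fullC K M hNK
      haveI := isFunctionField_fullC κ M hNκ
      GoodChart (modGauss π M hπ hNK hNκ) (je K M) (je κ M) ∧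
      GoodChart (modGauss π M hπ hNK hNκ) (je K M)⁻¹ (je κ M)⁻¹) : JLift π M := by
  haveI := isFunctionField_fullC K M hNK
  haveI := isFunctionField_fullC κ M hNκ
  obtain ⟨h1, h2⟩ := h
  refine ⟨fun f hf => ?_, fun f hf => ?_⟩
  · obtain ⟨y, hy, hyf⟩ := h1.lift f hf
    exact ⟨y, hy, (modGauss_R π M).1 hyf⟩
  · obtain ⟨y, hy, hyf⟩ := h2.lift f hf
    exact ⟨y, hy, (modGauss_R π M).1 hyf⟩

/-- the `j`-charts for `q ≥ 5` -/
theorem jLift_of_five (hπ : Function.Surjective π) (ι : K →+* ℂ) (hqM : Nat.Coprime q M)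
    (h5 : 5 ≤ q) : JLift π M := by
  have hNK : (M : K) ≠ 0 := by exact_mod_cast NeZero.ne M
  have hNκ : (M : κ) ≠ 0 := cast_ne_zero_of_coprime (q := q) hqM
  have h6 : (6 : κ) ≠ 0 := by
    intro h
    have h1 : ((6 : ℕ) : κ) = 0 := by exact_mod_cast h
    rw [CharP.cast_eq_zero_iff κ q] at h1
    have h2 := Nat.le_of_dvd (by norm_num) h1
    interval_cases q
    · revert h1; decide
    · exact absurd hq.out (by decide)
  exact jLift_of_good hπ hNK hNκ (modGoodChart π M ι h6 hπ hNK hNκ)

attribute [-instance] DivisionRing.toRatAlgebra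

variable [IsFunctionField K (modularFunctionFieldFullC K (q * M))]
  [IsFunctionField κ (modularFunctionFieldFullC κ M)]

theorem nodeModel [Algebra ℚ K] [Algebra.IsAlgebraic ℚ K] [Algebra.IsAlgebraic ℤ K]
    {hπ : Function.Surjective π} (ι : K →+* ℂ) (hqM : Nat.Coprime q M)
    (hE : modularFunctionFieldFullC κ M = resField q hπ (q * M))
    (hA : A.LiesOverPrime q) (hr : GoodRed.RankOne π) (h : JLift π M) :
    NodeModel (two hπ ι hqM _ hE) (h.coord hqM).t := by
  obtain ⟨L, hunr, hL⟩ := exists_K0 hq.out hA π hπ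
  exact CrossLift.nodeModel (cross ι hqM hE hA hr h) (crossLift ι hqM hE hA hr h hunr hL)

/-- **Unipotence of inertia at `q ∥ N`.** -/
theorem exists_pow_of_inertia [Algebra ℚ K] [Algebra.IsAlgebraic ℚ K] [Algebra.IsAlgebraic ℤ K]
    (hπ : Function.Surjective π) (ι : K →+* ℂ) (hqM : Nat.Coprime q M)
    (hA : A.LiesOverPrime q) (hr : GoodRed.RankOne π) (h : JLift π M)
    {σ : K ≃+* K} (hσ : ActsAt π σ (RingEquiv.refl κ)) {n : ℕ} (hn : (n : κ) ≠ 0)
    {u : modularFunctionFieldFullC K (q * M)} (hu : u ≠ 0)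
    (hdiv : ∀ P : Place K (modularFunctionFieldFullC K (q * M)), (n : ℤ) ∣ P.ord u) :
    ∃ f, galF (q * M) σ (galF (q * M) σ u / u) / (galF (q * M) σ u / u) = f ^ n := by
  have hE := (resField_eq (q := q) hπ ι hqM hr).symm
  have hm := nodeModel (hπ := hπ) ι hqM hE hA hr h
  refine hm.isPow_inertia hn (inertial ι hqM hE hA hσ) ?_ ?_ hu hdiv
  · have := inertial (hπ := hπ) ι hqM hE hA hσ.symm
    rw [placeE_symm] at this
    exact this
  · rw [h.coord_t, map_mul, jA, jB]
    congr 1
    · apply Subtype.ext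
      rw [coe_galF]
      exact coeffMap_jqModC _
    · apply Subtype.ext
      rw [coe_galF]
      show coeffMap _ (qExpand K q (jqModC K)) = qExpand K q (jqModC K)
      rw [coeffMap_qExpand, coeffMap_jqModC]

end General

end Fermat.Agent.SSMod
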