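import Fermat.Agent.SSMod.ResField
import Fermat.Agent.Models.SS

/-!
# Coordinates on the two-component model
-/

set_option autoImplicit false
set_option linter.unusedSectionVars false
set_option linter.style.haveILetI false
set_option linter.unusedVariables false
set_option synthInstance.maxHeartbeats 400000

noncomputable section

namespace Fermat.Agent.SSMod

open ModularCurve Fermat.Agent.GoodRed Fermat.Agent.Models Fermat.Agent.ModFun
open Fermat.Agent.GenusX0 Fermat.Agent.Curves Fermat.Agent.AnJac AlgebraicCurve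

local notation "ℒ" => LaurentSeries

section General

variable {k F F' : Type*} [Field k] [Field F] [Field F'] [Algebra k F] [Algebra k F']
  [IsAlgClosed k] [IsFunctionField k F] [IsFunctionField k F']

theorem map_affineRing (f : F →ₐ[k] F') {t x : F} (hx : x ∈ affineRing k t) :
    f x ∈ affineRing k (f t) := by
  rw [mem_affineRing_iff_isIntegral] at hx ⊢
  let φ : Algebra.adjoin k {t} →+* Algebra.adjoin k {f t} :=
    { toFun := fun y => ⟨f y, by
        have h1 : f (y : F) ∈ (Algebra.adjoin k {t}).map f := ⟨y, y.2, rfl⟩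
        rw [AlgHom.map_adjoin, Set.image_singleton] at h1
        exact h1⟩
      map_one' := Subtype.ext (map_one f)
      map_mul' := fun x y => Subtype.ext (map_mul f (x : F) (y : F))
      map_zero' := Subtype.ext (map_zero f)
      map_add' := fun x y => Subtype.ext (map_add f (x : F) (y : F)) }
  exact IsIntegral.map_of_comp_eq φ (f : F →+* F') rfl hx

theorem exists_degree (f : F →ₐ[k] F') : ∃ d : ℕ, 0 < d ∧ ∀ t, Transcendental k t →
    Transcendental k (f t) ∧ Module.finrank (IntermediateField.adjoin k {f t}) F' =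
      d * Module.finrank (IntermediateField.adjoin k {t}) F := by
  letI := (f : F →+* F').toAlgebra
  have hft : ∀ t, Transcendental k t → Transcendental k (f t) := fun t ht h =>
    ht ((isAlgebraic_algHom_iff f f.injective).mp h)
  have key : ∀ t, Transcendental k t →
      FiniteDimensional F F' ∧ Module.finrank (IntermediateField.adjoin k {f t}) F' =
      Module.finrank F F' * Module.finrank (IntermediateField.adjoin k {t}) F := by
    intro t ht
    have ht' := hft t ht
    letI := ratAlgebra t ht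
    haveI := ratAlgebra_isScalarTower t ht
    letI := ratAlgebra (f t) ht'
    haveI := ratAlgebra_isScalarTower (f t) ht'
    haveI : FiniteDimensional (RatFunc k) F' := finiteDimensional_of_isFunctionField (k := k)
    haveI : IsScalarTower (RatFunc k) F F' := IsScalarTower.of_algebraMap_eq fun c =>
      (ratAlgebra_comm f rfl ht ht' c).symm
    refine ⟨FiniteDimensional.right (RatFunc k) F F', ?_⟩
    rw [← ratAlgebra_finrank t ht, ← ratAlgebra_finrank (f t) ht', mul_comm]
    exact (Module.finrank_mul_finrank (RatFunc k) F F').symm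
  obtain ⟨t₀, ht₀, -⟩ : ∃ t : F, Transcendental k t ∧
      FiniteDimensional (IntermediateField.adjoin k {t}) F := IsFunctionField.exists_transcendental
  haveI := (key t₀ ht₀).1
  exact ⟨Module.finrank F F', Module.finrank_pos, fun t ht => ⟨hft t ht, (key t ht).2⟩⟩

theorem finrank_algEquiv (w : F ≃ₐ[k] F') {t : F} (ht : Transcendental k t) :
    Module.finrank (IntermediateField.adjoin k {w t}) F' =
      Module.finrank (IntermediateField.adjoin k {t}) F := by
  have ht' : Transcendental k (w t) := fun h =>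
    ht ((isAlgebraic_algHom_iff (w : F →ₐ[k] F') w.injective).mp h)
  letI := ratAlgebra t ht
  letI := ratAlgebra (w t) ht'
  rw [← ratAlgebra_finrank t ht, ← ratAlgebra_finrank (w t) ht']
  refine (Algebra.finrank_eq_of_equiv_equiv (RingEquiv.refl (RatFunc k)) w.toRingEquiv ?_).symm
  ext c
  exact (ratAlgebra_comm (w : F →ₐ[k] F') rfl ht ht' c).symm

theorem finrank_mul_of_poles {t s : F} (ht : Transcendental k t) (hs : Transcendental k s)
    (h : ∀ P : Place k F, t ∈ P.toValuationSubring ↔ s ∈ P.toValuationSubring) :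
    Transcendental k (t * s) ∧ Module.finrank (IntermediateField.adjoin k {t * s}) F =
      Module.finrank (IntermediateField.adjoin k {t}) F +
        Module.finrank (IntermediateField.adjoin k {s}) F := by
  have ht0 : t ≠ 0 := by rintro rfl; exact ht isAlgebraic_zero
  have hs0 : s ≠ 0 := by rintro rfl; exact hs isAlgebraic_zero
  have hts0 : t * s ≠ 0 := mul_ne_zero ht0 hs0
  obtain ⟨v, hv⟩ := exists_notMem t ht
  have hv' : s ∉ v.toValuationSubring := fun h' => hv ((h v).mpr h')
  rw [mem_iff_ord v ht0] at hv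
  rw [mem_iff_ord v hs0] at hv'
  have htr : Transcendental k (t * s) := transcendental_of_ord_ne_zero (v := v) (by
    rw [v.ord_mul ht0 hs0]; omega)
  refine ⟨htr, ?_⟩
  have hD : poleDivisor (k := k) (t * s) = poleDivisor t + poleDivisor s := by
    ext P
    rw [poleDivisor_apply, Finsupp.add_apply, poleDivisor_apply, poleDivisor_apply,
      P.ord_mul ht0 hs0]
    have h1 := h P
    rw [mem_iff_ord P ht0, mem_iff_ord P hs0] at h1
    rcases le_or_gt 0 (P.ord t) with h2 | h2
    · have h3 := h1.mp h2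
      omega
    · have h3 : ¬ 0 ≤ P.ord s := fun h4 => absurd (h1.mpr h4) (not_le.mpr h2)
      omega
  have h5 := degree_poleDivisor htr
  rw [hD, map_add, degree_poleDivisor ht, degree_poleDivisor hs] at h5
  exact_mod_cast h5.symm

/-- membership of a product at a place when the factors have the same poles -/
theorem mul_mem_iff {t s : F} (ht0 : t ≠ 0) (hs0 : s ≠ 0)
    (h : ∀ P : Place k F, t ∈ P.toValuationSubring ↔ s ∈ P.toValuationSubring)
    (P : Place k F) : t * s ∈ P.toValuationSubring ↔ t ∈ P.toValuationSubring := by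
  have h1 := h P
  rw [mem_iff_ord P (mul_ne_zero ht0 hs0), P.ord_mul ht0 hs0]
  rw [mem_iff_ord P ht0, mem_iff_ord P hs0] at h1
  rw [mem_iff_ord P ht0]
  constructor
  · intro h2
    by_contra h3
    have h4 : ¬ 0 ≤ P.ord s := fun h5 => h3 (h1.mpr h5)
    omega
  · intro h2
    have := h1.mp h2
    omega

/-- `(ts)⁻¹` regular implies `t⁻¹` regular when the factors have the same poles -/
theorem inv_mem_of_mul_inv_mem {t s : F} (ht0 : t ≠ 0) (hs0 : s ≠ 0)
    (h : ∀ P : Place k F, t ∈ P.toValuationSubring ↔ s ∈ P.toValuationSubring)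
    (P : Place k F) (hP : (t * s)⁻¹ ∈ P.toValuationSubring) : t⁻¹ ∈ P.toValuationSubring := by
  have h1 := h P
  rw [mem_iff_ord P (inv_ne_zero (mul_ne_zero ht0 hs0)), P.ord_inv, P.ord_mul ht0 hs0] at hP
  rw [mem_iff_ord P ht0, mem_iff_ord P hs0] at h1
  rw [mem_iff_ord P (inv_ne_zero ht0), P.ord_inv]
  by_contra h2
  have h3 : 0 ≤ P.ord s := h1.mp (by omega)
  omega

theorem affineRing_congr {t s : F}
    (h : ∀ P : Place k F, t ∈ P.toValuationSubring ↔ s ∈ P.toValuationSubring) :
    affineRing k t = affineRing k s := by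
  ext x
  rw [mem_affineRing, mem_affineRing]
  exact forall_congr' fun P => by rw [h P]

theorem pow_mem_iff' {t : F} {n : ℕ} (hn : n ≠ 0) (P : Place k F) :
    t ^ n ∈ P.toValuationSubring ↔ t ∈ P.toValuationSubring := by
  rcases eq_or_ne t 0 with rfl | ht0
  · rw [zero_pow hn]
  rw [mem_iff_ord P (pow_ne_zero n ht0), mem_iff_ord P ht0, ord_pow]
  constructor
  · intro h
    exact nonneg_of_mul_nonneg_right h (by exact_mod_cast Nat.pos_of_ne_zero hn)
  · intro h
    positivity

end General

/-- A coordinate of level `M` for which the reduction has good charts. -/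
structure Coord {K κ : Type*} [Field K] [Field κ] {A : ValuationSubring K} (π : A →+* κ)
    (q M : ℕ) [NeZero q] [NeZero M] [IsAlgClosed K] [IsAlgClosed κ] where
  τ : modularFunctionFieldFullC K M
  τb : modularFunctionFieldFullC κ M
  lr : LR π (τ : ℒ K) (τb : ℒ κ)
  tr : Transcendental κ τb
  deg : Module.finrank (IntermediateField.adjoin K {τ}) (modularFunctionFieldFullC K M) =
    Module.finrank (IntermediateField.adjoin κ {τb}) (modularFunctionFieldFullC κ M)
  gal : ∀ σ : K ≃+* K, galF M σ τ = τ
  frob : (τb : ℒ κ) ^ q = qExpand κ q (τb : ℒ κ)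
  lift : ∀ f ∈ affineRing κ τb, ∃ x ∈ affineRing K τ, LR π (x : ℒ K) (f : ℒ κ)
  lift' : ∀ f ∈ affineRing κ τb⁻¹, ∃ x ∈ affineRing K τ⁻¹, LR π (x : ℒ K) (f : ℒ κ)
  poles : ∀ P : Place K (modularFunctionFieldFullC K (q * M)),
    alpha K q M τ ∈ P.toValuationSubring ↔ beta K q M τ ∈ P.toValuationSubring

section Good

variable {K κ : Type*} [Field K] [Field κ] {A : ValuationSubring K} {π : A →+* κ}
  {q M : ℕ} [NeZero M] [IsLocalHom π] [hq : Fact q.Prime] [CharP κ q]
  [IsAlgClosed K] [IsAlgClosed κ] [CharZero K] [NeZero q]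
  {hπ : Function.Surjective π} (ι : K →+* ℂ) (hqM : Nat.Coprime q M)
  (hE : modularFunctionFieldFullC κ M = resField q hπ (q * M))

/-- the Atkin–Lehner automorphism as an algebra map -/
def alA : modularFunctionFieldFullC K (q * M) ≃ₐ[K] modularFunctionFieldFullC K (q * M) :=
  AlgEquiv.ofRingEquiv (f := al ι hqM) (al_const ι hqM)

theorem alA_apply (x : modularFunctionFieldFullC K (q * M)) : alA ι hqM x = al ι hqM x := rfl

variable (c : Coord π q M)

/-- the coordinate of level `qM` -/
def Coord.t : modularFunctionFieldFullC K (q * M) := alpha K q M c.τ * beta K q M c.τ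

theorem Coord.al_t : al ι hqM c.t = c.t := by
  rw [Coord.t, map_mul, al_alpha, al_beta]
  exact mul_comm _ _

theorem Coord.coe_frob : c.τb ^ (q + 1) = c.τb * c.τb ^ q := pow_succ' _ _

theorem Coord.lr_t : LR π ((c.t : modularFunctionFieldFullC K (q * M)) : ℒ K)
    ((c.τb ^ (q + 1) : modularFunctionFieldFullC κ M) : ℒ κ) := by
  have h1 := (LR_alpha (q := q) c.lr).mul (LR_beta (q := q) c.lr)
  rw [← c.frob, ← pow_succ'] at h1
  exact h1

theorem Coord.r_t (b : Bool) : c.t ∈ (two hπ ι hqM _ hE b).O ∧
    (two hπ ι hqM _ hE b).r c.t = c.τb ^ (q + 1) := by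
  cases b
  · exact two_false_r ι hqM hE (by rw [c.al_t]; exact c.lr_t)
  · exact two_true_r ι hqM hE c.lr_t

theorem Coord.r_alpha : alpha K q M c.τ ∈ (two hπ ι hqM _ hE true).O ∧
    (two hπ ι hqM _ hE true).r (alpha K q M c.τ) = c.τb :=
  two_true_r ι hqM hE (LR_alpha c.lr)

include hE ι hqM in
theorem Coord.tr_K : Transcendental K c.τ := by
  obtain ⟨h1, h2⟩ := c.r_alpha ι hqM hE
  have h3 := (two hπ ι hqM _ hE true).transcendental h1 (by rw [h2]; exact c.tr)
  intro h
  exact h3 ((isAlgebraic_algHom_iff (alpha K q M) (alpha K q M).injective).mpr h)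

include ι hqM in
theorem Coord.degrees (hKτ : Transcendental K c.τ) :
    Transcendental K c.t ∧ Module.finrank (IntermediateField.adjoin K {c.t})
      (modularFunctionFieldFullC K (q * M)) =
      2 * ((q + 1) * Module.finrank (IntermediateField.adjoin K {c.τ})
        (modularFunctionFieldFullC K M)) := by
  haveI : IsFunctionField K (modularFunctionFieldFullC K (q * M)) :=
    isFunctionField_fullC K (q * M) (by exact_mod_cast NeZero.ne (q * M))
  haveI : IsFunctionField K (modularFunctionFieldFullC K M) :=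
    isFunctionField_fullC K M (by exact_mod_cast NeZero.ne M)
  obtain ⟨d, -, hd⟩ := exists_degree (alpha K q M)
  have hd1 := (hd (je K M) transcendental_je).2
  have e1 : Module.finrank (IntermediateField.adjoin K {alpha K q M (je K M)})
      (modularFunctionFieldFullC K (q * M)) = dedekindPsi (q * M) := by
    rw [alpha_je]
    exact finrank_fullC K (q * M) (by exact_mod_cast NeZero.ne (q * M))
  have e2 : Module.finrank (IntermediateField.adjoin K {je K M})
      (modularFunctionFieldFullC K M) = dedekindPsi M :=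
    finrank_fullC K M (by exact_mod_cast NeZero.ne M)
  rw [e1, e2, dedekindPsi_qM hqM] at hd1
  have hdq : d = q + 1 := by
    have h0 : 0 < dedekindPsi M := Nat.pos_of_ne_zero (dedekindPsi_pos (NeZero.ne M))
    exact (Nat.eq_of_mul_eq_mul_right h0 hd1).symm
  obtain ⟨h1, h2⟩ := hd c.τ hKτ
  have h3 : Transcendental K (beta K q M c.τ) := by
    rw [← al_alpha ι hqM, ← alA_apply]
    intro h
    exact h1 ((isAlgebraic_algHom_iff (alA ι hqM).toAlgHom (alA ι hqM).injective).mp h)
  have h4 : Module.finrank (IntermediateField.adjoin K {beta K q M c.τ})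
      (modularFunctionFieldFullC K (q * M)) =
      Module.finrank (IntermediateField.adjoin K {alpha K q M c.τ})
      (modularFunctionFieldFullC K (q * M)) := by
    rw [← al_alpha ι hqM]
    exact finrank_algEquiv (alA ι hqM) h1
  obtain ⟨h5, h6⟩ := finrank_mul_of_poles h1 h3 c.poles
  refine ⟨h5, ?_⟩
  rw [Coord.t, h6, h4, h2, hdq]
  ring

include hqM in
theorem Coord.isGood : IsGood (two hπ ι hqM _ hE) c.t := by
  haveI := isFunctionField_fullC κ M (cast_ne_zero_of_coprime (q := q) hqM)
  obtain ⟨h1, h2⟩ := finrank_pow c.tr (m := q + 1) (Nat.succ_pos q)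
  refine ⟨fun b => (c.r_t ι hqM hE b).1, fun b => ?_, ?_⟩
  · rw [(c.r_t ι hqM hE b).2]; exact h1
  · rw [(c.degrees ι hqM (c.tr_K ι hqM hE)).2, Fintype.sum_bool, (c.r_t ι hqM hE true).2,
      (c.r_t ι hqM hE false).2, h2, c.deg]
    ring

theorem Coord.tau_ne_zero (hKτ : Transcendental K c.τ) : c.τ ≠ 0 := by
  intro h; rw [h] at hKτ; exact hKτ isAlgebraic_zero

/-- lifting into the charts -/
theorem surj_aux {t : modularFunctionFieldFullC K (q * M)}
    {f : modularFunctionFieldFullC κ M} {x : modularFunctionFieldFullC K M}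
    (hx : ∀ P : Place K (modularFunctionFieldFullC K (q * M)), t ∈ P.toValuationSubring →
      alpha K q M x ∈ P.toValuationSubring ∧ beta K q M x ∈ P.toValuationSubring)
    (hf : LR π (x : ℒ K) (f : ℒ κ)) (b : Bool) :
    ∃ s ∈ chart (two hπ ι hqM _ hE) t, (two hπ ι hqM _ hE b).r s = f := by
  have h1 : LR π ((alpha K q M x : modularFunctionFieldFullC K (q * M)) : ℒ K) (f : ℒ κ) :=
    LR_alpha hf
  have h2 : LR π ((beta K q M x : modularFunctionFieldFullC K (q * M)) : ℒ K)
      (qExpand κ q (f : ℒ κ)) := LR_beta hf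
  have hmem : qExpand κ q (f : ℒ κ) ∈ modularFunctionFieldFullC κ M := by
    have h3 : qExpand κ q (f : ℒ κ) ∈ resField q hπ (q * M) := ⟨_, (beta K q M x).2, h2⟩
    exact hE.symm.le h3
  have ha : ∀ b, alpha K q M x ∈ (two hπ ι hqM _ hE b).O := by
    intro b
    cases b
    · exact (two_false_r ι hqM hE (y := ⟨_, hmem⟩) (by rw [al_alpha]; exact h2)).1
    · exact (two_true_r ι hqM hE h1).1
  have hb : ∀ b, beta K q M x ∈ (two hπ ι hqM _ hE b).O := by
    intro b
    cases b
    · exact (two_false_r ι hqM hE (by rw [al_beta]; exact h1)).1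
    · exact (two_true_r ι hqM hE (y := ⟨_, hmem⟩) h2).1
  cases b
  · exact ⟨beta K q M x, ⟨fun P hP => (hx P hP).2, hb⟩,
      (two_false_r ι hqM hE (by rw [al_beta]; exact h1)).2⟩
  · exact ⟨alpha K q M x, ⟨fun P hP => (hx P hP).1, ha⟩, (two_true_r ι hqM hE h1).2⟩

include hqM in
theorem Coord.surj : Surj (two hπ ι hqM _ hE) c.t := by
  haveI : IsFunctionField K (modularFunctionFieldFullC K (q * M)) :=
    isFunctionField_fullC K (q * M) (by exact_mod_cast NeZero.ne (q * M))
  haveI : IsFunctionField K (modularFunctionFieldFullC K M) :=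
    isFunctionField_fullC K M (by exact_mod_cast NeZero.ne M)
  haveI := isFunctionField_fullC κ M (cast_ne_zero_of_coprime (q := q) hqM)
  have hKτ := c.tr_K ι hqM hE
  have hτ0 := c.tau_ne_zero hKτ
  have ha0 : alpha K q M c.τ ≠ 0 := (map_ne_zero (alpha K q M)).mpr hτ0
  have hb0 : beta K q M c.τ ≠ 0 := (map_ne_zero (beta K q M)).mpr hτ0
  intro b f hf
  rw [(c.r_t ι hqM hE b).2, affineRing_congr (pow_mem_iff' (Nat.succ_ne_zero q))] at hf
  obtain ⟨x, hx, hxf⟩ := c.lift f hf
  refine surj_aux ι hqM hE (fun P hP => ?_) hxf b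
  have h1 : alpha K q M c.τ ∈ P.toValuationSubring := (mul_mem_iff ha0 hb0 c.poles P).mp hP
  exact ⟨map_affineRing (alpha K q M) hx P h1,
    map_affineRing (beta K q M) hx P ((c.poles P).mp h1)⟩

include hqM in
theorem Coord.surj' : Surj (two hπ ι hqM _ hE) c.t⁻¹ := by
  haveI : IsFunctionField K (modularFunctionFieldFullC K (q * M)) :=
    isFunctionField_fullC K (q * M) (by exact_mod_cast NeZero.ne (q * M))
  haveI : IsFunctionField K (modularFunctionFieldFullC K M) :=
    isFunctionField_fullC K M (by exact_mod_cast NeZero.ne M)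
  haveI := isFunctionField_fullC κ M (cast_ne_zero_of_coprime (q := q) hqM)
  have hKτ := c.tr_K ι hqM hE
  have hτ0 := c.tau_ne_zero hKτ
  have ha0 : alpha K q M c.τ ≠ 0 := (map_ne_zero (alpha K q M)).mpr hτ0
  have hb0 : beta K q M c.τ ≠ 0 := (map_ne_zero (beta K q M)).mpr hτ0
  intro b f hf
  have hτb0 : c.τb ≠ 0 := by intro h; have := c.tr; rw [h] at this; exact this isAlgebraic_zero
  have hr : (two hπ ι hqM _ hE b).r c.t ≠ 0 := by
    rw [(c.r_t ι hqM hE b).2]; exact pow_ne_zero _ hτb0
  rw [Res.r_inv hr, (c.r_t ι hqM hE b).2, ← inv_pow,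
    affineRing_congr (pow_mem_iff' (Nat.succ_ne_zero q))] at hf
  obtain ⟨x, hx, hxf⟩ := c.lift' f hf
  refine surj_aux ι hqM hE (fun P hP => ?_) hxf b
  have h1 : (alpha K q M c.τ)⁻¹ ∈ P.toValuationSubring :=
    inv_mem_of_mul_inv_mem ha0 hb0 c.poles P hP
  have h2 : (beta K q M c.τ)⁻¹ ∈ P.toValuationSubring :=
    inv_mem_of_mul_inv_mem hb0 ha0 (fun P => (c.poles P).symm) P (by
      rw [mul_comm (beta K q M c.τ)]; exact hP)
  have h3 := map_affineRing (alpha K q M) hx P
  have h4 := map_affineRing (beta K q M) hx P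
  rw [map_inv₀] at h3 h4
  exact ⟨h3 h1, h4 h2⟩

end Good

end Fermat.Agent.SSMod
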