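import Fermat.Agent.SSMod.TraceDet
import Fermat.Agent.GalRep.Adic2

/-!
# Eigenvectors, flatness and the trace
-/

set_option autoImplicit false
set_option linter.style.haveILetI false
set_option maxHeartbeats 400000
set_option synthInstance.maxHeartbeats 200000

namespace Fermat.Agent.SSMod

open Fermat.Agent.DefRing IsLocalRing Matrix Fermat.Agent.GalRep Fermat.Agent.GalRep.HData
open TensorProduct

local notation "Qbar" => AlgebraicClosure ℚ
local notation "GQ" => Qbar ≃ₐ[ℚ] Qbar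

section Eigen

open scoped IsMulCommutative in
/-- eigenvectors for characters of commutative algebras of integral matrices -/
theorem exists_eigvec {r : ℕ} (R : Subalgebra ℤ (Matrix (Fin r) (Fin r) ℤ)) [IsMulCommutative R]
    {K : Type} [Field K] [CharZero K] (ψ : R →+* K) :
    ∃ v : Fin r → K, v ≠ 0 ∧ ∀ x : R,
      (castHom r K (x : Matrix (Fin r) (Fin r) ℤ)) *ᵥ v = ψ x • v := by
  let g : R →ₐ[ℤ] Matrix (Fin r) (Fin r) K :=
    ((castHom r K).comp (R.val : R →+* Matrix (Fin r) (Fin r) ℤ)).toIntAlgHom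
  let Ξ : K ⊗[ℤ] R →ₐ[K] Matrix (Fin r) (Fin r) K :=
    Algebra.TensorProduct.lift (Algebra.ofId K _) g
      (fun c x => Algebra.commutes c (g x))
  have hΞ : ∀ c x, Ξ (c ⊗ₜ x) = c • castHom r K (x : Matrix (Fin r) (Fin r) ℤ) := by
    intro c x
    have h := Algebra.TensorProduct.lift_tmul (Algebra.ofId K (Matrix (Fin r) (Fin r) K)) g
      (fun c x => Algebra.commutes c (g x)) c x
    rw [Algebra.ofId_apply, ← Algebra.smul_def] at h
    exact h
  have hΞinj : Function.Injective Ξ := by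
    let L : K ⊗[ℤ] R →ₗ[ℤ] K ⊗[ℤ] Matrix (Fin r) (Fin r) ℤ :=
      LinearMap.lTensor K (Subalgebra.toSubmodule R).subtype
    have hL : Function.Injective L :=
      Module.Flat.lTensor_preserves_injective_linearMap _ (Submodule.injective_subtype _)
    have hcomp : ∀ b, Ξ b = (matrixEquivTensor (Fin r) ℤ K).symm (L b) := by
      intro b
      induction b using TensorProduct.induction_on with
      | zero => rw [map_zero, map_zero, map_zero]
      | tmul c x =>
        have hLt : L (c ⊗ₜ[ℤ] x) = c ⊗ₜ[ℤ] (x : Matrix (Fin r) (Fin r) ℤ) := rfl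
        rw [hΞ, hLt, matrixEquivTensor_apply_symm]
        ext i j
        show c * (((x : Matrix (Fin r) (Fin r) ℤ) i j : ℤ) : K) =
          c * algebraMap ℤ K ((x : Matrix (Fin r) (Fin r) ℤ) i j)
        rw [eq_intCast]
      | add x y hx hy => rw [map_add, map_add, map_add, hx, hy]
    intro a b hab
    rw [hcomp, hcomp] at hab
    exact hL ((matrixEquivTensor (Fin r) ℤ K).symm.injective hab)
  have hfR : Module.Finite ℤ R :=
    inferInstanceAs (Module.Finite ℤ (Subalgebra.toSubmodule R))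
  haveI : Module.Finite K (K ⊗[ℤ] R) := Module.Finite.base_change ℤ K R
  haveI : IsArtinianRing (K ⊗[ℤ] R) := IsArtinianRing.of_finite K _
  let act : (K ⊗[ℤ] R) →+* Module.End K (Fin r → K) :=
    (Matrix.toLinAlgEquiv' : Matrix (Fin r) (Fin r) K ≃ₐ[K] _).toAlgHom.toRingHom.comp
      Ξ.toRingHom
  letI : Module (K ⊗[ℤ] R) (Fin r → K) := Module.compHom (Fin r → K) act
  have hsmul : ∀ (b : K ⊗[ℤ] R) (v : Fin r → K), b • v = Ξ b *ᵥ v := fun b v => rfl
  haveI : IsScalarTower K (K ⊗[ℤ] R) (Fin r → K) := ⟨fun c b v => by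
    rw [hsmul, hsmul, map_smul, Matrix.smul_mulVec]⟩
  haveI : Module.Finite (K ⊗[ℤ] R) (Fin r → K) :=
    Module.Finite.of_restrictScalars_finite K _ _
  have hann : Module.annihilator (K ⊗[ℤ] R) (Fin r → K) = ⊥ := by
    rw [eq_bot_iff]
    intro b hb
    rw [Module.mem_annihilator] at hb
    rw [Ideal.mem_bot]
    apply hΞinj
    rw [map_zero]
    ext i j
    have h1 := hb (Pi.single j 1)
    rw [hsmul, Matrix.mulVec_single_one] at h1
    exact congrFun h1 i
  let ψ' : K ⊗[ℤ] R →ₐ[K] K :=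
    Algebra.TensorProduct.lift (AlgHom.id K K) ψ.toIntAlgHom (fun _ _ => Commute.all _ _)
  have hψ' : ∀ c x, ψ' (c ⊗ₜ x) = c * ψ x := fun c x =>
    Algebra.TensorProduct.lift_tmul (AlgHom.id K K) ψ.toIntAlgHom
      (fun _ _ => Commute.all _ _) c x
  have hprime : (RingHom.ker ψ').IsPrime := RingHom.ker_isPrime _
  have hmin : RingHom.ker ψ' ∈
      (Module.annihilator (K ⊗[ℤ] R) (Fin r → K)).minimalPrimes := by
    rw [hann]
    refine ⟨⟨hprime, bot_le⟩, fun P hP hPle => ?_⟩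
    haveI := hP.1
    have hPmax : P.IsMaximal := IsArtinianRing.isMaximal_of_isPrime P
    exact (hPmax.eq_of_le hprime.ne_top hPle).ge
  obtain ⟨v, hv, hvker⟩ := exists_ne_zero_of_minimal _ hmin
  refine ⟨v, hv, fun x => ?_⟩
  have h1 := hvker ((1 : K) ⊗ₜ[ℤ] x - ψ x ⊗ₜ[ℤ] (1 : R)) (by
    rw [RingHom.mem_ker, map_sub, hψ', hψ', map_one, one_mul, mul_one, sub_self])
  rw [sub_smul, sub_eq_zero, hsmul, hsmul, hΞ, hΞ, one_smul] at h1
  rw [h1]
  have h2 : castHom r K ((1 : R) : Matrix (Fin r) (Fin r) ℤ) = 1 := map_one _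
  rw [h2, Matrix.smul_mulVec, Matrix.one_mulVec]

end Eigen

section Flat

variable {p : ℕ} [Fact p.Prime]

/-- inclusions of kernels extend to torsion-free extensions -/
theorem ker_ext {r : ℕ} {B : Type} [CommRing B] [IsDomain B] {f : ℤ_[p] →+* B}
    (hf : Function.Injective f) {N₁ N₂ : Matrix (Fin r) (Fin r) ℤ_[p]}
    (h : ∀ x : Fin r → ℤ_[p], N₁ *ᵥ x = 0 → N₂ *ᵥ x = 0) {v : Fin r → B}
    (hv : f.mapMatrix N₁ *ᵥ v = 0) : f.mapMatrix N₂ *ᵥ v = 0 := by
  letI := f.toAlgebra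
  haveI : FaithfulSMul ℤ_[p] B := (faithfulSMul_iff_algebraMap_injective ℤ_[p] B).mpr hf
  haveI : Module.IsTorsionFree ℤ_[p] B := inferInstance
  haveI : Module.Flat ℤ_[p] B := inferInstance
  let x : (Fin r → ℤ_[p]) →ₗ[ℤ_[p]] B := Fintype.linearCombination ℤ_[p] v
  have hx : ∀ a, x a = ∑ i, f (a i) * v i := fun a => by
    rw [Fintype.linearCombination_apply]
    exact Finset.sum_congr rfl fun i _ => Algebra.smul_def _ _
  have hmv : ∀ (N : Matrix (Fin r) (Fin r) ℤ_[p]) i, (f.mapMatrix N *ᵥ v) i = x (N i) := by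
    intro N i
    rw [hx, Matrix.mulVec, dotProduct]
    rfl
  have h0 : x ∘ₗ (Matrix.vecMulLinear N₁) = 0 := by
    refine LinearMap.pi_ext' fun i => LinearMap.ext_ring ?_
    show x (Matrix.vecMulLinear N₁ (Pi.single i 1)) = 0
    rw [Matrix.vecMulLinear_apply, Matrix.single_one_vecMul]
    exact (hmv N₁ i).symm.trans (congrFun hv i)
  obtain ⟨k, a, y, hxa, ha⟩ := Module.Flat.exists_factorization_of_comp_eq_zero_of_free h0
  have key : ∀ l : Fin k, N₁ *ᵥ (fun j => a (Pi.single j 1) l) = 0 := by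
    intro l
    ext i
    have h1 : a (N₁ i) = 0 := by
      have := LinearMap.congr_fun ha (Pi.single i 1)
      rw [LinearMap.comp_apply, Matrix.vecMulLinear_apply, Matrix.single_one_vecMul] at this
      exact this
    have h2 : N₁ i = ∑ j, N₁ i j • Pi.single j (1 : ℤ_[p]) := by
      ext j
      simp [Finset.sum_apply, Pi.single_apply]
    rw [h2, map_sum] at h1
    have h3 := DFunLike.congr_fun h1 l
    rw [Finsupp.finsetSum_apply] at h3
    rw [Matrix.mulVec, dotProduct]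
    refine (Finset.sum_congr rfl fun j _ => ?_).trans h3
    rw [map_smul, Finsupp.smul_apply, smul_eq_mul]
  ext i
  rw [hmv, hxa, LinearMap.comp_apply]
  have h2 : N₂ i = ∑ j, N₂ i j • Pi.single j (1 : ℤ_[p]) := by
    ext j
    simp [Finset.sum_apply, Pi.single_apply]
  have h4 : a (N₂ i) = 0 := by
    ext l
    rw [h2, map_sum, Finsupp.finsetSum_apply]
    have h5 := congrFun (h _ (key l)) i
    rw [Matrix.mulVec, dotProduct] at h5
    refine (Finset.sum_congr rfl fun j _ => ?_).trans h5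
    rw [map_smul, Finsupp.smul_apply, smul_eq_mul]
  rw [h4, map_zero]
  rfl

variable {B : Type} [CommRing B] [IsDomain B] [IsLocalRing B] [CharZero B]
  [IsAdicComplete (maximalIdeal B) B]

theorem padicTo_injective (hp : (p : B) ∈ maximalIdeal B) :
    Function.Injective (padicTo p (maximalIdeal B) hp) := by
  rw [injective_iff_map_eq_zero]
  intro x hx
  by_contra hx0
  obtain ⟨n, u, hu⟩ : ∃ (n : ℕ) (u : ℤ_[p]ˣ), x = u * (p : ℤ_[p]) ^ n :=
    ⟨_, _, PadicInt.unitCoeff_spec hx0⟩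
  rw [hu, map_mul, map_pow, map_natCast] at hx
  have h1 : padicTo p (maximalIdeal B) hp u ≠ 0 := (u.isUnit.map _).ne_zero
  have h2 : (p : B) ^ n ≠ 0 := pow_ne_zero _ (by exact_mod_cast (Fact.out : p.Prime).ne_zero)
  exact mul_ne_zero h1 h2 hx

end Flat

section Trace

variable {N p : ℕ} [Fact p.Prime] {D : HData N p} {S : Set ℕ}
  {R : Type} [CommRing R] [IsLocalRing R] [IsAdicComplete (maximalIdeal R) R]

/-- the operator `th σ` acts on eigenvectors through the trace -/
theorem trace_smul_eig (hS : S.Finite) (hN : N ≠ 0)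
    (hp : (p : R) ∈ maximalIdeal R) {π : D.TT S →+* R}
    {T : GQ →* Matrix (Fin 2) (Fin 2) R} (hT : MatCont T) (hπ : FrobCond π T)
    {v : Fin D.r → R} (hv : ∀ x : D.TT S, castHom D.r R (x : Matrix (Fin D.r) (Fin D.r) ℤ) *ᵥ v =
      π x • v) (σ : GQ) :
    (padicTo p (maximalIdeal R) hp).mapMatrix (D.th σ) *ᵥ v = (T σ).trace • v := by
  ext i
  rw [← sub_eq_zero]
  refine IsHausdorff.haus (inferInstance : IsHausdorff (maximalIdeal R) R) _ fun n => ?_
  rw [SModEq.zero, smul_eq_mul, Ideal.mul_top]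
  obtain ⟨x, hx1, hx2⟩ := exists_trace_approx hS hN hT hπ σ n
  have key : ∀ y : ℤ_[p], PadicInt.toZModPow n y = 0 →
      padicTo p (maximalIdeal R) hp y ∈ maximalIdeal R ^ n := by
    intro y hy
    have h1 : y ∈ RingHom.ker (PadicInt.toZModPow (p := p) n) := hy
    rw [PadicInt.ker_toZModPow, Ideal.mem_span_singleton] at h1
    obtain ⟨z, rfl⟩ := h1
    rw [map_mul, map_pow, map_natCast]
    exact Ideal.mul_mem_right _ _ (Ideal.pow_mem_pow hp n)
  have h1 : ∀ j, padicTo p (maximalIdeal R) hp (D.th σ i j) -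
      (((x : Matrix (Fin D.r) (Fin D.r) ℤ) i j : ℤ) : R) ∈ maximalIdeal R ^ n := by
    intro j
    have h2 := key (D.th σ i j - (((x : Matrix (Fin D.r) (Fin D.r) ℤ) i j : ℤ) : ℤ_[p])) (by
      have h3 := congrFun (congrFun hx1 i) j
      rw [RingHom.mapMatrix_apply, Matrix.map_apply, castHom_apply] at h3
      rw [map_sub, h3, map_intCast, sub_self])
    rwa [map_sub, map_intCast] at h2
  have h2 : ((padicTo p (maximalIdeal R) hp).mapMatrix (D.th σ) *ᵥ v) i -
      (castHom D.r R (x : Matrix (Fin D.r) (Fin D.r) ℤ) *ᵥ v) i ∈ maximalIdeal R ^ n := by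
    rw [Matrix.mulVec, dotProduct, Matrix.mulVec, dotProduct, ← Finset.sum_sub_distrib]
    refine Ideal.sum_mem _ fun j _ => ?_
    rw [← sub_mul]
    exact Ideal.mul_mem_right _ _ (h1 j)
  rw [hv x] at h2
  have h3 : ((padicTo p (maximalIdeal R) hp).mapMatrix (D.th σ) *ᵥ v) i -
      ((T σ).trace • v) i = (((padicTo p (maximalIdeal R) hp).mapMatrix (D.th σ) *ᵥ v) i -
      (π x • v) i) - ((T σ).trace - π x) * v i := by
    rw [Pi.smul_apply, Pi.smul_apply, smul_eq_mul, smul_eq_mul]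
    ring
  rw [h3]
  exact Ideal.sub_mem _ h2 (Ideal.mul_mem_right _ _ hx2)

end Trace

section Alg

theorem trace_eq_of_rel {B V : Type*} [CommRing B] [IsDomain B] [AddCommGroup V] [Module B V]
    [Module.IsTorsionFree B V] (Φ : V →ₗ[B] V) (hΦ : Function.Injective Φ) {v : V} (hv : v ≠ 0)
    {t q : B} (h2 : Φ (Φ v) = t • Φ v - q • v) {y z : V} (hy : y = Φ (Φ v) - v)
    (hz : z = Φ (Φ y) - q ^ 2 • y) (h : Φ (Φ z) = q ^ 2 • z) :
    t = q + 1 ∨ t = -(q + 1) := by
  set b := Φ v with hb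
  set d := Φ b with hd
  have e3 : Φ d = t • d - q • b := by
    have := congrArg Φ h2
    rw [map_sub, map_smul, map_smul] at this
    exact this
  have e4 : Φ (Φ d) = t • Φ d - q • d := by
    have := congrArg Φ e3
    rw [map_sub, map_smul, map_smul] at this
    exact this
  have g2 : Φ (Φ (Φ d)) = t • Φ (Φ d) - q • Φ d := by
    have := congrArg Φ e4
    rw [map_sub, map_smul, map_smul] at this
    exact this
  have g1 : Φ (Φ (Φ (Φ d))) = t • Φ (Φ (Φ d)) - q • Φ (Φ d) := by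
    have := congrArg Φ g2
    rw [map_sub, map_smul, map_smul] at this
    exact this
  have hz' : z = (t ^ 2 - (q + 1) ^ 2) • d := by
    rw [hz, hy, map_sub, map_sub, ← hb, e4, e3, ← hd]
    have h5 : b = b := rfl
    have h6 : t • b = d + q • v := by rw [h2]; abel
    have h7 : t • (t • d - q • b) = t ^ 2 • d - q • (d + q • v) := by
      rw [← h6]; module
    rw [h7]
    module
  have e5 : Φ (Φ z) = (t ^ 2 - (q + 1) ^ 2) • Φ (Φ d) := by
    rw [hz', map_smul, map_smul]
  -- apply `Φ² - 1`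
  set c := t ^ 2 - (q + 1) ^ 2 with hc
  have h8 : c • (Φ (Φ d) - q ^ 2 • d) = 0 := by
    have h9 : c • Φ (Φ d) = q ^ 2 • (c • d) := by rw [← e5, h, hz']
    rw [smul_sub, h9]
    module
  have h10 : c • (c • Φ (Φ d)) = 0 := by
    have f1 : Φ (Φ (Φ (Φ d) - q ^ 2 • d)) - (Φ (Φ d) - q ^ 2 • d) = c • Φ (Φ d) := by
      have g3 : t • Φ d = Φ (Φ d) + q • d := by rw [e4]; abel
      rw [map_sub, map_sub, map_smul, map_smul, g1, g2]
      have g4 : t • (t • Φ (Φ d) - q • Φ d) = t ^ 2 • Φ (Φ d) - q • (Φ (Φ d) + q • d) := by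
        rw [← g3]; module
      rw [g4, hc]
      module
    rw [← f1, smul_sub, ← map_smul, ← map_smul, h8]
    simp
  have h11 : c = 0 := by
    by_contra hc0
    have k1 := (smul_eq_zero.mp h10).resolve_left hc0
    have k2 := (smul_eq_zero.mp k1).resolve_left hc0
    have k3 : Φ (Φ (Φ (Φ v))) = 0 := k2
    have hinj : ∀ w, Φ w = 0 → w = 0 := fun w hw => hΦ (hw.trans (map_zero Φ).symm)
    exact hv (hinj _ (hinj _ (hinj _ (hinj _ k3))))
  have h12 : (t - (q + 1)) * (t + (q + 1)) = 0 := by rw [← h11, hc]; ring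
  rcases mul_eq_zero.mp h12 with h | h
  · exact Or.inl (sub_eq_zero.mp h)
  · exact Or.inr (eq_neg_of_add_eq_zero_left h)

end Alg

end Fermat.Agent.SSMod
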