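import Fermat.Agent.SSMod.FrobN
import Fermat.Agent.SSMod.RhoUnip
import Fermat.Agent.AnJacH.ESG

/-!
# Frobenius at `q ∥ N`: Laurent series form and change of level
-/

set_option autoImplicit false
set_option linter.unusedSectionVars false
set_option linter.style.haveILetI false
set_option linter.unusedVariables false
set_option synthInstance.maxHeartbeats 400000

noncomputable section

namespace Fermat.Agent.SSMod

open ModularCurve Fermat.Agent.GoodRed Fermat.Agent.Models Fermat.Agent.ModFun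
open Fermat.Agent.GenusX0 Fermat.Agent.Curves Fermat.Agent.AnJac AlgebraicCurve IsLocalRing
open Fermat.Agent.HeckeQ Fermat.Agent.GalRep
open scoped Pointwise

local notation "ℒ" => LaurentSeries
local notation "Qbar" => AlgebraicClosure ℚ
local notation "GQ" => Qbar ≃ₐ[ℚ] Qbar

/-- The relation `(Φ² - q²)² (Φ² - 1) u = 0` modulo `n`-th powers for functions `u` of level `N`
with divisor divisible by `n` and `U² u = u`. -/
def FrobAt {K : Type*} [Field K] [IsAlgClosed K] (N n q : ℕ) [NeZero q] [HasPrim K q]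
    (σ : K ≃+* K) : Prop :=
  ∀ (u f : ℒ K) (hu : u ∈ modularFunctionFieldFullC K N),
    f ∈ modularFunctionFieldFullC K N → u ≠ 0 → f ≠ 0 →
    hW q (hW q u) = u * f ^ n →
    (∀ P : Place K (modularFunctionFieldFullC K N), (n : ℤ) ∣ P.ord ⟨u, hu⟩) →
    ∀ v w : ℒ K, v = coeffMap (σ : K →+* K) (coeffMap (σ : K →+* K) u) / u →
      w = coeffMap (σ : K →+* K) (coeffMap (σ : K →+* K) v) / v ^ (q ^ 2) →
    ∃ g ∈ modularFunctionFieldFullC K N,
      coeffMap (σ : K →+* K) (coeffMap (σ : K →+* K) w) / w ^ (q ^ 2) = g ^ n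

section General

variable {K κ : Type} [Field K] [Field κ] {A : ValuationSubring K} {π : A →+* κ}
  {q M : ℕ} [NeZero M] [IsLocalHom π] [hq : Fact q.Prime] [CharP κ q]
  [IsAlgClosed K] [IsAlgClosed κ] [CharZero K] [NeZero q]

attribute [-instance] DivisionRing.toRatAlgebra

theorem frobAt_of_jLift [Algebra ℚ K] [Algebra.IsAlgebraic ℚ K] [Algebra.IsAlgebraic ℤ K]
    (hπ : Function.Surjective π) (ι : K →+* ℂ) (hqM : Nat.Coprime q M)
    (hA : A.LiesOverPrime q) (hr : GoodRed.RankOne π) (h : JLift π M)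
    [HasPrim A q] [HasPrim K q]
    {σ : K ≃+* K} (hσ : ActsAt π σ (frob κ q)) {n : ℕ} (hn : (n : κ) ≠ 0)
    (hmem : ∀ u ∈ modularFunctionFieldFullC K (q * M), hW q u ∈ modularFunctionFieldFullC K (q * M)) :
    FrobAt (q * M) n q σ := by
  intro u f hu hf hu0 hf0 hU hdiv v w hv hw
  haveI := isFunctionField_fullC K (q * M) (by exact_mod_cast NeZero.ne (q * M))
  haveI := isFunctionField_fullC κ M (cast_ne_zero_of_coprime (q := q) hqM)
  have h0 : (⟨u, hu⟩ : modularFunctionFieldFullC K (q * M)) ≠ 0 :=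
    fun h => hu0 (congrArg Subtype.val h)
  have h1 : (⟨f, hf⟩ : modularFunctionFieldFullC K (q * M)) ≠ 0 :=
    fun h => hf0 (congrArg Subtype.val h)
  have h2 := exists_pow_of_frob hπ ι hqM hA hr h hσ hn
    (U := fun x => ⟨hW q (x : ℒ K), hmem _ x.2⟩) (fun x => rfl)
    (u := ⟨u, hu⟩) (f := ⟨f, hf⟩) h0 h1 (Subtype.ext hU) hdiv _ _ rfl rfl
  obtain ⟨g, hg⟩ := h2
  refine ⟨g, g.2, ?_⟩
  have h3 := congrArg Subtype.val hg
  rw [hw, hv]
  exact h3

/-- descent along a change of level -/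
theorem frobAt_of_level {N p n : ℕ} [NeZero N] [HasPrim K q] {σ : K ≃+* K} (hp : p.Prime)
    (hpN : ¬ p ∣ N)
    (hco : Nat.Coprime (p + 1) n) (h : FrobAt (p * N) n q σ) : FrobAt N n q σ := by
  intro u f hu hf hu0 hf0 hU hdiv v w hv hw
  haveI : NeZero p := ⟨hp.ne_zero⟩
  haveI : NeZero (p * N) := ⟨Nat.mul_ne_zero hp.ne_zero (NeZero.ne N)⟩
  haveI := isFunctionField_fullC K N (by exact_mod_cast NeZero.ne N)
  haveI := isFunctionField_fullC K (p * N) (by exact_mod_cast NeZero.ne (p * N))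
  have hle := full_degeneracyC_le (K := K) (N := N) (M := p * N) (Dvd.intro_left p rfl)
  obtain ⟨g, hg, he⟩ := h u f (hle hu) (hle hf) hu0 hf0 hU
    (ord_level (Dvd.intro_left p rfl) hu (hle hu) hdiv) v w hv hw
  have h1 : ∀ x : ℒ K, x ∈ modularFunctionFieldFullC K N →
      coeffMap (σ : K →+* K) (coeffMap (σ : K →+* K) x) ∈ modularFunctionFieldFullC K N :=
    fun x hx => (galF N σ (galF N σ ⟨x, hx⟩)).2
  have h2 : ∀ x : ℒ K, x ≠ 0 → coeffMap (σ : K →+* K) (coeffMap (σ : K →+* K) x) ≠ 0 :=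
    fun x hx => (map_ne_zero _).mpr ((map_ne_zero _).mpr hx)
  have hvm : v ∈ modularFunctionFieldFullC K N := by rw [hv]; exact div_mem (h1 _ hu) hu
  have hwm : w ∈ modularFunctionFieldFullC K N := by
    rw [hw]; exact div_mem (h1 _ hvm) (pow_mem hvm _)
  have hv0 : v ≠ 0 := by rw [hv]; exact div_ne_zero (h2 _ hu0) hu0
  have hw0 : w ≠ 0 := by rw [hw]; exact div_ne_zero (h2 _ hv0) (pow_ne_zero _ hv0)
  obtain ⟨z, hz, hez⟩ := exists_pow_descend hle (relfinrank_full hp hpN
    (by exact_mod_cast NeZero.ne (p * N))) hco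
    (div_mem (h1 _ hwm) (pow_mem hwm _))
    (div_ne_zero (h2 _ hw0) (pow_ne_zero _ hw0)) hg he
  exact ⟨z, hz, hez⟩

end General

section Main

variable {A : ValuationSubring Qbar} {q : ℕ}

theorem hW_mem_Qbar {N : ℕ} [NeZero N] [NeZero q] (hqN : q ∣ N) {u : ℒ Qbar}
    (hu : u ∈ modularFunctionFieldFullC Qbar N) : hW q u ∈ modularFunctionFieldFullC Qbar N := by
  obtain ⟨ζ, hζ⟩ := exists_zeta q
  rw [← AnJacH.heckeW_eq_hW hζ]
  exact heckeW_mem_k ιQ hqN hζ hu

theorem actsAt_frob (hq : q.Prime) (hA : A.LiesOverPrime q) {σ : GQ} (hσ : A.IsFrobeniusAt σ q) :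
    haveI : Fact q.Prime := ⟨hq⟩
    haveI := FrobDens.charP_residueField A hq hA
    ActsAt (residue A) (σ : Qbar ≃+* Qbar) (frob (ResidueField A) q) := by
  haveI : Fact q.Prime := ⟨hq⟩
  haveI := FrobDens.charP_residueField A hq hA
  have h2 := actsAt_of_dec hσ.mem_decompositionSubgroup
  have e : actK σ hσ.mem_decompositionSubgroup = frob (ResidueField A) q :=
    RingEquiv.ext fun x => actK_frob hσ x
  rwa [e] at h2

attribute [-instance] DivisionRing.toRatAlgebra in
theorem frobAt_jLift (hq : q.Prime) [NeZero q] (hA : A.LiesOverPrime q) {M : ℕ} [NeZero M]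
    (hqM : ¬ q ∣ M) {n : ℕ} (hn : ¬ q ∣ n) (h : JLift (residue A) M)
    {σ : GQ} (hσ : A.IsFrobeniusAt σ q) : FrobAt (q * M) n q (σ : Qbar ≃+* Qbar) := by
  haveI : Fact q.Prime := ⟨hq⟩
  haveI := FrobDens.charP_residueField A hq hA
  haveI : Algebra.IsAlgebraic ℚ Qbar := AlgebraicClosure.isAlgebraic ℚ
  haveI : @Algebra.IsAlgebraic ℤ Qbar _ _ (Ring.toIntAlgebra Qbar) := algebraic_int_Qbar
  have hr : RankOne (residue A) := @rankOne_of_liesOver Qbar _ A _ algebraic_int_Qbar q hq hA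
  have hnκ : (n : ResidueField A) ≠ 0 := by
    rw [Ne, CharP.cast_eq_zero_iff _ q]
    exact hn
  exact frobAt_of_jLift residue_surjective ιQ
    ((Nat.Prime.coprime_iff_not_dvd hq).2 hqM) hA hr h (actsAt_frob hq hA hσ) hnκ
    fun u hu => hW_mem_Qbar (dvd_mul_right q M) hu

/-- Frobenius at `q ∥ N` -/
theorem frobAt_all (H : JL23) (hq : q.Prime) [NeZero q] (hA : A.LiesOverPrime q) {M : ℕ} [NeZero M]
    (hqM : ¬ q ∣ M) {n : ℕ} (hn : ¬ q ∣ n)
    {σ : GQ} (hσ : A.IsFrobeniusAt σ q) : FrobAt (q * M) n q (σ : Qbar ≃+* Qbar) := by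
  haveI : Fact q.Prime := ⟨hq⟩
  haveI := FrobDens.charP_residueField A hq hA
  have hqM' : Nat.Coprime q M := (Nat.Prime.coprime_iff_not_dvd hq).2 hqM
  by_cases h5 : 5 ≤ q
  · exact frobAt_jLift hq hA hqM hn (jLift_of_five residue_surjective ιQ hqM' h5) hσ
  · have h23 : q = 2 ∨ q = 3 := by
      have h2 := hq.two_le
      interval_cases q
      · exact Or.inl rfl
      · exact Or.inr rfl
      · exact absurd hq (by decide)
    rcases h23 with rfl | rfl
    · by_cases h3 : 3 ∣ M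
      · exact frobAt_jLift hq hA hqM hn (H 2 A hA M (Or.inl ⟨rfl, h3, hqM⟩)) hσ
      · haveI : NeZero (2 * M) := ⟨mul_ne_zero (by norm_num) (NeZero.ne M)⟩
        haveI : NeZero (3 * M) := ⟨mul_ne_zero (by norm_num) (NeZero.ne M)⟩
        have hM' : ¬ 2 ∣ 3 * M := by
          intro h
          rcases hq.dvd_mul.mp h with h | h
          · revert h; decide
          · exact hqM h
        refine frobAt_of_level (p := 3) Nat.prime_three ?_ ?_ ?_
        · intro h
          rcases Nat.prime_three.dvd_mul.mp h with h | h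
          · revert h; decide
          · exact h3 h
        · exact Nat.Coprime.pow_left 2 ((Nat.Prime.coprime_iff_not_dvd Nat.prime_two).2 hn)
        · rw [show 3 * (2 * M) = 2 * (3 * M) by ring]
          exact frobAt_jLift hq hA hM' hn (H 2 A hA (3 * M) (Or.inl ⟨rfl, ⟨M, rfl⟩, hM'⟩)) hσ
    · by_cases h2 : 2 ∣ M
      · exact frobAt_jLift hq hA hqM hn (H 3 A hA M (Or.inr ⟨rfl, h2, hqM⟩)) hσ
      · haveI : NeZero (3 * M) := ⟨mul_ne_zero (by norm_num) (NeZero.ne M)⟩
        haveI : NeZero (2 * M) := ⟨mul_ne_zero (by norm_num) (NeZero.ne M)⟩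
        have hM' : ¬ 3 ∣ 2 * M := by
          intro h
          rcases hq.dvd_mul.mp h with h | h
          · revert h; decide
          · exact hqM h
        refine frobAt_of_level (p := 2) Nat.prime_two ?_ ?_ ?_
        · intro h
          rcases Nat.prime_two.dvd_mul.mp h with h | h
          · revert h; decide
          · exact h2 h
        · exact (Nat.Prime.coprime_iff_not_dvd Nat.prime_three).2 hn
        · rw [show 2 * (3 * M) = 3 * (2 * M) by ring]
          exact frobAt_jLift hq hA hM' hn (H 3 A hA (2 * M) (Or.inr ⟨rfl, ⟨M, rfl⟩, hM'⟩)) hσ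

end Main

end Fermat.Agent.SSMod
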