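import Fermat.Agent.SSMod.Eich
import Fermat.Agent.SSMod.Unip
import Fermat.Agent.Models.NodeFix

/-!
# Frobenius at `q ∥ N`
-/

set_option autoImplicit false
set_option linter.unusedSectionVars false
set_option linter.style.haveILetI false
set_option linter.unusedVariables false
set_option synthInstance.maxHeartbeats 400000

noncomputable section

namespace Fermat.Agent.SSMod

open ModularCurve Fermat.Agent.GoodRed Fermat.Agent.Models Fermat.Agent.ModFun
open Fermat.Agent.GenusX0 Fermat.Agent.Curves Fermat.Agent.AnJac AlgebraicCurve IsLocalRing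
open Fermat.Agent.HeckeQ

local notation "ℒ" => LaurentSeries

section General

variable {K κ : Type*} [Field K] [Field κ] {A : ValuationSubring K} {π : A →+* κ}
  {q M : ℕ} [NeZero M] [IsLocalHom π] [hq : Fact q.Prime] [CharP κ q]
  [IsAlgClosed K] [IsAlgClosed κ] [CharZero K] [NeZero q]

attribute [-instance] DivisionRing.toRatAlgebra

variable [IsFunctionField K (modularFunctionFieldFullC K (q * M))]
  [IsFunctionField κ (modularFunctionFieldFullC κ M)]

variable {hπ : Function.Surjective π} (ι : K →+* ℂ) (hqM : Nat.Coprime q M)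
  (hE : modularFunctionFieldFullC κ M = resField q hπ (q * M))

theorem chain [HasPrim A q] [HasPrim K q] {n : ℕ} {σ : K ≃+* K}
    (hσ : ActsAt π σ (frob κ q))
    {U : modularFunctionFieldFullC K (q * M) → modularFunctionFieldFullC K (q * M)}
    (hU : ∀ u, (U u : ℒ K) = hW q (u : ℒ K)) :
    Chain (two hπ ι hqM _ hE) n q U (galF (q * M) σ) (galF M (frob κ q)) where
  U_true h := rp_U_true ι hqM hE (fun x => rfl) (hU _) h
  U_false h hb := rp_U_false ι hqM hE (fun x => rfl) (hU _) h hb
  Φ_res h := rp_gal ι hqM hE hσ h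
  U_mul u v := Subtype.ext (by
    rw [hU]
    show hW q ((u : ℒ K) * (v : ℒ K)) = ((U u : _) : ℒ K) * ((U v : _) : ℒ K)
    rw [hW_mul, hU, hU])
  U_one := Subtype.ext (by
    rw [hU]
    exact hW_one q)
  U_Φ u := Subtype.ext (by
    rw [hU, coe_galF, coe_galF, hU, coeffMap_hW q _ σ.injective])

theorem two_gal_mem {σ : K ≃+* K} {φ : κ ≃+* κ} (h : ActsAt π σ φ) (b : Bool)
    (x : modularFunctionFieldFullC K (q * M)) :
    galF (q * M) σ x ∈ (two hπ ι hqM _ hE b).O ↔ x ∈ (two hπ ι hqM _ hE b).O := by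
  constructor
  · intro hx
    have h1 := (two_gal ι hqM hE h.symm b hx).1
    rwa [show galF (q * M) σ.symm (galF (q * M) σ x) = x from (galF (q * M) σ).symm_apply_apply x]
      at h1
  · intro hx
    exact (two_gal ι hqM hE h b hx).1

theorem frobenial {σ : K ≃+* K} (h : ActsAt π σ (frob κ q)) :
    Frobenial (two hπ ι hqM _ hE) (q ^ 2) ((galF (q * M) σ).trans (galF (q * M) σ))
      (σ.trans σ) ((galF M (frob κ q)).trans (galF M (frob κ q))) ((frob κ q).trans (frob κ q))
      ((placeE (q * M) σ).trans (placeE (q * M) σ))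
      ((placeE M (frob κ q)).trans (placeE M (frob κ q))) where
  map_const a := by
    rw [RingEquiv.trans_apply, galF_const, galF_const]; rfl
  map_const' a := by
    rw [RingEquiv.trans_apply, galF_const, galF_const]; rfl
  pow a := by
    show (a ^ q) ^ q = a ^ q ^ 2
    rw [← pow_mul, sq]
  mem_base c := by
    show σ (σ c) ∈ A ↔ c ∈ A
    rw [h.mem, h.mem]
  res c hc := by
    have h1 : σ c ∈ A := (h.mem c).mpr hc
    have h2 : σ (σ c) ∈ A := (h.mem _).mpr h1
    rw [baseRes_r π hπ hc, RingEquiv.trans_apply, baseRes_r π hπ h2]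
    have e1 := h.res ⟨c, hc⟩
    have e2 := h.res ⟨σ c, h1⟩
    rw [e1] at e2
    exact e2
  mem i x := by
    rw [RingEquiv.trans_apply, two_gal_mem ι hqM hE h, two_gal_mem ι hqM hE h]
  r_eq i x hx := by
    rw [RingEquiv.trans_apply, (two_gal ι hqM hE h i (two_gal ι hqM hE h i hx).1).2,
      (two_gal ι hqM hE h i hx).2]
    rfl
  ord P x := by
    rw [RingEquiv.trans_apply, Equiv.trans_apply, placeE_ord, placeE_ord]
  ord' P x := by
    rw [RingEquiv.trans_apply, Equiv.trans_apply, placeE_ord, placeE_ord]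

/-- **Frobenius at `q ∥ N`** on vectors with `U² = 1`. -/
theorem exists_pow_of_frob [Algebra ℚ K] [Algebra.IsAlgebraic ℚ K] [Algebra.IsAlgebraic ℤ K]
    (hπ : Function.Surjective π) (ι : K →+* ℂ) (hqM : Nat.Coprime q M)
    (hA : A.LiesOverPrime q) (hr : GoodRed.RankOne π) (h : JLift π M)
    [HasPrim A q] [HasPrim K q] {σ : K ≃+* K} (hσ : ActsAt π σ (frob κ q)) {n : ℕ}
    (hn : (n : κ) ≠ 0)
    {U : modularFunctionFieldFullC K (q * M) → modularFunctionFieldFullC K (q * M)}
    (hU : ∀ u, (U u : ℒ K) = hW q (u : ℒ K))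
    {u f : modularFunctionFieldFullC K (q * M)} (hu : u ≠ 0) (hf : f ≠ 0)
    (hUu : U (U u) = u * f ^ n)
    (hdiv : ∀ P : Place K (modularFunctionFieldFullC K (q * M)), (n : ℤ) ∣ P.ord u) :
    ∀ v w, v = galF (q * M) σ (galF (q * M) σ u) / u →
      w = galF (q * M) σ (galF (q * M) σ v) / v ^ (q ^ 2) →
      ∃ g, galF (q * M) σ (galF (q * M) σ w) / w ^ (q ^ 2) = g ^ n := by
  have hE := (resField_eq (q := q) hπ ι hqM hr).symm
  have hm := nodeModel (hπ := hπ) ι hqM hE hA hr h
  obtain ⟨L, hunr, hL⟩ := exists_K0 hq.out hA π hπ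
  have hc := cross (hπ := hπ) ι hqM hE hA hr h
  have hl := crossLift (hπ := hπ) ι hqM hE hA hr h hunr hL
  have hF := frobenial (hπ := hπ) ι hqM hE hσ
  refine (chain (n := n) ι hqM hE hσ hU).isPow hm hF ?_ ?_ hn hu hf hUu hdiv
  · rw [h.coord_t, map_mul, jA, jB]
    congr 1
    · apply Subtype.ext
      rw [coe_galF]
      exact coeffMap_jqModC _
    · apply Subtype.ext
      rw [coe_galF]
      show coeffMap _ (qExpand K q (jqModC K)) = qExpand K q (jqModC K)
      rw [coeffMap_qExpand, coeffMap_jqModC]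
  · intro M' 𝔭₁ 𝔭₂ h1 h2
    exact CrossLift.fix_branch hc hl hF.map_const' hF.ord' (galF_je _) h1 h2

end General

end Fermat.Agent.SSMod
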