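import Fermat.Agent.SSMod.Unip
import Fermat.Agent.GoodRed.KLAll

/-!
# Unipotence of inertia: Laurent series form and change of level
-/

set_option autoImplicit false
set_option linter.unusedSectionVars false
set_option linter.style.haveILetI false
set_option linter.unusedVariables false
set_option synthInstance.maxHeartbeats 400000

noncomputable section

namespace Fermat.Agent.SSMod

open ModularCurve Fermat.Agent.GoodRed Fermat.Agent.Models Fermat.Agent.ModFun
open Fermat.Agent.GenusX0 Fermat.Agent.Curves Fermat.Agent.AnJac AlgebraicCurve IsLocalRing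

local notation "ℒ" => LaurentSeries

/-- `(σ - 1)² u` is an `n`-th power for all functions `u` of level `N` with divisor divisible by
`n`. -/
def UnipAt {K : Type*} [Field K] [IsAlgClosed K] (N n : ℕ) (σ : K ≃+* K) : Prop :=
  ∀ (u : ℒ K) (hu : u ∈ modularFunctionFieldFullC K N), u ≠ 0 →
    (∀ P : Place K (modularFunctionFieldFullC K N), (n : ℤ) ∣ P.ord ⟨u, hu⟩) →
    ∃ f ∈ modularFunctionFieldFullC K N,
      coeffMap (σ : K →+* K) (coeffMap (σ : K →+* K) u) * u / coeffMap (σ : K →+* K) u ^ 2 = f ^ n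

section General

variable {K κ : Type} [Field K] [Field κ] {A : ValuationSubring K} {π : A →+* κ}
  {q M : ℕ} [NeZero M] [IsLocalHom π] [hq : Fact q.Prime] [CharP κ q]
  [IsAlgClosed K] [IsAlgClosed κ] [CharZero K] [NeZero q]

attribute [-instance] DivisionRing.toRatAlgebra

theorem unipAt_of_jLift [Algebra ℚ K] [Algebra.IsAlgebraic ℚ K] [Algebra.IsAlgebraic ℤ K]
    (hπ : Function.Surjective π) (ι : K →+* ℂ) (hqM : Nat.Coprime q M)
    (hA : A.LiesOverPrime q) (hr : GoodRed.RankOne π) (h : JLift π M)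
    {σ : K ≃+* K} (hσ : ActsAt π σ (RingEquiv.refl κ)) {n : ℕ} (hn : (n : κ) ≠ 0) :
    UnipAt (q * M) n σ := by
  intro u hu hu0 hdiv
  haveI := isFunctionField_fullC K (q * M) (by exact_mod_cast NeZero.ne (q * M))
  haveI := isFunctionField_fullC κ M (cast_ne_zero_of_coprime (q := q) hqM)
  have h0 : (⟨u, hu⟩ : modularFunctionFieldFullC K (q * M)) ≠ 0 :=
    fun h => hu0 (congrArg Subtype.val h)
  obtain ⟨f, hf⟩ := exists_pow_of_inertia hπ ι hqM hA hr h hσ hn h0 hdiv
  refine ⟨f, f.2, ?_⟩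
  have h1 := congrArg Subtype.val hf
  have h2 : (((galF (q * M) σ (galF (q * M) σ ⟨u, hu⟩ / ⟨u, hu⟩) / (galF (q * M) σ ⟨u, hu⟩ / ⟨u, hu⟩) :
      modularFunctionFieldFullC K (q * M)) : ℒ K)) =
      coeffMap (σ : K →+* K) (coeffMap (σ : K →+* K) u / u) / (coeffMap (σ : K →+* K) u / u) := rfl
  rw [h2, map_div₀] at h1
  rw [show f.1 ^ n = ((f ^ n : modularFunctionFieldFullC K (q * M)) : ℒ K) from rfl, ← h1]
  have h3 : coeffMap (σ : K →+* K) u ≠ 0 := (map_ne_zero _).mpr hu0
  have h4 : coeffMap (σ : K →+* K) (coeffMap (σ : K →+* K) u) ≠ 0 := (map_ne_zero _).mpr h3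
  field_simp

/-- unipotence descends along a change of level -/
theorem unipAt_of_level {N p n : ℕ} [NeZero N] {σ : K ≃+* K} (hp : p.Prime) (hpN : ¬ p ∣ N)
    (hco : Nat.Coprime (p + 1) n) (h : UnipAt (p * N) n σ) : UnipAt N n σ := by
  intro u hu hu0 hdiv
  haveI : NeZero p := ⟨hp.ne_zero⟩
  haveI : NeZero (p * N) := ⟨Nat.mul_ne_zero hp.ne_zero (NeZero.ne N)⟩
  haveI := isFunctionField_fullC K N (by exact_mod_cast NeZero.ne N)
  haveI := isFunctionField_fullC K (p * N) (by exact_mod_cast NeZero.ne (p * N))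
  have hle := full_degeneracyC_le (K := K) (N := N) (M := p * N) (Dvd.intro_left p rfl)
  obtain ⟨f, hf, he⟩ := h u (hle hu) hu0 (ord_level (Dvd.intro_left p rfl) hu (hle hu) hdiv)
  have h1 : ∀ x : ℒ K, x ∈ modularFunctionFieldFullC K N →
      coeffMap (σ : K →+* K) x ∈ modularFunctionFieldFullC K N := fun x hx =>
    (galF N σ ⟨x, hx⟩).2
  have h3 : coeffMap (σ : K →+* K) u ≠ 0 := (map_ne_zero _).mpr hu0
  have h4 : coeffMap (σ : K →+* K) (coeffMap (σ : K →+* K) u) ≠ 0 := (map_ne_zero _).mpr h3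
  obtain ⟨z, hz, hez⟩ := exists_pow_descend hle (relfinrank_full hp hpN
    (by exact_mod_cast NeZero.ne (p * N))) hco
    (div_mem (mul_mem (h1 _ (h1 _ hu)) hu) (pow_mem (h1 _ hu) 2))
    (div_ne_zero (mul_ne_zero h4 hu0) (pow_ne_zero 2 h3)) hf he
  exact ⟨z, hz, hez⟩

end General

end Fermat.Agent.SSMod
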