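import Fermat.Agent.SSMod.RatDec

/-!
# Rational lifts of regular functions
-/

set_option autoImplicit false
set_option linter.unusedSectionVars false
set_option linter.style.haveILetI false
set_option linter.unusedVariables false
set_option synthInstance.maxHeartbeats 400000

noncomputable section

namespace Fermat.Agent.SSMod

open ModularCurve Fermat.Agent.GoodRed Fermat.Agent.Models Fermat.Agent.ModFun
open Fermat.Agent.GenusX0 Fermat.Agent.Curves Fermat.Agent.AnJac AlgebraicCurve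

local notation "ℒ" => LaurentSeries

attribute [-instance] DivisionRing.toRatAlgebra

/-! ### the rational subfields -/

section RatF

variable {K : Type*} [Field K]

/-- functions rational over `L` -/
def ratF (L : Subfield K) (N : ℕ) : Subfield (modularFunctionFieldFullC K N) :=
  Subfield.closure ({x | ∃ c ∈ L, x = algebraMap K _ c} ∪
    {x | ∃ (d : ℕ) (h : d ≠ 0) (hd : d ∣ N), x = gj K d h hd})

variable {L : Subfield K} {N : ℕ}

theorem const_mem_ratF {c : K} (hc : c ∈ L) :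
    algebraMap K (modularFunctionFieldFullC K N) c ∈ ratF L N :=
  Subfield.subset_closure (Or.inl ⟨c, hc, rfl⟩)

theorem gj_mem_ratF (d : ℕ) (h : d ≠ 0) (hd : d ∣ N) : gj K d h hd ∈ ratF L N :=
  Subfield.subset_closure (Or.inr ⟨d, h, hd, rfl⟩)

theorem coe_mem_RatS {x : modularFunctionFieldFullC K N} (hx : x ∈ ratF L N) :
    (x : ℒ K) ∈ RatS L := by
  have h : ratF L N ≤ (RatS L).comap (modularFunctionFieldFullC K N).val.toRingHom := by
    rw [ratF, Subfield.closure_le]
    rintro _ (⟨c, hc, rfl⟩ | ⟨d, hd, hdN, rfl⟩)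
    · show algebraMap K (ℒ K) c ∈ RatS L
      rw [← ModFun.C_eq_algebraMap]
      exact PS_le_RatS _ (C_mem_PS hc)
    · show genx K d hd ∈ RatS L
      rw [genx_eq_zK]
      exact PS_le_RatS _ (zK_mem_PS _)
  exact h hx

/-- a homomorphism preserving the generators preserves rationality -/
theorem map_mem_ratF {N' : ℕ} (f : modularFunctionFieldFullC K N →+* modularFunctionFieldFullC K N')
    (hc : ∀ c ∈ L, f (algebraMap K _ c) ∈ ratF L N')
    (hg : ∀ (d : ℕ) (h : d ≠ 0) (hd : d ∣ N), f (gj K d h hd) ∈ ratF L N')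
    {x : modularFunctionFieldFullC K N} (hx : x ∈ ratF L N) : f x ∈ ratF L N' := by
  unfold ratF at hx
  induction hx using Subfield.closure_induction with
  | mem y hy =>
    rcases hy with ⟨c, h, rfl⟩ | ⟨d, hd, hdN, rfl⟩
    · exact hc c h
    · exact hg d hd hdN
  | one => rw [map_one]; exact one_mem _
  | add y z _ _ h1 h2 => rw [map_add]; exact add_mem h1 h2
  | neg y _ h1 => rw [map_neg]; exact neg_mem h1
  | inv y _ h1 => rw [map_inv₀]; exact inv_mem h1
  | mul y z _ _ h1 h2 => rw [map_mul]; exact mul_mem h1 h2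

variable {q M : ℕ} [NeZero q] [NeZero M]

theorem alpha_mem_ratF {x : modularFunctionFieldFullC K M} (hx : x ∈ ratF L M) :
    alpha K q M x ∈ ratF L (q * M) :=
  map_mem_ratF (alpha K q M).toRingHom
    (fun c hc => by
      show alpha K q M _ ∈ _
      rw [AlgHom.commutes]; exact const_mem_ratF hc)
    (fun d h hd => gj_mem_ratF d h (hd.mul_left q)) hx

theorem beta_gj (d : ℕ) (h : d ≠ 0) (hd : d ∣ M) : beta K q M (gj K d h hd) =
    gj K (q * d) (mul_ne_zero (NeZero.ne q) h) (mul_dvd_mul_left q hd) :=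
  Subtype.ext (qExpand_genx K q d h)

theorem beta_mem_ratF {x : modularFunctionFieldFullC K M} (hx : x ∈ ratF L M) :
    beta K q M x ∈ ratF L (q * M) :=
  map_mem_ratF (beta K q M).toRingHom
    (fun c hc => by
      show beta K q M _ ∈ _
      rw [AlgHom.commutes]; exact const_mem_ratF hc)
    (fun d h hd => by
      show beta K q M _ ∈ _
      rw [beta_gj]; exact gj_mem_ratF _ _ _) hx

theorem al_mem_ratF (ι : K →+* ℂ) (hqM : Nat.Coprime q M)
    {x : modularFunctionFieldFullC K (q * M)} (hx : x ∈ ratF L (q * M)) :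
    al ι hqM x ∈ ratF L (q * M) :=
  map_mem_ratF (al ι hqM).toRingHom
    (fun c hc => by
      show al ι hqM _ ∈ _
      rw [al_const]; exact const_mem_ratF hc)
    (fun d h hd => by
      show al ι hqM _ ∈ _
      rw [al_gj]; exact gj_mem_ratF _ _ _) hx

/-- functions with rational coefficients are rational -/
theorem qK_mem_ratF [Algebra ℚ K] {z : ℒ ℚ} (hz : z ∈ modularFunctionFieldFullC ℚ N) :
    ∃ h : qK K z ∈ modularFunctionFieldFullC K N,
      (⟨qK K z, h⟩ : modularFunctionFieldFullC K N) ∈ ratF L N := by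
  induction hz using IntermediateField.adjoin_induction with
  | mem y hy =>
    obtain ⟨d, ⟨hd⟩, hdN, rfl⟩ := hy
    have e : qK K (genx ℚ d hd) = genx K d hd := qK_genx d hd
    refine ⟨?_, ?_⟩
    · show qK K (genx ℚ d hd) ∈ _
      rw [e]
      exact (gj K d hd hdN).2
    · have h1 := gj_mem_ratF (K := K) (L := L) d hd hdN
      convert h1 using 1
      exact Subtype.ext e
  | algebraMap c =>
    have e : qK K (algebraMap ℚ (ℒ ℚ) c) = algebraMap K (ℒ K) (algebraMap ℚ K c) := by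
      rw [← ModFun.C_eq_algebraMap, qK_C, ModFun.C_eq_algebraMap]
    refine ⟨by rw [e]; exact IntermediateField.algebraMap_mem _ _, ?_⟩
    have h1 : algebraMap K (modularFunctionFieldFullC K N) (algebraMap ℚ K c) ∈ ratF L N :=
      const_mem_ratF (by
        rw [← Rat.cast_id c]
        rw [map_ratCast]
        exact SubfieldClass.ratCast_mem L c)
    convert h1 using 1
    exact Subtype.ext e
  | add y y' _ _ h h' =>
    obtain ⟨h1, h2⟩ := h
    obtain ⟨h3, h4⟩ := h'
    refine ⟨by rw [map_add]; exact add_mem h1 h3, ?_⟩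
    convert add_mem h2 h4 using 1
    exact Subtype.ext (map_add _ _ _)
  | mul y y' _ _ h h' =>
    obtain ⟨h1, h2⟩ := h
    obtain ⟨h3, h4⟩ := h'
    refine ⟨by rw [map_mul]; exact mul_mem h1 h3, ?_⟩
    convert mul_mem h2 h4 using 1
    exact Subtype.ext (map_mul _ _ _)
  | inv y _ h =>
    obtain ⟨h1, h2⟩ := h
    refine ⟨by rw [map_inv₀]; exact inv_mem h1, ?_⟩
    convert inv_mem h2 using 1
    exact Subtype.ext (map_inv₀ _ _)

end RatF

/-! ### denominators -/

theorem C_ne {K : Type*} [Field K] {c : K} (h : c ≠ 0) : (HahnSeries.C c : ℒ K) ≠ 0 := by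
  simpa using h

theorem PS_Q {f : ℒ ℚ} (hf : f ∈ PS (⊤ : Subfield ℚ)) :
    ∃ m : ℤ, m ≠ 0 ∧ ∃ g : ℒ ℤ, HahnSeries.C (m : ℚ) * f = zK ℚ g := by
  obtain ⟨l, -, rfl⟩ := exists_list_rep hf
  clear hf
  induction l with
  | nil => exact ⟨1, one_ne_zero, 0, by simp⟩
  | cons p l ih =>
    obtain ⟨m, hm, g, hg⟩ := ih
    refine ⟨p.1.den * m, mul_ne_zero (by exact_mod_cast p.1.den_ne_zero) hm,
      m • (p.1.num • p.2) + (p.1.den : ℤ) • g, ?_⟩
    rw [List.map_cons, List.sum_cons, mul_add, map_add, map_zsmul, map_zsmul, map_zsmul, ← hg]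
    have h1 : (HahnSeries.C (((p.1.den : ℤ) * m : ℤ) : ℚ) : ℒ ℚ) * (HahnSeries.C p.1 * zK ℚ p.2) =
        m • (p.1.num • zK ℚ p.2) := by
      rw [← mul_assoc, ← map_mul]
      have h2 : (((p.1.den : ℤ) * m : ℤ) : ℚ) * p.1 = ((m * p.1.num : ℤ) : ℚ) := by
        push_cast
        have := Rat.mul_den_eq_num p.1
        linear_combination (m : ℚ) * this
      rw [h2, smul_smul, zsmul_eq_mul, map_intCast]
    have h3 : (HahnSeries.C (((p.1.den : ℤ) * m : ℤ) : ℚ) : ℒ ℚ) *
        (l.map fun p => HahnSeries.C p.1 * zK ℚ p.2).sum = (p.1.den : ℤ) • (HahnSeries.C (m : ℚ) *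
        (l.map fun p => HahnSeries.C p.1 * zK ℚ p.2).sum) := by
      rw [zsmul_eq_mul, ← mul_assoc, Int.cast_mul, map_mul, map_intCast]
    rw [h1, h3]

theorem zK_injective (K : Type*) [Field K] [CharZero K] : Function.Injective (zK K) :=
  coeffMap_injective Int.cast_injective

theorem exists_denom {N : ℕ} {z : ℒ ℚ} (hz : z ∈ modularFunctionFieldFullC ℚ N) :
    ∃ d g : ℒ ℤ, d ≠ 0 ∧ zK ℚ d * z = zK ℚ g := by
  obtain ⟨y, hy, w, hw, rfl⟩ := mem_RatS (mem_RatS_of_mem hz)
  rcases eq_or_ne w 0 with rfl | hw0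
  · exact ⟨1, 0, one_ne_zero, by simp⟩
  obtain ⟨m, hm, g, hg⟩ := PS_Q hy
  obtain ⟨m', hm', g', hg'⟩ := PS_Q hw
  refine ⟨m • g', m' • g, ?_, ?_⟩
  · intro h
    have h1 : zK ℚ (m • g') = 0 := by rw [h, map_zero]
    rw [map_zsmul, ← hg', zsmul_eq_mul] at h1
    have h2 : ((m : ℤ) : ℒ ℚ) ≠ 0 := by
      rw [← map_intCast (HahnSeries.C : ℚ →+* ℒ ℚ)]
      exact C_ne (by exact_mod_cast hm)
    have h3 : (HahnSeries.C (m' : ℚ) : ℒ ℚ) ≠ 0 := C_ne (by exact_mod_cast hm')
    exact mul_ne_zero h2 (mul_ne_zero h3 hw0) h1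
  · rw [map_zsmul, map_zsmul, ← hg, ← hg', zsmul_eq_mul, zsmul_eq_mul, map_intCast, map_intCast]
    field_simp

theorem exists_common_denom {N n : ℕ} (z : Fin n → ℒ ℚ)
    (hz : ∀ i, z i ∈ modularFunctionFieldFullC ℚ N) :
    ∃ (D : ℒ ℤ) (h : Fin n → ℒ ℤ), D ≠ 0 ∧ ∀ i, zK ℚ D * z i = zK ℚ (h i) := by
  classical
  choose d g hd hg using fun i => exists_denom (hz i)
  refine ⟨∏ i, d i, fun i => (∏ j ∈ Finset.univ.erase i, d j) * g i,
    Finset.prod_ne_zero_iff.mpr fun i _ => hd i, fun i => ?_⟩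
  rw [← Finset.prod_erase_mul _ _ (Finset.mem_univ i), map_mul, mul_assoc, hg, map_mul]

variable {K κ : Type*} [Field K] [Field κ] {A : ValuationSubring K} {π : A →+* κ}
  {q M : ℕ} [NeZero M] [hq : Fact q.Prime] [CharP κ q]
  [IsAlgClosed K] [IsAlgClosed κ] [CharZero K] [NeZero q]

include hq in
variable (q) in
/-- combinations of saturated families -/
theorem sat_comb_mem [IsLocalHom π] {r : ℕ} {e : Fin r → ℒ ℤ}
    (he : ∀ (q : ℤ) (_ : q ≠ 0) (a : Fin r → ℤ) (h : ℒ ℤ), ∑ j, a j • e j = q • h → ∀ j, q ∣ a j)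
    {γ : Fin r → K} {y : ℒ κ} (h : LR π (∑ j, HahnSeries.C (γ j) * zK K (e j)) y) (j : Fin r) :
    γ j ∈ A := by
  classical
  by_contra hj
  obtain ⟨j₀, -, hj₀⟩ := Finset.exists_max_image Finset.univ
    (fun j => A.valuation (γ j)) ⟨j, Finset.mem_univ _⟩
  have hγ : γ j₀ ∉ A := by
    intro h1
    apply hj
    rw [← A.valuation_le_one_iff] at h1 ⊢
    exact (hj₀ j (Finset.mem_univ _)).trans h1
  have hγ0 : γ j₀ ≠ 0 := by
    intro h1; rw [h1] at hγ; exact hγ (zero_mem _)
  have hinv : (γ j₀)⁻¹ ∈ A := (A.mem_or_inv_mem _).resolve_left hγ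
  have hmem : ∀ j, (γ j₀)⁻¹ * γ j ∈ A := by
    intro j
    rw [← A.valuation_le_one_iff, map_mul, map_inv₀, mul_comm, ← div_eq_mul_inv]
    exact div_le_one_of_le₀ (hj₀ j (Finset.mem_univ _)) zero_le
  let d : Fin r → A := fun j => ⟨_, hmem j⟩
  have h1 := (LR.C (π := π) ⟨(γ j₀)⁻¹, hinv⟩).mul h
  have h2 : π ⟨(γ j₀)⁻¹, hinv⟩ = 0 := by
    by_contra h3
    have hu : IsUnit (⟨(γ j₀)⁻¹, hinv⟩ : A) := (isUnit_map_iff π _).mp (isUnit_iff_ne_zero.mpr h3)
    obtain ⟨y, hy⟩ := hu.exists_right_inv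
    have h4 : (γ j₀)⁻¹ * (y : K) = 1 := congrArg Subtype.val hy
    have h5 : (y : K) = γ j₀ := by
      field_simp at h4
      exact h4
    exact hγ (h5 ▸ y.2)
  rw [h2, map_zero, zero_mul] at h1
  have h3 : (HahnSeries.C ((⟨(γ j₀)⁻¹, hinv⟩ : A) : K) : ℒ K) *
      ∑ j, HahnSeries.C (γ j) * zK K (e j) =
      coeffMap A.subtype (∑ j, HahnSeries.C (d j) * zK A (e j)) := by
    rw [map_sum, Finset.mul_sum]
    refine Finset.sum_congr rfl fun j _ => ?_
    rw [map_mul, coeffMap_zK, coeffMap_C', ← mul_assoc, ← map_mul]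
    rfl
  rw [h3] at h1
  have h4 := (LR.of (π := π) _).unique h1
  rw [map_sum] at h4
  have h5 : ∀ j, coeffMap π (HahnSeries.C (d j) * zK A (e j)) =
      HahnSeries.C (π (d j)) * coeffMap (Int.castRingHom κ) (e j) := by
    intro j
    rw [map_mul, coeffMap_zK, coeffMap_C']
  rw [Finset.sum_congr rfl fun j _ => h5 j] at h4
  have hq0 : (q : ℤ) ≠ 0 := by exact_mod_cast hq.out.ne_zero
  have h6 := sat_independent (q := q) (fun a h => he q hq0 a h) _ h4 j₀
  have h7 : d j₀ = 1 := Subtype.ext (by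
    show (γ j₀)⁻¹ * γ j₀ = 1
    rw [inv_mul_cancel₀ hγ0])
  rw [h7, map_one] at h6
  exact one_ne_zero h6

theorem zK_eq_qK [Algebra ℚ K] (g : ℒ ℤ) : qK K (zK ℚ g) = zK K g := by
  rw [qK, zK, zK, coeffMap_coeffMap]
  congr 2
  exact RingHom.ext_int _ _

/-- **Rational lifts.** -/
theorem exists_rat_lift [IsLocalHom π] [Algebra ℚ K] [Algebra.IsAlgebraic ℚ K] (c : Coord π q M)
    {L : Subfield K}
    (hL : ∀ α : κ, ∃ a : A, (a : K) ∈ L ∧ π a = α) {f : modularFunctionFieldFullC κ M}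
    (hf : f ∈ affineRing κ c.τb) :
    ∃ x ∈ affineRing K c.τ, x ∈ ratF L M ∧ LR π (x : ℒ K) (f : ℒ κ) := by
  classical
  obtain ⟨x, hx, hxf⟩ := c.lift f hf
  obtain ⟨n, b, z, hz, hZ, hxz⟩ := exists_dec_regular c.gal hx
  obtain ⟨D, h, hD0, hDz⟩ := exists_common_denom z hz
  obtain ⟨r, e, he1, he2, he3⟩ := exists_sat_basis (Finset.univ.image h)
  have hDK : zK K D ≠ 0 := (map_ne_zero_iff _ (zK_injective K)).mpr hD0
  obtain ⟨c₀, hc₀, G, hc₀0, hG, hG0⟩ := exists_scale_PS (q := q) π (zK_mem_PS (L := L) D) hDK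
  have hC0 : (HahnSeries.C c₀ : ℒ K) ≠ 0 := by simpa using hc₀0
  have hDzK : ∀ i, zK K D * qK K (z i) = zK K (h i) := by
    intro i
    rw [← zK_eq_qK, ← map_mul, hDz, zK_eq_qK]
  choose a ha using fun i => he1 (h i) (Finset.mem_image_of_mem h (Finset.mem_univ i))
  -- the coefficients with respect to the saturated family
  let γ : Fin r → K := fun j => ∑ i, c₀ * b i * (a i j : K)
  have hγ : HahnSeries.C c₀ * zK K D * (x : ℒ K) = ∑ j, HahnSeries.C (γ j) * zK K (e j) := by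
    have h1 : ∀ i, HahnSeries.C c₀ * zK K D * (HahnSeries.C (b i) * qK K (z i)) =
        ∑ j, HahnSeries.C (c₀ * b i * (a i j : K)) * zK K (e j) := by
      intro i
      have h2 : HahnSeries.C c₀ * zK K D * (HahnSeries.C (b i) * qK K (z i)) =
          HahnSeries.C (c₀ * b i) * zK K (h i) := by
        rw [← hDzK, map_mul]; ring
      rw [h2, ha i, map_sum, Finset.mul_sum]
      refine Finset.sum_congr rfl fun j _ => ?_
      rw [map_zsmul, zsmul_eq_mul, map_mul _ (c₀ * b i), map_intCast]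
      ring
    rw [hxz, Finset.mul_sum, Finset.sum_congr rfl fun i _ => h1 i, Finset.sum_comm]
    refine Finset.sum_congr rfl fun j _ => ?_
    rw [← Finset.sum_mul, ← map_sum]
  have hLR1 : LR π (HahnSeries.C c₀ * zK K D * (x : ℒ K)) (coeffMap π G * (f : ℒ κ)) := by
    rw [← hG]
    exact (LR.of G).mul hxf
  rw [hγ] at hLR1
  have hγA := sat_comb_mem q he3 hLR1
  -- rational constants
  choose a' ha'L ha' using fun j => hL (π ⟨γ j, hγA j⟩)
  have hred : coeffMap π G * (f : ℒ κ) =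
      ∑ j, HahnSeries.C (π (a' j)) * zK κ (e j) := by
    have h1 : ∑ j, HahnSeries.C (γ j) * zK K (e j) =
        coeffMap A.subtype (∑ j, HahnSeries.C (⟨γ j, hγA j⟩ : A) * zK A (e j)) := by
      rw [map_sum]
      refine Finset.sum_congr rfl fun j _ => ?_
      rw [map_mul, coeffMap_zK, coeffMap_C']
      rfl
    rw [h1] at hLR1
    rw [hLR1.unique (LR.of _), map_sum]
    refine Finset.sum_congr rfl fun j _ => ?_
    rw [map_mul, coeffMap_zK, coeffMap_C', ha']
  -- the rational functions `e j / D`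
  choose m hm0 hm using he2
  have hrange : ((Finset.univ.image h : Finset (ℒ ℤ)) : Set (ℒ ℤ)) = Set.range h := by
    ext y; simp
  have hm' : ∀ j, ∃ β : Fin n → ℤ, ∑ i, β i • h i = m j • e j := by
    intro j
    have h1 := hm j
    rw [hrange] at h1
    exact (Submodule.mem_span_range_iff_exists_fun ℤ).mp h1
  choose β hβ using hm'
  choose Z hZτ hZz using hZ
  let E : Fin r → modularFunctionFieldFullC K M := fun j =>
    ∑ i, algebraMap K _ ((β j i : K) / (m j : K)) * Z i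
  have hEτ : ∀ j, E j ∈ affineRing K c.τ := fun j => Subalgebra.sum_mem _ fun i _ =>
    mul_mem (Subalgebra.algebraMap_mem _ _) (hZτ i)
  have hER : ∀ j, E j ∈ ratF L M := fun j => sum_mem fun i _ => mul_mem
    (const_mem_ratF (div_mem (intCast_mem _ _) (intCast_mem _ _))) (by
      obtain ⟨h1, h2⟩ := qK_mem_ratF (K := K) (L := L) (hz i)
      have h3 : Z i = ⟨qK K (z i), h1⟩ := Subtype.ext (hZz i)
      rw [h3]; exact h2)
  have hED : ∀ j, zK K D * (E j : ℒ K) = zK K (e j) := by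
    intro j
    have hmj : (HahnSeries.C (m j : K) : ℒ K) ≠ 0 := C_ne (by exact_mod_cast hm0 j)
    have h1 : (E j : ℒ K) = ∑ i, HahnSeries.C ((β j i : K) / (m j : K)) * qK K (z i) := by
      rw [AddSubmonoidClass.coe_finsetSum]
      refine Finset.sum_congr rfl fun i _ => ?_
      rw [MulMemClass.coe_mul, hZz, ModFun.C_eq_algebraMap]
      rfl
    apply mul_left_cancel₀ hmj
    have h2 : HahnSeries.C (m j : K) * zK K (e j) = zK K (m j • e j) := by
      rw [map_zsmul, zsmul_eq_mul, map_intCast]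
    rw [h2, ← hβ j, map_sum, h1, Finset.mul_sum, Finset.mul_sum]
    refine Finset.sum_congr rfl fun i _ => ?_
    rw [map_zsmul, zsmul_eq_mul, ← hDzK, map_div₀, map_intCast _ (β j i)]
    field_simp
  refine ⟨∑ j, algebraMap K _ ((a' j : K) / c₀) * E j,
    Subalgebra.sum_mem _ fun j _ => mul_mem (Subalgebra.algebraMap_mem _ _) (hEτ j),
    sum_mem fun j _ => mul_mem (const_mem_ratF (div_mem (ha'L j) hc₀)) (hER j), ?_⟩
  have h1 : ((∑ j, algebraMap K _ ((a' j : K) / c₀) * E j : modularFunctionFieldFullC K M) :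
      ℒ K) = coeffMap A.subtype (∑ j, HahnSeries.C (a' j) * zK A (e j)) /
        coeffMap A.subtype G := by
    rw [hG, eq_div_iff (mul_ne_zero hC0 hDK), AddSubmonoidClass.coe_finsetSum, Finset.sum_mul,
      map_sum]
    refine Finset.sum_congr rfl fun j _ => ?_
    rw [MulMemClass.coe_mul, map_mul, coeffMap_zK, coeffMap_C', ← hED j]
    have h2 : ((algebraMap K (modularFunctionFieldFullC K M) ((a' j : K) / c₀) :
        modularFunctionFieldFullC K M) : ℒ K) = HahnSeries.C (a' j : K) / HahnSeries.C c₀ := by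
      rw [← map_div₀, ModFun.C_eq_algebraMap]
      rfl
    rw [h2]
    show _ = HahnSeries.C (a' j : K) * _
    field_simp
  rw [h1]
  have h2 := LR.div (LR.of (π := π) (∑ j, HahnSeries.C (a' j) * zK A (e j))) (LR.of G) hG0
  have h3 : coeffMap π (∑ j, HahnSeries.C (a' j) * zK A (e j)) = coeffMap π G * (f : ℒ κ) := by
    rw [hred, map_sum]
    refine Finset.sum_congr rfl fun j _ => ?_
    rw [map_mul, coeffMap_zK, coeffMap_C']
  rw [h3, mul_div_cancel_left₀ _ hG0] at h2
  exact h2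

end Fermat.Agent.SSMod
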