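import Fermat.Agent.SSMod.ModEq
import Fermat.Agent.SSMod.RatLift
import Fermat.Agent.Models.NodeModel

/-!
# Nodes and cusps of the two-component model
-/

set_option autoImplicit false
set_option linter.unusedSectionVars false
set_option linter.style.haveILetI false
set_option linter.unusedVariables false
set_option synthInstance.maxHeartbeats 400000

noncomputable section

namespace Fermat.Agent.SSMod

open ModularCurve Fermat.Agent.GoodRed Fermat.Agent.Models Fermat.Agent.ModFun
open Fermat.Agent.GenusX0 Fermat.Agent.Curves Fermat.Agent.AnJac AlgebraicCurve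

local notation "ℒ" => LaurentSeries

/-- The `j`-charts have the lifting property. -/
structure JLift {K κ : Type*} [Field K] [Field κ] {A : ValuationSubring K} (π : A →+* κ)
    (M : ℕ) [NeZero M] [IsAlgClosed K] [IsAlgClosed κ] : Prop where
  lift : ∀ f ∈ affineRing κ (je κ M), ∃ x ∈ affineRing K (je K M), LR π (x : ℒ K) (f : ℒ κ)
  lift' : ∀ f ∈ affineRing κ (je κ M)⁻¹, ∃ x ∈ affineRing K (je K M)⁻¹, LR π (x : ℒ K) (f : ℒ κ)

variable {K κ : Type*} [Field K] [Field κ] {A : ValuationSubring K} {π : A →+* κ}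
  {q M : ℕ} [NeZero M] [IsLocalHom π] [hq : Fact q.Prime] [CharP κ q]
  [IsAlgClosed K] [IsAlgClosed κ] [CharZero K] [NeZero q]

/-- the coordinate `j` -/
def JLift.coord (h : JLift π M) (hqM : Nat.Coprime q M) : Coord π q M where
  τ := je K M
  τb := je κ M
  lr := LR_jq π
  tr := transcendental_je
  deg := (finrank_fullC K M (by exact_mod_cast NeZero.ne M)).trans
    (finrank_fullC κ M (cast_ne_zero_of_coprime (q := q) hqM)).symm
  gal := fun σ => galF_je σ
  frob := jqModC_pow_char
  lift := h.lift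
  lift' := h.lift'
  poles := by
    haveI : IsFunctionField K (modularFunctionFieldFullC K (q * M)) :=
      isFunctionField_fullC K (q * M) (by exact_mod_cast NeZero.ne (q * M))
    exact jA_mem_iff

theorem JLift.coord_t (h : JLift π M) (hqM : Nat.Coprime q M) :
    (h.coord hqM).t = jA K q M * jB K q M := rfl

/-! ### Frobenius on the function field of the special fibre -/

section Frob

variable (κ q) in
/-- the Frobenius of `κ` -/
def frob : κ ≃+* κ := frobeniusEquiv κ q

theorem pow_char_galF (y : modularFunctionFieldFullC κ M) :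
    (y : ℒ κ) ^ q = qExpand κ q ((galF M (frob κ q) y : modularFunctionFieldFullC κ M) : ℒ κ) := by
  rw [HeckeQ.laurent_pow_char q, coe_galF]
  rfl

theorem pow_char_symm (y : modularFunctionFieldFullC κ M) :
    ((galF M (frob κ q).symm y : modularFunctionFieldFullC κ M) : ℒ κ) ^ q =
      qExpand κ q (y : ℒ κ) := by
  rw [pow_char_galF, galF_symm]

end Frob

section Fun

variable [IsFunctionField K (modularFunctionFieldFullC K (q * M))]

theorem jA_ne_zero : jA K q M ≠ 0 := by
  intro h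
  have h1 := congrArg (Subtype.val : modularFunctionFieldFullC K (q * M) → ℒ K) h
  rw [coe_jA] at h1
  have h2 := congrArg (fun z => HahnSeries.coeff z (-1)) h1
  simp only [coeff_jqModC_neg_one] at h2
  exact one_ne_zero h2

theorem jB_ne_zero : jB K q M ≠ 0 := by
  rw [jB]
  refine (map_ne_zero (beta K q M)).mpr ?_
  intro h
  have h1 := congrArg (Subtype.val : modularFunctionFieldFullC K M → ℒ K) h
  have h2 := congrArg (fun z => HahnSeries.coeff z (-1)) h1
  have h3 : HahnSeries.coeff (jqModC K) (-1) = 0 := h2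
  rw [coeff_jqModC_neg_one] at h3
  exact one_ne_zero h3

theorem tJ_mem_iff (P : Place K (modularFunctionFieldFullC K (q * M))) :
    jA K q M * jB K q M ∈ P.toValuationSubring ↔ jA K q M ∈ P.toValuationSubring :=
  mul_mem_iff jA_ne_zero jB_ne_zero jA_mem_iff P

end Fun

variable {hπ : Function.Surjective π} (ι : K →+* ℂ) (hqM : Nat.Coprime q M)
  (hE : modularFunctionFieldFullC κ M = resField q hπ (q * M))

section TwoR

variable {ι hqM}

/-- residues on the first component -/
theorem two_true_exists {x : modularFunctionFieldFullC K (q * M)} {y : ℒ κ}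
    (h : LR π (x : ℒ K) y) : ∃ y' : modularFunctionFieldFullC κ M, (y' : ℒ κ) = y ∧
      x ∈ (two hπ ι hqM _ hE true).O ∧ (two hπ ι hqM _ hE true).r x = y' := by
  have hmem : y ∈ modularFunctionFieldFullC κ M := by
    have h3 : y ∈ resField q hπ (q * M) := ⟨_, x.2, h⟩
    exact hE.symm.le h3
  exact ⟨⟨y, hmem⟩, rfl, two_true_r ι hqM hE (y := ⟨y, hmem⟩) h⟩

/-- residues on the second component -/
theorem two_false_exists {x : modularFunctionFieldFullC K (q * M)} {y : ℒ κ}
    (h : LR π ((al ι hqM x : modularFunctionFieldFullC K (q * M)) : ℒ K) y) :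
    ∃ y' : modularFunctionFieldFullC κ M, (y' : ℒ κ) = y ∧
      x ∈ (two hπ ι hqM _ hE false).O ∧ (two hπ ι hqM _ hE false).r x = y' := by
  have hmem : y ∈ modularFunctionFieldFullC κ M := by
    have h3 : y ∈ resField q hπ (q * M) := ⟨_, (al ι hqM x).2, h⟩
    exact hE.symm.le h3
  exact ⟨⟨y, hmem⟩, rfl, two_false_r ι hqM hE (y := ⟨y, hmem⟩) h⟩

end TwoR

/-! ### the `Δ`-unit -/

theorem LR_al_uM : LR π ((al ι hqM (uM K q M) : modularFunctionFieldFullC K (q * M)) : ℒ K)
    (DeltaSer κ * qExpand κ q (DeltaInvSer κ)) := by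
  rw [al_uM]
  have := LR.of (π := π) (DeltaSer A * qExpand A q (DeltaInvSer A))
  rw [map_mul, map_mul, coeffMap_qExpand, coeffMap_qExpand, coeffMap_DeltaSer, coeffMap_DeltaSer,
    coeffMap_DeltaInvSer, coeffMap_DeltaInvSer] at this
  exact this

theorem delta_ne_zero : DeltaSer κ * qExpand κ q (DeltaInvSer κ) ≠ 0 := by
  refine mul_ne_zero (DeltaSer_ne_zero (k := κ)) ((map_ne_zero_iff _ (qExpand_injective q)).mpr ?_)
  rw [DeltaInvSer_eq]
  exact inv_ne_zero (DeltaSer_ne_zero (k := κ))

/-- the residue of the `Δ`-unit -/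
theorem exists_deltaR : ∃ h : modularFunctionFieldFullC κ M,
    (h : ℒ κ) = DeltaSer κ * qExpand κ q (DeltaInvSer κ) ∧ h ≠ 0 ∧
    (al ι hqM (uM K q M) ∈ (two hπ ι hqM _ hE true).O ∧
      (two hπ ι hqM _ hE true).r (al ι hqM (uM K q M)) = h) ∧
    (uM K q M ∈ (two hπ ι hqM _ hE false).O ∧ (two hπ ι hqM _ hE false).r (uM K q M) = h) := by
  obtain ⟨h, h1, h2⟩ := two_true_exists (hπ := hπ) (ι := ι) (hqM := hqM) hE (LR_al_uM ι hqM)
  refine ⟨h, h1, ?_, h2, two_false_r ι hqM hE (by rw [h1]; exact LR_al_uM ι hqM)⟩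
  rintro rfl
  exact delta_ne_zero h1.symm

/-! ### small constants -/

theorem q_base (hA : A.LiesOverPrime q) : (q : K) ∈ (baseRes π hπ).O ∧
    (baseRes π hπ).r (q : K) = 0 := by
  have h1 : (q : K) ∈ A := natCast_mem A q
  refine ⟨h1, ?_⟩
  rw [baseRes_r π hπ h1]
  have h2 : (⟨(q : K), h1⟩ : A) = (q : A) := rfl
  rw [h2, map_natCast, CharP.cast_eq_zero]

/-! ### the crossing data -/

variable [IsFunctionField K (modularFunctionFieldFullC K (q * M))]
  [hFκ : IsFunctionField κ (modularFunctionFieldFullC κ M)]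

omit [IsFunctionField K (modularFunctionFieldFullC K (q * M))] hFκ in
theorem jqModC_ne : jqModC κ ≠ 0 := fun h => by
  have h2 := congrArg (fun z => HahnSeries.coeff z (-1)) h
  simp only [coeff_jqModC_neg_one] at h2
  exact one_ne_zero h2

omit [IsFunctionField K (modularFunctionFieldFullC K (q * M))] hFκ in
theorem jq_ne_zero : je κ M ≠ 0 := fun h =>
  jqModC_ne (κ := κ) (congrArg (Subtype.val : modularFunctionFieldFullC κ M → ℒ κ) h)

theorem LR_jA : LR π ((jA K q M : modularFunctionFieldFullC K (q * M)) : ℒ K) (jqModC κ) := LR_jq π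

theorem LR_jB : LR π ((jB K q M : modularFunctionFieldFullC K (q * M)) : ℒ K)
    (qExpand κ q (jqModC κ)) := LR_qExpand (LR_jq π)

theorem r_true_div : jB K q M / jA K q M ^ q ∈ (two hπ ι hqM _ hE true).O ∧
    (two hπ ι hqM _ hE true).r (jB K q M / jA K q M ^ q) = 1 := by
  apply two_true_r ι hqM hE
  have h3 := LR.div (LR_jB (π := π) (q := q) (M := M)) (LR.pow (LR_jA (π := π) (q := q) (M := M)) q)
    (pow_ne_zero _ jqModC_ne)
  have hqne : qExpand κ q (jqModC κ) ≠ 0 :=
    (map_ne_zero_iff _ (qExpand_injective q)).mpr jqModC_ne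
  rw [jqModC_pow_char, div_self hqne] at h3
  exact h3

theorem r_false_div : jB K q M / jA K q M ^ q ∈ (two hπ ι hqM _ hE false).O ∧
    (two hπ ι hqM _ hE false).r (jB K q M / jA K q M ^ q) = je κ M / (je κ M ^ q) ^ q := by
  apply two_false_r ι hqM hE
  rw [map_div₀, map_pow, al_jA, al_jB]
  have hqne : qExpand κ q (jqModC κ) ≠ 0 :=
    (map_ne_zero_iff _ (qExpand_injective q)).mpr jqModC_ne
  have h3 := LR.div (LR_jA (π := π) (q := q) (M := M)) (LR.pow (LR_jB (π := π) (q := q) (M := M)) q)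
    (pow_ne_zero _ hqne)
  rw [← jqModC_pow_char] at h3
  exact h3

theorem cross [Algebra.IsAlgebraic ℤ K] (hA : A.LiesOverPrime q) (hr : GoodRed.RankOne π)
    (h : JLift π M) :
    Cross (two hπ ι hqM _ hE) (h.coord hqM).t q (jA K q M) (jB K q M) (je κ M) where
  rank := baseRes_rankOne π hπ hr
  commens := baseRes_commens π hπ hq.out hA
  incomp := two_incomp ι hqM hE
  good := (h.coord hqM).isGood ι hqM hE
  surj := (h.coord hqM).surj ι hqM hE
  surj' := (h.coord hqM).surj' ι hqM hE
  two_le := hq.out.two_le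
  t_eq := rfl
  a_ne := jA_ne_zero
  b_ne := jB_ne_zero
  j_ne := jq_ne_zero
  poles := jA_mem_iff
  growth := jB_div_mem
  r_t := fun i => ((h.coord hqM).r_t ι hqM hE i).2
  r_true := r_true_div ι hqM hE
  r_false := r_false_div ι hqM hE

/-! ### the lifting data -/

omit [IsFunctionField K (modularFunctionFieldFullC K (q * M))] in
theorem galF_symm_mem (f : modularFunctionFieldFullC κ M) (hf : f ∈ affineRing κ (je κ M)) :
    (galF M (frob κ q)).symm f ∈ affineRing κ (je κ M) := by
  rw [mem_affineRing] at hf ⊢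
  intro v hv
  obtain ⟨w, hw⟩ := exists_place_galF (N := M) (frob κ q).symm v
  have e : (galF M (frob κ q)).symm f = galF M (frob κ q).symm f := rfl
  rw [e]
  have key : ∀ g : modularFunctionFieldFullC κ M, g ∈ w.toValuationSubring ↔
      galF M (frob κ q).symm g ∈ v.toValuationSubring := by
    intro g
    rcases eq_or_ne g 0 with rfl | hg
    · rw [map_zero]
      exact ⟨fun _ => zero_mem _, fun _ => zero_mem _⟩
    · have hg' : galF M (frob κ q).symm g ≠ 0 := (map_ne_zero _).mpr hg
      rw [mem_iff_ord w hg, mem_iff_ord v hg', hw]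
  rw [← key]
  refine hf w ?_
  rw [key, galF_je]
  exact hv

attribute [-instance] DivisionRing.toRatAlgebra

theorem chart_alpha (hr : GoodRed.RankOne π) (h : JLift π M) {x : modularFunctionFieldFullC K M}
    (hx : x ∈ affineRing K (je K M)) {f : modularFunctionFieldFullC κ M}
    (hf : LR π (x : ℒ K) (f : ℒ κ)) :
    (alpha K q M x ∈ chart (two hπ ι hqM _ hE) (h.coord hqM).t ∧
      (two hπ ι hqM _ hE true).r (alpha K q M x) = f ∧
      (two hπ ι hqM _ hE false).r (alpha K q M x) = ((galF M (frob κ q)).symm f) ^ q) ∧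
    (beta K q M x ∈ chart (two hπ ι hqM _ hE) (h.coord hqM).t ∧
      (two hπ ι hqM _ hE false).r (beta K q M x) = f ∧
      (two hπ ι hqM _ hE true).r (beta K q M x) = ((galF M (frob κ q)).symm f) ^ q) := by
  haveI : IsFunctionField K (modularFunctionFieldFullC K M) :=
    isFunctionField_fullC K M (by exact_mod_cast NeZero.ne M)
  have h1 : LR π ((alpha K q M x : modularFunctionFieldFullC K (q * M)) : ℒ K) (f : ℒ κ) :=
    LR_alpha hf
  have h2 : LR π ((beta K q M x : modularFunctionFieldFullC K (q * M)) : ℒ K)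
      ((((galF M (frob κ q)).symm f) ^ q : modularFunctionFieldFullC κ M) : ℒ κ) := by
    have h3 := LR_beta (q := q) hf
    rw [← pow_char_symm] at h3
    exact h3
  have a1 := two_true_r (hπ := hπ) ι hqM hE h1
  have a2 := two_false_r (hπ := hπ) ι hqM hE (x := alpha K q M x) (by rw [al_alpha]; exact h2)
  have b1 := two_false_r (hπ := hπ) ι hqM hE (x := beta K q M x) (by rw [al_beta]; exact h1)
  have b2 := two_true_r (hπ := hπ) ι hqM hE h2
  have hP : ∀ P : Place K (modularFunctionFieldFullC K (q * M)),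
      (h.coord hqM).t ∈ P.toValuationSubring → jA K q M ∈ P.toValuationSubring :=
    fun P hP => (tJ_mem_iff P).mp hP
  refine ⟨⟨⟨fun P hPt => map_affineRing (alpha K q M) hx P (hP P hPt), fun b => ?_⟩, a1.2, a2.2⟩,
    ⟨fun P hPt => map_affineRing (beta K q M) hx P ((jA_mem_iff P).mp (hP P hPt)),
      fun b => ?_⟩, b1.2, b2.2⟩
  · cases b
    · exact a2.1
    · exact a1.1
  · cases b
    · exact b1.1
    · exact b2.1

theorem hval_ratF {L : Subfield K} (hunr : Unram A q L) (hA : A.LiesOverPrime q)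
    (Y : modularFunctionFieldFullC K (q * M)) (hY : Y ∈ ratF L (q * M)) (hY0 : Y ≠ 0) :
    ∃ n : ℤ, (two hπ ι hqM _ hE false).r (Y / algebraMap K _ (q : K) ^ n) ≠ 0 := by
  have hq0 : (q : K) ≠ 0 := by exact_mod_cast hq.out.ne_zero
  have h1 := coe_mem_RatS (al_mem_ratF ι hqM hY)
  have h2 : ((al ι hqM Y : modularFunctionFieldFullC K (q * M)) : ℒ K) ≠ 0 := by
    intro h
    apply hY0
    have h3 : al ι hqM Y = 0 := Subtype.ext h
    exact (map_eq_zero_iff _ (al ι hqM).injective).mp h3
  obtain ⟨c, hcL, hc0, y, hy0, hcy⟩ := exists_scale_rat (π := π) (q := q) h1 h2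
  obtain ⟨n, hn⟩ := hunr c hcL hc0
  have hcF : algebraMap K (modularFunctionFieldFullC K (q * M)) c ≠ 0 := by simpa using hc0
  obtain ⟨y', hy', -, h3⟩ := two_false_exists (hπ := hπ) (ι := ι) (hqM := hqM) hE
    (x := algebraMap K _ c * Y) (y := y) (by
      rw [map_mul, al_const, MulMemClass.coe_mul]
      rw [ModFun.C_eq_algebraMap] at hcy
      exact hcy)
  have h4 : (two hπ ι hqM _ hE false).r (algebraMap K _ c * Y) ≠ 0 := by
    rw [h3]
    rintro rfl
    exact hy0 hy'.symm
  have h5 : (baseRes π hπ).r ((q : K) ^ n / c) ≠ 0 := by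
    rw [baseRes_ne_zero_iff, map_div₀, map_zpow₀, hn, div_self]
    exact zpow_ne_zero _ ((Valuation.ne_zero_iff _).mpr hq0)
  refine ⟨-n, ?_⟩
  have e : Y / algebraMap K (modularFunctionFieldFullC K (q * M)) (q : K) ^ (-n) =
      (algebraMap K _ c * Y) * algebraMap K _ ((q : K) ^ n / c) := by
    rw [map_div₀, map_zpow₀, zpow_neg, div_inv_eq_mul]
    field_simp
  rw [e]
  exact Res.r_mul_ne_zero h4 ((two hπ ι hqM _ hE false).r_algebraMap_ne_zero h5)

theorem crossLift [Algebra ℚ K] [Algebra.IsAlgebraic ℚ K] (hA : A.LiesOverPrime q)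
    (hr : GoodRed.RankOne π) (h : JLift π M) {L : Subfield K} (hunr : Unram A q L)
    (hL : ∀ α : κ, ∃ a : A, (a : K) ∈ L ∧ π a = α) :
    CrossLift (two hπ ι hqM _ hE) (h.coord hqM).t q (je κ M) (ratF L (q * M))
      (galF M (frob κ q)) (al ι hqM (uM K q M)) (uM K q M) (q : K) where
  φ_mem := galF_symm_mem
  lift f hf := by
    obtain ⟨x, hx, hxL, hxf⟩ := exists_rat_lift (h.coord hqM) hL hf
    obtain ⟨⟨h1, h2, h3⟩, h4, h5, h6⟩ := chart_alpha (hπ := hπ) ι hqM hE hr h hx hxf
    exact ⟨_, _, alpha_mem_ratF hxL, beta_mem_ratF hxL, h1, h4, h2, h5, h3, h6⟩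
  q_mem := (q_base hA).1
  q_r := (q_base hA).2
  q_ne := by exact_mod_cast hq.out.ne_zero
  q_rat := const_mem_ratF (natCast_mem L q)
  hval := hval_ratF ι hqM hE hunr hA
  ug := uM_mul_al ι hqM
  g_r := by
    obtain ⟨h', -, h0, ⟨-, h1⟩, -⟩ := exists_deltaR (hπ := hπ) ι hqM hE
    rw [h1]; exact h0
  u_r := by
    obtain ⟨h', -, h0, -, -, h1⟩ := exists_deltaR (hπ := hπ) ι hqM hE
    rw [h1]; exact h0
  reg M' P hP := by
    have h1 : jA K q M ∈ P.toValuationSubring := (tJ_mem_iff P).mp hP.1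
    exact ⟨al_uM_mem ι hqM P h1, uM_mem P h1⟩

end Fermat.Agent.SSMod
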