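import Fermat.Agent.SSMod.Coord

/-!
# Decomposition of functions into rational ones
-/

set_option autoImplicit false
set_option linter.unusedSectionVars false
set_option linter.style.haveILetI false
set_option linter.unusedVariables false
set_option synthInstance.maxHeartbeats 400000

noncomputable section

namespace Fermat.Agent.SSMod

open ModularCurve Fermat.Agent.GoodRed Fermat.Agent.Models Fermat.Agent.ModFun
open Fermat.Agent.GenusX0 Fermat.Agent.Curves Fermat.Agent.AnJac AlgebraicCurve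

local notation "ℒ" => LaurentSeries

attribute [-instance] DivisionRing.toRatAlgebra

variable {K : Type*} [Field K] [Algebra ℚ K]

/-- base change of rational series -/
abbrev qK (K : Type*) [Field K] [Algebra ℚ K] : ℒ ℚ →+* ℒ K := coeffMap (algebraMap ℚ K)

/-- the field of rational functions inside `K((T))` -/
def F0 (K : Type*) [Field K] [Algebra ℚ K] (M : ℕ) : Subfield (ℒ K) :=
  (modularFunctionFieldFullC ℚ M).toSubfield.map (qK K)

theorem mem_F0 {M : ℕ} {x : ℒ K} :
    x ∈ F0 K M ↔ ∃ z ∈ modularFunctionFieldFullC ℚ M, qK K z = x := Iff.rfl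

theorem qK_genx (d : ℕ) (h : d ≠ 0) : qK K (genx ℚ d h) = genx K d h := by
  haveI : NeZero d := ⟨h⟩
  exact coeffMap_jqNModC (f := algebraMap ℚ K) d

theorem qK_C (c : ℚ) : qK K (HahnSeries.C c) = HahnSeries.C (algebraMap ℚ K c) :=
  coeffMap_C' _ _

/-- the constants -/
def constM (K : Type*) [Field K] : Submonoid (ℒ K) :=
  MonoidHom.mrange (HahnSeries.C : K →+* ℒ K).toMonoidHom

theorem exists_dec_aux [Algebra.IsAlgebraic ℚ K] {M : ℕ} {x : ℒ K}
    (hx : x ∈ modularFunctionFieldFullC K M) :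
    x ∈ Submodule.span (F0 K M) (constM K : Set (ℒ K)) := by
  have halg : ∀ y ∈ (constM K : Set (ℒ K)), IsAlgebraic (F0 K M) y := by
    rintro _ ⟨c, rfl⟩
    obtain ⟨p, hp0, hp⟩ := Algebra.IsAlgebraic.isAlgebraic (R := ℚ) c
    let φ : ℚ →+* F0 K M := ((HahnSeries.C : K →+* ℒ K).comp (algebraMap ℚ K)).codRestrict
      (F0 K M).toSubring (fun r => ⟨algebraMap ℚ _ r, IntermediateField.algebraMap_mem _ r, by
        show qK K (algebraMap ℚ (ℒ ℚ) r) = _
        rw [← ModFun.C_eq_algebraMap, qK_C]; rfl⟩)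
    refine ⟨p.map φ, (Polynomial.map_ne_zero_iff φ.injective).mpr hp0, ?_⟩
    rw [Polynomial.aeval_def, Polynomial.eval₂_map]
    have h1 : (algebraMap (F0 K M) (ℒ K)).comp φ =
        (HahnSeries.C : K →+* ℒ K).comp (algebraMap ℚ K) := rfl
    rw [h1]
    have h2 := congrArg (HahnSeries.C : K →+* ℒ K) hp
    rw [map_zero, Polynomial.aeval_def, Polynomial.hom_eval₂] at h2
    exact h2
  have h1 : x ∈ IntermediateField.adjoin (F0 K M) (constM K : Set (ℒ K)) := by
    induction hx using IntermediateField.adjoin_induction with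
    | mem y hy =>
      obtain ⟨d, ⟨hd⟩, hdN, rfl⟩ := hy
      have h2 : genx K d hd ∈ F0 K M := ⟨genx ℚ d hd,
        IntermediateField.subset_adjoin ℚ _ ⟨d, ⟨hd⟩, hdN, rfl⟩, qK_genx d hd⟩
      exact (IntermediateField.adjoin (F0 K M) (constM K : Set (ℒ K))).algebraMap_mem ⟨_, h2⟩
    | algebraMap c =>
      rw [← ModFun.C_eq_algebraMap]
      exact IntermediateField.subset_adjoin _ _ ⟨c, rfl⟩
    | add y y' _ _ h h' => exact add_mem h h'
    | mul y y' _ _ h h' => exact mul_mem h h'
    | inv y _ h => exact inv_mem h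
  have h2 := IntermediateField.adjoin_toSubalgebra_of_isAlgebraic (F := F0 K M) halg
  have h3 : x ∈ (IntermediateField.adjoin (F0 K M) (constM K : Set (ℒ K))).toSubalgebra := h1
  rw [h2] at h3
  have h4 : x ∈ Subalgebra.toSubmodule (Algebra.adjoin (F0 K M) (constM K : Set (ℒ K))) := h3
  rw [Algebra.adjoin_eq_span, Submonoid.closure_eq] at h4
  exact h4

theorem exists_dec [Algebra.IsAlgebraic ℚ K] {M : ℕ} {x : ℒ K}
    (hx : x ∈ modularFunctionFieldFullC K M) :
    ∃ (n : ℕ) (c : Fin n → K) (z : Fin n → ℒ ℚ), (∀ i, z i ∈ modularFunctionFieldFullC ℚ M) ∧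
      x = ∑ i, HahnSeries.C (c i) * qK K (z i) := by
  have h := exists_dec_aux hx
  clear hx
  induction h using Submodule.span_induction with
  | mem y hy =>
    obtain ⟨c, rfl⟩ := hy
    refine ⟨1, fun _ => c, fun _ => 1, fun _ => one_mem _, ?_⟩
    rw [Fin.sum_univ_one, map_one, mul_one]
    rfl
  | zero => exact ⟨0, fun _ => 0, fun _ => 0, fun _ => zero_mem _, by simp⟩
  | add y y' _ _ h h' =>
    obtain ⟨n, c, z, hz, rfl⟩ := h
    obtain ⟨n', c', z', hz', rfl⟩ := h'
    refine ⟨n + n', Fin.append c c', Fin.append z z', fun i => ?_, ?_⟩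
    · refine Fin.addCases (fun i => ?_) (fun i => ?_) i
      · rw [Fin.append_left]; exact hz i
      · rw [Fin.append_right]; exact hz' i
    · rw [Fin.sum_univ_add]
      simp only [Fin.append_left, Fin.append_right]
  | smul a y _ h =>
    obtain ⟨n, c, z, hz, rfl⟩ := h
    obtain ⟨_, w, hw, rfl⟩ := a
    refine ⟨n, c, fun i => w * z i, fun i => mul_mem hw (hz i), ?_⟩
    show qK K w * _ = _
    rw [Finset.mul_sum]
    refine Finset.sum_congr rfl fun i _ => ?_
    rw [map_mul]
    ring

/-- decomposition along a basis of a number field -/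
theorem exists_dec_basis [Algebra.IsAlgebraic ℚ K] {M : ℕ} {x : ℒ K}
    (hx : x ∈ modularFunctionFieldFullC K M) :
    ∃ (L : IntermediateField ℚ K) (_ : FiniteDimensional ℚ L),
      ∀ {ι : Type} [Fintype ι] (b : Module.Basis ι ℚ L), ∃ z : ι → ℒ ℚ,
        (∀ i, z i ∈ modularFunctionFieldFullC ℚ M) ∧
        x = ∑ i, HahnSeries.C (b i : K) * qK K (z i) := by
  obtain ⟨n, c, z, hz, rfl⟩ := exists_dec hx
  refine ⟨IntermediateField.adjoin ℚ (Set.range c), ?_, fun {ι} _ b => ?_⟩
  · exact IntermediateField.finiteDimensional_adjoin (fun x _ =>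
      (Algebra.IsAlgebraic.isAlgebraic x).isIntegral)
  · let c' : Fin n → IntermediateField.adjoin ℚ (Set.range c) := fun i =>
      ⟨c i, IntermediateField.subset_adjoin ℚ _ ⟨i, rfl⟩⟩
    refine ⟨fun k => ∑ i, HahnSeries.C (b.repr (c' i) k) * z i, fun k => sum_mem fun i _ =>
      mul_mem ?_ (hz i), ?_⟩
    · rw [ModFun.C_eq_algebraMap]
      exact IntermediateField.algebraMap_mem _ _
    · have h1 : ∀ i, c i = ∑ k, algebraMap ℚ K (b.repr (c' i) k) * (b k : K) := by
        intro i
        have h2 := congrArg Subtype.val (b.sum_repr (c' i))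
        rw [IntermediateField.coe_sum] at h2
        refine (h2.symm : c i = _).trans (Finset.sum_congr rfl fun k _ => ?_)
        rw [IntermediateField.coe_smul, Algebra.smul_def]
      have h3 : ∀ i, (HahnSeries.C (c i) : ℒ K) * qK K (z i) =
          ∑ k, HahnSeries.C (b k : K) * qK K (HahnSeries.C (b.repr (c' i) k) * z i) := by
        intro i
        conv_lhs => rw [h1 i, map_sum, Finset.sum_mul]
        refine Finset.sum_congr rfl fun k _ => ?_
        rw [map_mul, map_mul, qK_C]
        ring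
      rw [Finset.sum_congr rfl fun i _ => h3 i, Finset.sum_comm]
      refine Finset.sum_congr rfl fun k _ => ?_
      rw [map_sum, Finset.mul_sum]

/-- functions regular where an invariant function is regular are stable under automorphisms -/
theorem galF_mem_affineRing [IsAlgClosed K] [CharZero K] {M : ℕ} [NeZero M]
    {τ x : modularFunctionFieldFullC K M}
    (σ : K ≃+* K) (hτ : galF M σ τ = τ) (hx : x ∈ affineRing K τ) :
    galF M σ x ∈ affineRing K τ := by
  intro P hP
  obtain ⟨w, hw⟩ := exists_place_galF σ P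
  rcases eq_or_ne x 0 with rfl | hx0
  · rw [map_zero]; exact zero_mem _
  have h1 : τ ∈ w.toValuationSubring := by
    rcases eq_or_ne τ 0 with rfl | hτ0
    · exact zero_mem _
    · rw [mem_iff_ord w hτ0, hw, hτ]
      exact (mem_iff_ord P hτ0).mp hP
  have h2 := (mem_iff_ord w hx0).mp (hx w h1)
  rw [hw] at h2
  exact (mem_iff_ord P ((map_ne_zero _).mpr hx0)).mpr h2

/-- **Decomposition of regular functions into rational regular functions.** -/
theorem exists_dec_regular [Algebra.IsAlgebraic ℚ K] [IsAlgClosed K] [CharZero K] {M : ℕ}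
    [NeZero M] {τ x : modularFunctionFieldFullC K M}
    (hτ : ∀ σ : K ≃+* K, galF M σ τ = τ) (hx : x ∈ affineRing K τ) :
    ∃ (n : ℕ) (c : Fin n → K) (z : Fin n → ℒ ℚ), (∀ i, z i ∈ modularFunctionFieldFullC ℚ M) ∧
      (∀ i, ∃ Z ∈ affineRing K τ, (Z : ℒ K) = qK K (z i)) ∧
      (x : ℒ K) = ∑ i, HahnSeries.C (c i) * qK K (z i) := by
  classical
  obtain ⟨L, hL, hdec⟩ := exists_dec_basis x.2
  let b := Module.finBasis ℚ L
  have hnd := traceForm_nondegenerate ℚ L
  let b' := (Algebra.traceForm ℚ L).dualBasis hnd b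
  obtain ⟨z, hz, hxz⟩ := hdec b
  refine ⟨_, fun i => (b i : K), z, hz, fun k => ?_, hxz⟩
  haveI : Normal ℚ K := normal_iff.mpr fun y =>
    ⟨(Algebra.IsAlgebraic.isAlgebraic y).isIntegral, IsAlgClosed.splits _⟩
  -- lifts of embeddings
  have hlift : ∀ σ : L →ₐ[ℚ] K, ∃ s : K ≃+* K, ∀ y : L, s (y : K) = σ y := by
    intro σ
    let s := AlgHom.liftNormal σ K
    refine ⟨(AlgEquiv.ofBijective s (Algebra.IsAlgebraic.algHom_bijective s)).toRingEquiv,
      fun y => ?_⟩
    exact AlgHom.liftNormal_commutes σ K y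
  choose s hs using hlift
  refine ⟨∑ σ : L →ₐ[ℚ] K, algebraMap K _ (σ (b' k)) * galF M (s σ) x,
    Subalgebra.sum_mem _ fun σ _ => mul_mem (Subalgebra.algebraMap_mem _ _)
      (galF_mem_affineRing (s σ) (hτ _) hx), ?_⟩
  have h1 : ∀ σ : L →ₐ[ℚ] K, ((algebraMap K (modularFunctionFieldFullC K M) (σ (b' k)) *
      galF M (s σ) x : modularFunctionFieldFullC K M) : ℒ K) =
      ∑ l, HahnSeries.C (σ (b' k * b l)) * qK K (z l) := by
    intro σ
    have h2 : ((galF M (s σ) x : modularFunctionFieldFullC K M) : ℒ K) =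
        ∑ l, HahnSeries.C (σ (b l)) * qK K (z l) := by
      rw [coe_galF, hxz, map_sum]
      refine Finset.sum_congr rfl fun l _ => ?_
      rw [map_mul, coeffMap_C', coeffMap_coeffMap]
      congr 2
      · exact hs σ (b l)
      · rw [RingHom.ext_rat ((s σ : K →+* K).comp (algebraMap ℚ K)) (algebraMap ℚ K)]
    rw [MulMemClass.coe_mul, h2, Finset.mul_sum]
    refine Finset.sum_congr rfl fun l _ => ?_
    rw [map_mul, map_mul, ← mul_assoc]
    congr 2
    exact (ModFun.C_eq_algebraMap K _).symm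
  rw [AddSubmonoidClass.coe_finsetSum, Finset.sum_congr rfl fun σ _ => h1 σ, Finset.sum_comm]
  have h3 : ∀ l, ∑ σ : L →ₐ[ℚ] K, (HahnSeries.C (σ (b' k * b l)) : ℒ K) * qK K (z l) =
      if l = k then qK K (z l) else 0 := by
    intro l
    rw [← Finset.sum_mul, ← map_sum, ← trace_eq_sum_embeddings K (x := b' k * b l)]
    have h4 : Algebra.trace ℚ L (b' k * b l) = if l = k then 1 else 0 := by
      have := LinearMap.BilinForm.apply_dualBasis_left hnd b k l
      rw [Algebra.traceForm_apply] at this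
      exact this
    rw [h4]
    split_ifs with h
    · rw [map_one, map_one, one_mul]
    · rw [map_zero, map_zero, zero_mul]
  rw [Finset.sum_congr rfl fun l _ => h3 l, Finset.sum_ite_eq' Finset.univ k, if_pos (Finset.mem_univ _)]

end Fermat.Agent.SSMod
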