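import Fermat.Agent.SSMod.Comps
import Fermat.Agent.Models.Center
import Fermat.Agent.GenusX0.Places

/-!
# The residue field of the Gauss valuation of level `qM`
-/

set_option autoImplicit false
set_option linter.unusedSectionVars false
set_option linter.style.haveILetI false
set_option linter.unusedVariables false

noncomputable section

namespace Fermat.Agent.SSMod

open ModularCurve Fermat.Agent.GoodRed Fermat.Agent.Models Fermat.Agent.ModFun
open Fermat.Agent.GenusX0 Fermat.Agent.Curves Fermat.Agent.AnJac AlgebraicCurve

local notation "ℒ" => LaurentSeries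

/-- `[F : k(x^m)] = m [F : k(x)]` -/
theorem finrank_pow {k F : Type*} [Field k] [Field F] [Algebra k F] [IsAlgClosed k]
    [IsFunctionField k F] {x : F} (hx : Transcendental k x) {m : ℕ} (hm : 0 < m) :
    Transcendental k (x ^ m) ∧ Module.finrank (IntermediateField.adjoin k {x ^ m}) F =
      m * Module.finrank (IntermediateField.adjoin k {x}) F := by
  refine finrank_of_poles hx hm (fun P hP => pow_mem hP m) fun P hP => ?_
  rw [ord_pow]

variable {K κ : Type*} [Field K] [Field κ] {A : ValuationSubring K} {π : A →+* κ}
  {q M : ℕ} [NeZero M] [IsLocalHom π] [hq : Fact q.Prime] [CharP κ q]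
  [IsAlgClosed K] [IsAlgClosed κ] [CharZero K] [NeZero q]

theorem cast_ne_zero_of_coprime (hqM : Nat.Coprime q M) : (M : κ) ≠ 0 := by
  rw [Ne, CharP.cast_eq_zero_iff κ q]
  exact (Nat.Prime.coprime_iff_not_dvd hq.out).mp hqM

theorem dedekindPsi_qM (hqM : Nat.Coprime q M) :
    dedekindPsi (q * M) = (q + 1) * dedekindPsi M := by
  have h := dedekindPsi_step q hq.out 0 M ((Nat.Prime.coprime_iff_not_dvd hq.out).mp hqM)
  rw [zero_add, pow_one, pow_zero, one_mul, if_pos rfl, mul_comm (dedekindPsi M)] at h
  exact h

theorem alpha_je (K : Type*) [Field K] : alpha K q M (je K M) = je K (q * M) :=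
  Subtype.ext (coe_alpha _)

theorem LR_alpha {x : modularFunctionFieldFullC K M} {y : ℒ κ} (h : LR π (x : ℒ K) y) :
    LR π ((alpha K q M x : modularFunctionFieldFullC K (q * M)) : ℒ K) y := by
  rw [coe_alpha]; exact h

theorem LR_beta {x : modularFunctionFieldFullC K M} {y : ℒ κ} (h : LR π (x : ℒ K) y) :
    LR π ((beta K q M x : modularFunctionFieldFullC K (q * M)) : ℒ K) (qExpand κ q y) := by
  rw [coe_beta]; exact LR_qExpand h

theorem LR_je (M : ℕ) : LR π ((je K M : modularFunctionFieldFullC K M) : ℒ K) (jqModC κ) := LR_jq π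

variable (hπ : Function.Surjective π) (ι : K →+* ℂ) (hqM : Nat.Coprime q M)

theorem fullC_le_resField' : modularFunctionFieldFullC κ M ≤ resField q hπ (q * M) :=
  (full_degeneracyC_le κ (dvd_mul_left M q)).trans (fullC_le_resField q hπ (q * M))

/-- inclusion as an algebra map -/
def inclAlg {k Ω : Type*} [Field k] [Field Ω] [Algebra k Ω] {E E' : IntermediateField k Ω}
    (h : E ≤ E') : E →ₐ[k] E' where
  toFun x := ⟨x, h x.2⟩
  map_one' := rfl
  map_mul' x y := rfl
  map_zero' := rfl
  map_add' x y := rfl
  commutes' c := rfl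

include ι hqM in
theorem resField_eq (hr : GoodRed.RankOne π) :
    resField q hπ (q * M) = modularFunctionFieldFullC κ M := by
  haveI := isFunctionField_fullC κ M (cast_ne_zero_of_coprime (q := q) hqM)
  haveI : IsFunctionField K (modularFunctionFieldFullC K (q * M)) :=
    isFunctionField_fullC K (q * M) (by exact_mod_cast NeZero.ne (q * M))
  haveI : Infinite κ := IsAlgClosed.instInfinite
  have hB : (baseRes π hπ).RankOne := baseRes_rankOne π hπ hr
  have hC := two_incomp (hπ := hπ) ι hqM (E := resField q hπ (q * M)) rfl
  have htrb : Transcendental κ (je κ M) := transcendental_je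
  have htr : Transcendental K (alpha K q M (je K M)) := by
    rw [alpha_je]; exact transcendental_je
  have hle := fullC_le_resField' (K := K) (π := π) (q := q) (M := M) hπ
  have h1 := two_true_r ι hqM (E := resField q hπ (q * M)) rfl
    (x := alpha K q M (je K M)) (y := inclAlg hle (je κ M)) (LR_alpha (LR_je M))
  have h2 := two_false_r ι hqM (E := resField q hπ (q * M)) rfl
    (x := alpha K q M (je K M)) (y := inclAlg hle ((je κ M) ^ q)) (by
      rw [al_alpha]
      have h := LR_beta (K := K) (π := π) (q := q) (M := M) (LR_je M)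
      rw [← jqModC_pow_char] at h
      exact h)
  have hp := finrank_pow htrb hq.out.pos
  have hsurj := residue_surjective_of_deg (𝓕 := fun _ : Bool => resField q hπ (q * M))
    (C := two hπ ι hqM (resField q hπ (q * M)) rfl) hB hC htr
    (fun b => by cases b; exacts [h2.1, h1.1])
    (𝓔 := fun _ : Bool => modularFunctionFieldFullC κ M) (fun _ => inclAlg hle)
    (fun b => if b then je κ M else (je κ M) ^ q)
    (fun b => by cases b; exacts [h2.2.symm, h1.2.symm])
    (fun b => by cases b; exacts [hp.1, htrb])
    (by
      rw [Fintype.sum_bool, if_pos rfl, if_neg (by simp), hp.2, alpha_je]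
      have e1 : Module.finrank (IntermediateField.adjoin K {je K (q * M)})
          (modularFunctionFieldFullC K (q * M)) = dedekindPsi (q * M) :=
        finrank_fullC K (q * M) (by exact_mod_cast NeZero.ne (q * M))
      have e2 : Module.finrank (IntermediateField.adjoin κ {je κ M})
          (modularFunctionFieldFullC κ M) = dedekindPsi M :=
        finrank_fullC κ M (cast_ne_zero_of_coprime (q := q) hqM)
      rw [e1, e2, dedekindPsi_qM hqM]
      apply le_of_eq
      ring) true
  refine le_antisymm (fun y hy => ?_) hle
  obtain ⟨x, hx⟩ := hsurj ⟨y, hy⟩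
  have h3 : (x : ℒ κ) = y := congrArg Subtype.val hx
  rw [← h3]
  exact x.2

end Fermat.Agent.SSMod
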