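import Fermat.Agent.SSMod.RhoUnip
import Fermat.Agent.SSMod.TraceDet
import Fermat.Prelude.Def_GaloisRep_LocalConditions

/-!
# S34 from unipotence of inertia on the Tate module
-/

set_option autoImplicit false
set_option maxHeartbeats 400000

namespace Fermat.Agent.SSMod

open Fermat.Agent.DefRing IsLocalRing Matrix Fermat.Agent.GalRep Fermat.Agent.GalRep.HData
open CuspForm Polynomial Fermat.Agent.AnJac Fermat.Agent.HeckeQ

local notation "Qbar" => AlgebraicClosure ℚ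
local notation "GQ" => Qbar ≃ₐ[ℚ] Qbar

section Th

variable {N p : ℕ} [Fact p.Prime] {D : HData N p} {S : Set ℕ}

theorem th_of_unip {σ : GQ} (hc : cycP p σ = 1) (h : D.ρ σ * D.ρ σ + 1 = 2 • D.ρ σ) :
    D.th σ = castHom D.r ℤ_[p] ((2 : D.TT S) : Matrix (Fin D.r) (Fin D.r) ℤ) := by
  have h1 : ((2 : D.TT S) : Matrix (Fin D.r) (Fin D.r) ℤ) = 2 := rfl
  rw [h1, map_ofNat, th, hc, one_smul]
  have h2 := congrArg (fun X => D.ρ σ⁻¹ * X) h
  simp only [mul_add, mul_one, ← mul_assoc, rho_inv_mul, one_mul] at h2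
  rw [h2, mul_smul_comm, rho_inv_mul, nsmul_eq_mul, mul_one]
  rfl

end Th

section Wrap

variable {p : ℕ} {N : ℕ} [NeZero N] {S : Finset ℕ}
  {𝒪 : Type} [CommRing 𝒪] [IsDomain 𝒪] [IsDiscreteValuationRing 𝒪]
  [IsAdicComplete (IsLocalRing.maximalIdeal 𝒪) 𝒪]
  {θ : CuspForm.heckeAlgebra N 2 (↑S : Set ℕ) →+* IsLocalRing.ResidueField 𝒪}
  {T : Type} [CommRing T] [IsLocalRing T] [IsNoetherianRing T]
  [IsAdicComplete (IsLocalRing.maximalIdeal T) T] [Algebra 𝒪 T] [IsLocalHom (algebraMap 𝒪 T)]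
  [Module.Finite 𝒪 T] [Module.Free 𝒪 T]

theorem repMat_frobCond [Fact p.Prime] (D : HData N p) (hD : D.Link)
    (H : CuspForm.HeckeGaloisRepDatum N (↑S : Set ℕ) 𝒪 θ T)
    (b : Module.Basis (Fin 2) T H.ρ.V) :
    HData.FrobCond (H.π.comp (HData.Phi (↑S : Set ℕ) hD)) (repMat H.ρ b) := by
  intro ℓ hℓ hℓN hℓS A hA τ hτ
  have hℓN' : ¬ ℓ ∣ N := fun h => hℓN (h.mul_right p)
  have h1 := H.charpoly_frob ℓ hℓ hℓN' hℓS A hA τ hτ
  have h2 : (repMat H.ρ b τ).charpoly =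
      X ^ 2 - C (H.π (heckeAlgebra.T hℓ hℓN' hℓS)) * X + C ((ℓ : T)) := by
    rw [repMat_apply, LinearMap.charpoly_toMatrix, h1]
  rw [Matrix.charpoly_fin_two] at h2
  rw [RingHom.comp_apply, HData.Phi_T _ hD hℓ hℓN hℓS]
  constructor
  · have h3 := congrArg (fun P => P.coeff 1) h2
    simp only [coeff_add, coeff_sub, coeff_X_pow, coeff_C_mul, coeff_X_one, mul_one,
      coeff_C_succ, add_zero, if_neg (by norm_num : ¬ (1 : ℕ) = 2), zero_sub, neg_inj] at h3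
    exact h3
  · have h3 := congrArg (fun P => P.coeff 0) h2
    simp only [coeff_add, coeff_sub, coeff_X_pow, coeff_C_mul, coeff_X_zero, mul_zero,
      coeff_C_zero, sub_zero, zero_add] at h3
    simpa using h3

/-- **S34** from the lifting property of the `j`-charts at `2` and `3`. -/
theorem s34_of_JL23 (HJ : JL23) (hp : p.Prime) (hp𝒪 : (p : 𝒪) ∈ IsLocalRing.maximalIdeal 𝒪)
    (H : CuspForm.HeckeGaloisRepDatum N (↑S : Set ℕ) 𝒪 θ T)
    (q : ℕ) (hq : q.Prime) (hqp : q ≠ p) (hqN : q ∣ N) (hq2 : ¬ q ^ 2 ∣ N) :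
    H.ρ.IsUnipotentOnInertiaAt q := by
  haveI : Fact p.Prime := ⟨hp⟩
  intro A hA σ hσ
  let b : Module.Basis (Fin 2) T H.ρ.V := Module.finBasisOfFinrankEq T H.ρ.V H.ρ.finrank_eq
  have hpT : (p : T) ∈ maximalIdeal T := by
    have h1 : algebraMap 𝒪 T (p : 𝒪) ∈ maximalIdeal T := by
      have : (p : 𝒪) ∈ nonunits 𝒪 := hp𝒪
      exact fun hu => this ((isUnit_map_iff (algebraMap 𝒪 T) _).mp hu)
    rwa [map_natCast] at h1
  let D : HData N p := hdata N p (esHyp N p)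
  have hD : D.Link := hdata_link _
  have hfr := repMat_frobCond D hD H b
  have hc : cycP p σ = 1 := cycP_inertia p hq hA hqp hσ
  have hth : D.th σ = castHom D.r ℤ_[p] ((2 : D.TT (↑S : Set ℕ)) : Matrix (Fin D.r) (Fin D.r) ℤ) :=
    th_of_unip hc (rho_inertia_unip HJ hq hqN hq2 hqp hA hσ)
  have htr := trace_of_th S.finite_toSet (NeZero.ne N) hpT (repMat_matCont H.ρ b) hfr hth
  rw [map_ofNat] at htr
  have hdet := det_of_cycP (y := 1) S.finite_toSet (NeZero.ne N) hpT (repMat_matCont H.ρ b) hfr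
    (by rw [hc, Int.cast_one])
  rw [Int.cast_one] at hdet
  have h1 : (repMat H.ρ b σ).charpoly = LinearMap.charpoly (H.ρ.ρ σ) := by
    rw [repMat_apply, LinearMap.charpoly_toMatrix]
  rw [← h1, Matrix.charpoly_fin_two, htr, hdet]
  rw [show (C (2 : T)) = 2 from rfl, C_1]
  ring

end Wrap

end Fermat.Agent.SSMod
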