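import Fermat.Agent.SSMod.EigU
import Fermat.Agent.SSMod.FrobRho
import Fermat.Agent.GalRep.WrapAdic
import Fermat.Agent.AnJac.Link
import Fermat.Agent.Newform.BadPrime
import Fermat.Agent.Newform.Conj

/-!
# S35: Frobenius at Steinberg primes
-/

set_option autoImplicit false
set_option linter.style.haveILetI false
set_option maxHeartbeats 400000
set_option synthInstance.maxHeartbeats 200000

noncomputable section

namespace Fermat.Agent.SSMod

open Fermat.Agent.DefRing IsLocalRing Matrix Fermat.Agent.GalRep Fermat.Agent.GalRep.HData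
open CuspForm Polynomial Fermat.Agent.AnJac Fermat.Agent.HeckeQ
open DSLift (heckeOp)
open ModularFormClass (qCoeff)

local notation "Qbar" => AlgebraicClosure ℚ
local notation "GQ" => Qbar ≃ₐ[ℚ] Qbar

variable {N : ℕ} [NeZero N]

/-- Hecke operators commute -/
theorem heckeOp_comm' {ℓ ℓ' : ℕ} (hℓ : ℓ.Prime) (hℓ' : ℓ'.Prime) :
    heckeOp N 2 hℓ * heckeOp N 2 hℓ' = heckeOp N 2 hℓ' * heckeOp N 2 hℓ := by
  have h := mul_comm
    (⟨_, Newform.heckeOp_mem_heckeAlgebra hℓ (Set.notMem_empty ℓ)⟩ : heckeAlgebra N 2 ∅)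
    (⟨_, Newform.heckeOp_mem_heckeAlgebra hℓ' (Set.notMem_empty ℓ')⟩ : heckeAlgebra N 2 ∅)
  exact congrArg Subtype.val h

/-- polynomials in Hecke operators on eigenforms -/
theorem actS_apply_eigenform {g : CuspForm (CongruenceSubgroup.Gamma0 N) 2}
    (hg : g.IsNormalizedEigenform) {J : Type} (t : J → PrimeT) {C : Subring ℂ} (e : J → C)
    (he : ∀ i, (e i : ℂ) = qCoeff g (t i).1) (P : FreeAlgebra ℤ J) :
    actS N (FreeAlgebra.lift ℤ (fun i => FreeAlgebra.ι ℤ (t i)) P) g =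
      ((FreeAlgebra.lift ℤ e P : C) : ℂ) • g := by
  induction P using FreeAlgebra.induction with
  | grade0 c =>
    rw [AlgHom.commutes, AlgHom.commutes, AlgHom.commutes, eq_intCast, eq_intCast]
    rw [show (((c : ℤ) : Module.End ℂ (CuspForm (CongruenceSubgroup.Gamma0 N) 2)) g) = c • g from
      rfl, show (((c : C) : C) : ℂ) = (c : ℂ) from rfl]
    exact (Int.cast_smul_eq_zsmul ℂ c g).symm
  | grade1 i =>
    rw [FreeAlgebra.lift_ι_apply, FreeAlgebra.lift_ι_apply, actS_ι, he]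
    exact DSLift.heckeOp_apply_of_isNormalizedEigenform N hg (t i).2
  | mul P Q hP hQ =>
    rw [map_mul, map_mul, map_mul, Module.End.mul_apply, hQ, map_smul, hP, smul_smul]
    congr 1
    rw [mul_comm]
    rfl
  | add P Q hP hQ =>
    rw [map_add, map_add, map_add, LinearMap.add_apply, hP, hQ, ← add_smul]
    rfl

/-- homomorphisms on images -/
theorem exists_lift_range {X A C : Type*} [Ring X] [Algebra ℤ X] [Ring A] [Algebra ℤ A] [Ring C]
    (F : X →ₐ[ℤ] A) (G : X →+* C) (h : ∀ x, F x = 0 → G x = 0) :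
    ∃ ψ : F.range →+* C, ∀ (x : X) (y : F.range), F x = y → ψ y = G x := by
  have hker : RingHom.ker F.rangeRestrict.toRingHom ≤ RingHom.ker G := fun x hx =>
    h x (congrArg Subtype.val hx)
  refine ⟨RingHom.liftOfSurjective F.rangeRestrict.toRingHom F.rangeRestrict_surjective
    ⟨G, hker⟩, fun x y hxy => ?_⟩
  have h1 := RingHom.liftOfSurjective_comp_apply F.rangeRestrict.toRingHom
      F.rangeRestrict_surjective ⟨G, hker⟩ x
  have h2 : F.rangeRestrict.toRingHom x = y := Subtype.ext hxy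
  rw [h2] at h1
  exact h1

/-- eigenvectors attached to newforms in the lattice, with prescribed eigenvalue of `U_q` -/
theorem exists_eigvec_newform {g : CuspForm (CongruenceSubgroup.Gamma0 N) 2}
    (hg : g.IsNormalizedEigenform) {J : Type} (t : J → PrimeT) {C : Subring ℂ} (e : J → C)
    (he : ∀ i, (e i : ℂ) = qCoeff g (t i).1) {K : Type} [Field K] [CharZero K] (ι : C →+* K) :
    ∃ v : Fin (Module.finrank ℤ (Lat N)) → K, v ≠ 0 ∧ ∀ i : J,
      castHom _ K (KSys.tm (bL N) (LTot N (t i).1)) *ᵥ v = ι (e i) • v := by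
  set F : FreeAlgebra ℤ J →ₐ[ℤ] Matrix (Fin (Module.finrank ℤ (Lat N)))
      (Fin (Module.finrank ℤ (Lat N))) ℤ :=
    FreeAlgebra.lift ℤ (fun i => KSys.tm (bL N) (LTot N (t i).1)) with hF
  have hFι : ∀ i, F (FreeAlgebra.ι ℤ i) = KSys.tm (bL N) (LTot N (t i).1) :=
    fun i => FreeAlgebra.lift_ι_apply _ _
  set R := F.range with hR
  -- commutativity
  have hcomm : ∀ i j : J, KSys.tm (bL N) (LTot N (t i).1) * KSys.tm (bL N) (LTot N (t j).1) =
      KSys.tm (bL N) (LTot N (t j).1) * KSys.tm (bL N) (LTot N (t i).1) := by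
    intro i j
    have h1 := actL_eq_zero (N := N) (P := FreeAlgebra.ι ℤ (t i) * FreeAlgebra.ι ℤ (t j) -
      FreeAlgebra.ι ℤ (t j) * FreeAlgebra.ι ℤ (t i)) (by
        rw [map_sub, map_mul, map_mul, actS_ι, actS_ι, heckeOp_comm', sub_self])
    have h2 : ∀ i : J, tmA (bL N) (actL N (FreeAlgebra.ι ℤ (t i))) =
        KSys.tm (bL N) (LTot N (t i).1) := by
      intro i
      have : actL N (FreeAlgebra.ι ℤ (t i)) = LTot N (t i).1 :=
        AddMonoidHom.ext fun φ => actL_ι _ φ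
      rw [this]
      rfl
    rw [map_sub, sub_eq_zero] at h1
    have h3 := congrArg (tmA (bL N)) h1
    rw [map_mul, map_mul, map_mul, map_mul] at h3
    rw [← h2, ← h2]
    exact h3
  have hRadj : R = Algebra.adjoin ℤ (Set.range fun i => KSys.tm (bL N) (LTot N (t i).1)) := by
    rw [hR, ← Algebra.map_top, ← FreeAlgebra.adjoin_range_ι, AlgHom.map_adjoin, ← Set.range_comp]
    congr 1
    ext x
    simp only [Set.mem_range, Function.comp_apply, hFι]
  haveI : IsMulCommutative R := by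
    rw [hRadj]
    exact Algebra.isMulCommutative_adjoin ℤ (by
      rintro _ ⟨i, rfl⟩ _ ⟨j, rfl⟩
      exact hcomm i j)
  -- the character
  have hker : ∀ P, F P = 0 → (FreeAlgebra.lift ℤ e : FreeAlgebra ℤ J →ₐ[ℤ] C).toRingHom P = 0 := by
    intro P hP'
    have h1 := lift_tm (bL N) t P
    have h2 : tmA (bL N) (actL N (FreeAlgebra.lift ℤ (fun i => FreeAlgebra.ι ℤ (t i)) P)) = 0 :=
      h1.symm.trans hP'
    have h3 := tmA_injective (bL N) (h2.trans (map_zero (tmA (bL N))).symm)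
    have h4 := actS_apply_eigenform hg t e he P
    rw [actS_eq_zero h3, LinearMap.zero_apply] at h4
    have h5 := (smul_eq_zero.mp h4.symm).resolve_right hg.ne_zero
    exact Subtype.ext h5
  obtain ⟨ψ, hψ'⟩ := exists_lift_range F _ hker
  have hψ : ∀ i, ψ ⟨KSys.tm (bL N) (LTot N (t i).1), ⟨FreeAlgebra.ι ℤ i, hFι i⟩⟩ = e i := by
    intro i
    refine (hψ' (FreeAlgebra.ι ℤ i) _ (hFι i)).trans ?_
    show FreeAlgebra.lift ℤ e (FreeAlgebra.ι ℤ i) = e i
    exact FreeAlgebra.lift_ι_apply _ _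
  obtain ⟨v, hv, hv'⟩ := exists_eigvec R (ι.comp ψ)
  refine ⟨v, hv, fun i => ?_⟩
  have h := hv' ⟨KSys.tm (bL N) (LTot N (t i).1), ⟨FreeAlgebra.ι ℤ i, hFι i⟩⟩
  rw [RingHom.comp_apply, hψ] at h
  exact h

/-- relations extend to torsion-free extensions of `ℤ_p` -/
theorem rel_ext {p : ℕ} [Fact p.Prime] {r q : ℕ} {R U : Matrix (Fin r) (Fin r) ℤ_[p]}
    (H : ∀ x y z : Fin r → ℤ_[p], U *ᵥ (U *ᵥ x) = x → y = R *ᵥ (R *ᵥ x) - x →
      z = R *ᵥ (R *ᵥ y) - (q ^ 2) • y → R *ᵥ (R *ᵥ z) = (q ^ 2) • z)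
    {B : Type} [CommRing B] [IsDomain B] {f : ℤ_[p] →+* B} (hf : Function.Injective f)
    {x y z : Fin r → B}
    (hx : f.mapMatrix U *ᵥ (f.mapMatrix U *ᵥ x) = x)
    (hy : y = f.mapMatrix R *ᵥ (f.mapMatrix R *ᵥ x) - x)
    (hz : z = f.mapMatrix R *ᵥ (f.mapMatrix R *ᵥ y) - ((q : B) ^ 2) • y) :
    f.mapMatrix R *ᵥ (f.mapMatrix R *ᵥ z) = ((q : B) ^ 2) • z := by
  let I : Matrix (Fin r) (Fin r) ℤ_[p] := 1
  have h2 : ∀ w : Fin r → ℤ_[p], (q ^ 2) • w = (q : ℤ_[p]) ^ 2 • w := by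
    intro w
    rw [← Nat.cast_smul_eq_nsmul ℤ_[p], Nat.cast_pow]
  have key := ker_ext hf (N₁ := U * U - 1)
    (N₂ := (R * R - (q : ℤ_[p]) ^ 2 • I) * ((R * R - (q : ℤ_[p]) ^ 2 • I) * (R * R - 1)))
    (fun x hx => by
      rw [Matrix.sub_mulVec, Matrix.one_mulVec, sub_eq_zero, ← Matrix.mulVec_mulVec] at hx
      have h1 := H x _ _ hx rfl rfl
      rw [← Matrix.mulVec_mulVec, ← Matrix.mulVec_mulVec]
      simp only [I, Matrix.sub_mulVec, Matrix.smul_mulVec, Matrix.one_mulVec,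
        ← Matrix.mulVec_mulVec]
      rw [sub_eq_zero]
      simp only [h2] at h1
      exact h1) (v := x) (by
      rw [map_sub, map_mul, map_one, Matrix.sub_mulVec, Matrix.one_mulVec,
        ← Matrix.mulVec_mulVec, hx, sub_self])
  have hI : f.mapMatrix ((q : ℤ_[p]) ^ 2 • I) = (q : B) ^ 2 • (1 : Matrix (Fin r) (Fin r) B) := by
    ext a b
    rw [RingHom.mapMatrix_apply, Matrix.map_apply, Matrix.smul_apply, Matrix.smul_apply,
      smul_eq_mul, smul_eq_mul, map_mul, map_pow, map_natCast]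
    congr 1
    show f ((1 : Matrix (Fin r) (Fin r) ℤ_[p]) a b) = (1 : Matrix (Fin r) (Fin r) B) a b
    rw [Matrix.one_apply, Matrix.one_apply]
    split_ifs <;> simp
  rw [map_mul, map_mul, map_sub, map_sub, map_mul, map_one, hI] at key
  rw [← Matrix.mulVec_mulVec, ← Matrix.mulVec_mulVec] at key
  simp only [Matrix.sub_mulVec, Matrix.smul_mulVec, Matrix.one_mulVec,
        ← Matrix.mulVec_mulVec] at key
  rw [hz, hy]
  exact sub_eq_zero.mp key

/-- clearing denominators in eigenvectors -/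
theorem exists_int_vec {r : ℕ} {B K : Type} [CommRing B] [IsDomain B] [Field K] [Algebra B K]
    [IsFractionRing B K] {J : Type} (M : J → Matrix (Fin r) (Fin r) ℤ) (e : J → B)
    {v : Fin r → K} (hv : v ≠ 0)
    (h : ∀ i, castHom r K (M i) *ᵥ v = algebraMap B K (e i) • v) :
    ∃ w : Fin r → B, w ≠ 0 ∧ ∀ i, castHom r B (M i) *ᵥ w = e i • w := by
  classical
  obtain ⟨d, hd⟩ := IsLocalization.exist_integer_multiples_of_finset (nonZeroDivisors B)
    (Finset.univ.image v)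
  choose w hw using fun i => hd (v i) (Finset.mem_image_of_mem v (Finset.mem_univ i))
  have hinj : Function.Injective (algebraMap B K) := IsFractionRing.injective B K
  have hw' : ∀ i, algebraMap B K (w i) = algebraMap B K d * v i := fun i => by
    rw [hw i, Algebra.smul_def]
  have hd0 : algebraMap B K d ≠ 0 := by
    rw [Ne, map_eq_zero_iff _ hinj]
    exact nonZeroDivisors.coe_ne_zero d
  refine ⟨w, fun h0 => hv ?_, fun i => ?_⟩
  · ext i
    have h1 := hw' i
    rw [h0, Pi.zero_apply, map_zero] at h1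
    exact (mul_eq_zero.mp h1.symm).resolve_left hd0
  · ext a
    apply hinj
    have h1 := congrFun (h i) a
    rw [Matrix.mulVec, dotProduct, Pi.smul_apply, smul_eq_mul] at h1
    rw [Matrix.mulVec, dotProduct, map_sum, Pi.smul_apply, smul_eq_mul, map_mul, hw']
    have h2 : ∑ b, algebraMap B K (castHom r B (M i) a b * w b) =
        algebraMap B K d * ∑ b, castHom r K (M i) a b * v b := by
      rw [Finset.mul_sum]
      refine Finset.sum_congr rfl fun b _ => ?_
      rw [map_mul, hw', castHom_apply, castHom_apply, map_intCast]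
      ring
    rw [h2, h1]
    ring

/-- the trace of Frobenius at a Steinberg prime from an eigenvector -/
theorem trace_of_eigvec {p : ℕ} [Fact p.Prime] {D : HData N p} {S : Set ℕ} (hS : S.Finite)
    {B : Type} [CommRing B] [IsDomain B] [IsLocalRing B] [CharZero B]
    [IsAdicComplete (maximalIdeal B) B] (hp : (p : B) ∈ maximalIdeal B) {π : D.TT S →+* B}
    {T : GQ →* Matrix (Fin 2) (Fin 2) B} (hT : MatCont T) (hπ : FrobCond π T)
    {v : Fin D.r → B} (hv0 : v ≠ 0)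
    (hv : ∀ x : D.TT S, castHom D.r B (x : Matrix (Fin D.r) (Fin D.r) ℤ) *ᵥ v = π x • v)
    {q : ℕ} {σ : GQ} (hc : cycP p σ = (q : ℤ_[p])) {U : Matrix (Fin D.r) (Fin D.r) ℤ_[p]}
    (H : ∀ x y z : Fin D.r → ℤ_[p], U *ᵥ (U *ᵥ x) = x → y = D.ρ σ *ᵥ (D.ρ σ *ᵥ x) - x →
      z = D.ρ σ *ᵥ (D.ρ σ *ᵥ y) - (q ^ 2) • y → D.ρ σ *ᵥ (D.ρ σ *ᵥ z) = (q ^ 2) • z)
    (hU : (padicTo p (maximalIdeal B) hp).mapMatrix U *ᵥ
      ((padicTo p (maximalIdeal B) hp).mapMatrix U *ᵥ v) = v) :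
    (T σ).trace = (q : B) + 1 ∨ (T σ).trace = -((q : B) + 1) := by
  set f := padicTo p (maximalIdeal B) hp with hf
  have hfi : Function.Injective f := padicTo_injective hp
  have h1 := trace_smul_eig hS (NeZero.ne N) hp hT hπ hv σ
  rw [← hf] at h1
  have h2 := rel_ext H hfi hU rfl rfl
  have hΦ : Function.Injective (Matrix.toLin' (f.mapMatrix (D.ρ σ))) := by
    intro a b hab
    have e : ∀ w, f.mapMatrix (D.ρ σ⁻¹) *ᵥ (f.mapMatrix (D.ρ σ) *ᵥ w) = w := by
      intro w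
      rw [Matrix.mulVec_mulVec, ← map_mul, rho_inv_mul, map_one, Matrix.one_mulVec]
    rw [Matrix.toLin'_apply, Matrix.toLin'_apply] at hab
    rw [← e a, hab, e b]
  have h3 : f.mapMatrix (D.ρ σ) *ᵥ (f.mapMatrix (D.ρ σ) *ᵥ v) =
      (T σ).trace • (f.mapMatrix (D.ρ σ) *ᵥ v) - (q : B) • v := by
    rw [← Matrix.mulVec_smul, ← h1, th, map_add, hc]
    have h4 : f.mapMatrix ((q : ℤ_[p]) • D.ρ σ⁻¹) = (q : B) • f.mapMatrix (D.ρ σ⁻¹) := by
      ext a b
      rw [RingHom.mapMatrix_apply, Matrix.map_apply, Matrix.smul_apply, Matrix.smul_apply,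
        smul_eq_mul, smul_eq_mul, map_mul, map_natCast]
      rfl
    rw [h4, Matrix.add_mulVec, Matrix.mulVec_add, Matrix.smul_mulVec, Matrix.mulVec_smul,
      Matrix.mulVec_mulVec (M := f.mapMatrix (D.ρ σ)) (N := f.mapMatrix (D.ρ σ⁻¹)), ← map_mul,
      rho_mul_inv, map_one, Matrix.one_mulVec, add_sub_cancel_right]
  exact trace_eq_of_rel (Matrix.toLin' (f.mapMatrix (D.ρ σ))) hΦ hv0 h3 rfl rfl h2

end Fermat.Agent.SSMod
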