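import Fermat.Agent.GoodRed.Laurent

/-!
# Saturated lattices of integral Laurent series
-/

set_option autoImplicit false
set_option linter.unusedSectionVars false
set_option linter.style.haveILetI false

noncomputable section

namespace Fermat.Agent.SSMod

open ModularCurve Fermat.Agent.GoodRed

local notation "ℒ" => LaurentSeries

/-- the saturation of a group of integral Laurent series -/
def sat (G : Submodule ℤ (ℒ ℤ)) : Submodule ℤ (ℒ ℤ) where
  carrier := {x | ∃ m : ℤ, m ≠ 0 ∧ m • x ∈ G}
  add_mem' := by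
    rintro x y ⟨m, hm, hx⟩ ⟨n, hn, hy⟩
    refine ⟨m * n, mul_ne_zero hm hn, ?_⟩
    rw [smul_add]
    refine G.add_mem ?_ ?_
    · rw [mul_comm, mul_smul]; exact G.smul_mem _ hx
    · rw [mul_smul]; exact G.smul_mem _ hy
  zero_mem' := ⟨1, one_ne_zero, by rw [smul_zero]; exact G.zero_mem⟩
  smul_mem' := by
    rintro a x ⟨m, hm, hx⟩
    exact ⟨m, hm, by rw [smul_comm]; exact G.smul_mem _ hx⟩

theorem le_sat (G : Submodule ℤ (ℒ ℤ)) : G ≤ sat G := fun x hx =>
  ⟨1, one_ne_zero, by rwa [one_smul]⟩

/-- a finite window of coefficients detects the elements of a finite dimensional space -/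
theorem exists_window {L : Type*} [Field L] (W : Submodule L (ℒ L)) [FiniteDimensional L W] :
    ∃ n : ℕ, ∀ x ∈ W, (∀ m : ℤ, m.natAbs ≤ n → x.coeff m = 0) → x = 0 := by
  let V : ℕ → Submodule L W := fun n =>
    { carrier := {x | ∀ m : ℤ, m.natAbs ≤ n → (x : ℒ L).coeff m = 0}
      add_mem' := by
        intro x y hx hy m hm
        rw [Submodule.coe_add, HahnSeries.coeff_add, hx m hm, hy m hm, add_zero]
      zero_mem' := fun m _ => rfl
      smul_mem' := by
        intro a x hx m hm
        rw [Submodule.coe_smul]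
        show a • (x : ℒ L).coeff m = 0
        rw [hx m hm, smul_zero] }
  have hV : ∀ m n, m ≤ n → V n ≤ V m := fun m n hmn x hx j hj => hx j (hj.trans hmn)
  obtain ⟨n, hn⟩ := IsArtinian.monotone_stabilizes
    (⟨fun n => OrderDual.toDual (V n), fun m n hmn => hV m n hmn⟩ : ℕ →o (Submodule L W)ᵒᵈ)
  refine ⟨n, fun x hx h => ?_⟩
  have h1 : (⟨x, hx⟩ : W) ∈ V n := h
  ext m
  by_cases hm : m.natAbs ≤ n
  · exact h m hm
  · have h2 : V n = V m.natAbs := hn m.natAbs (not_le.mp hm).le
    rw [h2] at h1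
    exact h1 m le_rfl

/-- **Saturated bases.** -/
theorem exists_sat_basis (s : Finset (ℒ ℤ)) :
    ∃ (r : ℕ) (e : Fin r → ℒ ℤ), (∀ g ∈ s, ∃ a : Fin r → ℤ, g = ∑ j, a j • e j) ∧
      (∀ j, ∃ m : ℤ, m ≠ 0 ∧ m • e j ∈ Submodule.span ℤ (s : Set (ℒ ℤ))) ∧
      ∀ (q : ℤ) (_ : q ≠ 0) (a : Fin r → ℤ) (h : ℒ ℤ), ∑ j, a j • e j = q • h → ∀ j, q ∣ a j := by
  classical
  set G := Submodule.span ℤ (s : Set (ℒ ℤ)) with hG
  let c : ℒ ℤ →+* ℒ ℚ := coeffMap (Int.castRingHom ℚ)
  have hc : Function.Injective c := coeffMap_injective Int.cast_injective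
  let W : Submodule ℚ (ℒ ℚ) := Submodule.span ℚ (c '' s)
  haveI : FiniteDimensional ℚ W := FiniteDimensional.span_of_finite ℚ (s.finite_toSet.image c)
  have hW : ∀ x ∈ G, c x ∈ W := by
    intro x hx
    induction hx using Submodule.span_induction with
    | mem x hx => exact Submodule.subset_span ⟨x, hx, rfl⟩
    | zero => rw [map_zero]; exact W.zero_mem
    | add x y _ _ hx hy => rw [map_add]; exact W.add_mem hx hy
    | smul a x _ hx =>
      rw [map_zsmul, ← Int.cast_smul_eq_zsmul ℚ]
      exact W.smul_mem _ hx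
  have hWsat : ∀ x ∈ sat G, c x ∈ W := by
    rintro x ⟨m, hm, hx⟩
    have h1 := hW _ hx
    rw [map_zsmul, ← Int.cast_smul_eq_zsmul ℚ] at h1
    have h2 := W.smul_mem ((m : ℚ)⁻¹) h1
    rwa [smul_smul, inv_mul_cancel₀ (by exact_mod_cast hm), one_smul] at h2
  obtain ⟨n, hn⟩ := exists_window W
  let f : sat G →ₗ[ℤ] (Finset.Icc (-(n : ℤ)) n → ℤ) :=
    { toFun := fun x m => (x : ℒ ℤ).coeff m
      map_add' := fun x y => rfl
      map_smul' := fun a x => rfl }
  have hf : Function.Injective f := by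
    rw [injective_iff_map_eq_zero]
    intro x hx
    apply Subtype.ext
    apply hc
    rw [ZeroMemClass.coe_zero, map_zero]
    refine hn _ (hWsat x x.2) fun m hm => ?_
    rw [coeffMap_coeff]
    have := congrFun hx ⟨m, Finset.mem_Icc.mpr (by omega)⟩
    have h1 : (x : ℒ ℤ).coeff m = 0 := this
    rw [h1, map_zero]
  haveI : Module.Finite ℤ (sat G) := Module.Finite.of_injective f hf
  haveI : Module.IsTorsionFree ℤ (ℒ ℤ) := Module.IsTorsionFree.of_smul_eq_zero fun a x h => by
    by_cases ha : a = 0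
    · exact Or.inl ha
    · right
      ext n
      have := congrArg (fun y : ℒ ℤ => y.coeff n) h
      exact (mul_eq_zero.mp (show a * x.coeff n = 0 from this)).resolve_left ha
  haveI : Module.Free ℤ (sat G) := Module.free_of_finite_type_torsion_free'
  let b := Module.finBasis ℤ (sat G)
  refine ⟨_, fun j => (b j : ℒ ℤ), fun g hg => ?_, fun j => (b j).2, fun q hq a h hah j => ?_⟩
  · have hgG : g ∈ sat G := le_sat G (Submodule.subset_span hg)
    refine ⟨fun j => b.repr ⟨g, hgG⟩ j, ?_⟩
    have h1 := congrArg (sat G).subtype (b.sum_repr ⟨g, hgG⟩)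
    rw [map_sum] at h1
    refine (show g = (sat G).subtype ⟨g, hgG⟩ from rfl).trans (h1.symm.trans ?_)
    exact Finset.sum_congr rfl fun j _ => map_smul _ _ _
  · have hh : h ∈ sat G := by
      have h1 : ∑ j, a j • (b j : ℒ ℤ) ∈ sat G := sum_mem fun j _ => (sat G).smul_mem _ (b j).2
      rw [hah] at h1
      obtain ⟨m, hm, hmq⟩ := h1
      exact ⟨m * q, mul_ne_zero hm hq, by rwa [mul_smul]⟩
    have h1 : ∑ j, a j • b j = q • (⟨h, hh⟩ : sat G) := by
      apply Subtype.ext
      rw [AddSubmonoidClass.coe_finsetSum]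
      exact hah
    have h2 := congrArg (fun x => b.repr x j) h1
    simp only [map_smul, Finsupp.smul_apply] at h2
    have h3 : b.repr (∑ j, a j • b j) j = a j := by
      rw [b.repr_sum_self]
    rw [h3] at h2
    exact ⟨_, h2⟩

/-- the saturated basis stays independent over a field of characteristic `q` -/
theorem sat_independent {q : ℕ} [hq : Fact q.Prime] {κ : Type*} [Field κ] [CharP κ q] {r : ℕ}
    {e : Fin r → ℒ ℤ}
    (he : ∀ (a : Fin r → ℤ) (h : ℒ ℤ), ∑ j, a j • e j = (q : ℤ) • h → ∀ j, (q : ℤ) ∣ a j)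
    (γ : Fin r → κ)
    (hγ : ∑ j, HahnSeries.C (γ j) * coeffMap (Int.castRingHom κ) (e j) = 0) (j : Fin r) :
    γ j = 0 := by
  classical
  letI : Algebra (ZMod q) κ := ZMod.algebra κ q
  let β := Module.Basis.ofVectorSpace (ZMod q) κ
  -- coefficients
  have h1 : ∀ n : ℤ, ∑ j, γ j * ((e j).coeff n : κ) = 0 := by
    intro n
    have := congrArg (fun x : ℒ κ => x.coeff n) hγ
    simp only [HahnSeries.coeff_zero] at this
    rw [← this]
    have h2 : ∀ s : Finset (Fin r), (∑ j ∈ s, HahnSeries.C (γ j) *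
        coeffMap (Int.castRingHom κ) (e j)).coeff n = ∑ j ∈ s, γ j * ((e j).coeff n : κ) := by
      intro s
      induction s using Finset.induction_on with
      | empty => rfl
      | insert a s ha ih =>
        rw [Finset.sum_insert ha, Finset.sum_insert ha, HahnSeries.coeff_add, ih]
        congr 1
        exact HahnSeries.coeff_single_zero_mul
    rw [h2]
  have h2 : ∀ b, ∀ n : ℤ, ∑ j, β.repr (γ j) b * ((e j).coeff n : ZMod q) = 0 := by
    intro b n
    have h3 := congrArg (fun x => β.repr x b) (h1 n)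
    simp only [map_sum, Finsupp.coe_finsetSum, Finset.sum_apply, map_zero, Finsupp.zero_apply] at h3
    rw [← h3]
    refine Finset.sum_congr rfl fun j _ => ?_
    have h4 : γ j * (((e j).coeff n : ℤ) : κ) = (((e j).coeff n : ℤ) : ZMod q) • γ j := by
      rw [Algebra.smul_def, map_intCast, mul_comm]
    rw [h4, map_smul, Finsupp.smul_apply, smul_eq_mul, mul_comm]
  have h3 : ∀ b j, β.repr (γ j) b = 0 := by
    intro b
    choose a ha using fun j => ZMod.intCast_surjective (β.repr (γ j) b)
    have h4 : ∀ n : ℤ, (q : ℤ) ∣ (∑ j, a j • e j).coeff n := by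
      intro n
      rw [← ZMod.intCast_zmod_eq_zero_iff_dvd]
      have h5 : (∑ j, a j • e j).coeff n = ∑ j, a j * (e j).coeff n := by
        have : ∀ s : Finset (Fin r), (∑ j ∈ s, a j • e j).coeff n =
            ∑ j ∈ s, a j * (e j).coeff n := by
          intro s
          induction s using Finset.induction_on with
          | empty => rfl
          | insert c s hc ih =>
            rw [Finset.sum_insert hc, Finset.sum_insert hc, HahnSeries.coeff_add, ih]
            rfl
        exact this _
      rw [h5]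
      push_cast
      rw [← h2 b n]
      exact Finset.sum_congr rfl fun j _ => by rw [ha]
    choose d hd using h4
    have hq0 : (q : ℤ) ≠ 0 := by exact_mod_cast hq.out.ne_zero
    let h : ℒ ℤ := ⟨d, by
      refine (∑ j, a j • e j : ℒ ℤ).isPWO_support'.mono fun n hn => ?_
      rw [Function.mem_support] at hn ⊢
      intro h0
      apply hn
      have := hd n
      rw [h0] at this
      exact (mul_eq_zero.mp this.symm).resolve_left hq0⟩
    have h6 : ∑ j, a j • e j = (q : ℤ) • h := by
      ext n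
      rw [hd n]
      rfl
    intro j
    rw [← ha j]
    have := he a h h6 j
    exact (ZMod.intCast_zmod_eq_zero_iff_dvd _ _).mpr this
  apply β.repr.injective
  ext b
  rw [h3 b j, map_zero]
  rfl

end Fermat.Agent.SSMod
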