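import Fermat.Agent.SSMod.Sat

/-!
# Scaling of Laurent series with coefficients in a constant extension
-/

set_option autoImplicit false
set_option linter.unusedSectionVars false
set_option linter.style.haveILetI false

noncomputable section

namespace Fermat.Agent.SSMod

open ModularCurve Fermat.Agent.GoodRed

local notation "ℒ" => LaurentSeries

section PS

variable {K : Type*} [Field K]

/-- the inclusion of integral series -/
abbrev zK (K : Type*) [CommRing K] : ℒ ℤ →+* ℒ K := coeffMap (Int.castRingHom K)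

/-- monomials -/
def PSmon (L : Subfield K) : Submonoid (ℒ K) where
  carrier := {f | ∃ c ∈ L, ∃ g : ℒ ℤ, f = HahnSeries.C c * zK K g}
  mul_mem' := by
    rintro _ _ ⟨c, hc, g, rfl⟩ ⟨d, hd, h, rfl⟩
    exact ⟨c * d, mul_mem hc hd, g * h, by rw [map_mul, map_mul]; ring⟩
  one_mem' := ⟨1, one_mem _, 1, by rw [map_one, map_one, one_mul]⟩

/-- `L`-linear combinations of integral Laurent series -/
def PS (L : Subfield K) : Subring (ℒ K) := Subring.closure (PSmon L : Set (ℒ K))

variable {L : Subfield K}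

theorem C_mem_PS {c : K} (hc : c ∈ L) : (HahnSeries.C c : ℒ K) ∈ PS L :=
  Subring.subset_closure ⟨c, hc, 1, by rw [map_one, mul_one]⟩

theorem zK_mem_PS (g : ℒ ℤ) : zK K g ∈ PS L :=
  Subring.subset_closure ⟨1, one_mem _, g, by rw [map_one, one_mul]⟩

theorem exists_list_rep {f : ℒ K} (hf : f ∈ PS L) :
    ∃ l : List (K × ℒ ℤ), (∀ p ∈ l, p.1 ∈ L) ∧
      f = (l.map fun p => HahnSeries.C p.1 * zK K p.2).sum := by
  rw [PS, Subring.mem_closure_iff, Submonoid.closure_eq] at hf
  induction hf using AddSubgroup.closure_induction with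
  | mem x hx =>
    obtain ⟨c, hc, g, rfl⟩ := hx
    exact ⟨[(c, g)], by simpa using hc, by simp⟩
  | zero => exact ⟨[], by simp, by simp⟩
  | add x y _ _ hx hy =>
    obtain ⟨l, hl, rfl⟩ := hx
    obtain ⟨l', hl', rfl⟩ := hy
    exact ⟨l ++ l', fun p hp => (List.mem_append.mp hp).elim (hl p) (hl' p), by
      rw [List.map_append, List.sum_append]⟩
  | neg x _ hx =>
    obtain ⟨l, hl, rfl⟩ := hx
    refine ⟨l.map fun p => (-p.1, p.2), fun p hp => ?_, ?_⟩
    · obtain ⟨p', hp', rfl⟩ := List.mem_map.mp hp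
      exact neg_mem (hl p' hp')
    · rw [List.map_map]
      rename_i hmem
      clear hl hmem
      induction l with
      | nil => simp
      | cons p l ih =>
        rw [List.map_cons, List.sum_cons, List.map_cons, List.sum_cons, neg_add, ih]
        simp

theorem exists_sat_rep {f : ℒ K} (hf : f ∈ PS L) :
    ∃ (r : ℕ) (e : Fin r → ℒ ℤ) (c : Fin r → K), (∀ j, c j ∈ L) ∧
      f = ∑ j, HahnSeries.C (c j) * zK K (e j) ∧
      ∀ (q : ℤ) (_ : q ≠ 0) (a : Fin r → ℤ) (h : ℒ ℤ), ∑ j, a j • e j = q • h → ∀ j, q ∣ a j := by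
  classical
  obtain ⟨l, hl, rfl⟩ := exists_list_rep hf
  obtain ⟨r, e, he1, -, he2⟩ := exists_sat_basis (l.map Prod.snd).toFinset
  have he1' : ∀ p ∈ l, ∃ a : Fin r → ℤ, p.2 = ∑ j, a j • e j := fun p hp =>
    he1 p.2 (List.mem_toFinset.mpr (List.mem_map_of_mem hp))
  clear he1 hf
  suffices h : ∃ c : Fin r → K, (∀ j, c j ∈ L) ∧
      (l.map fun p => HahnSeries.C p.1 * zK K p.2).sum =
        ∑ j, HahnSeries.C (c j) * zK K (e j) by
    obtain ⟨c, hc, h⟩ := h
    exact ⟨r, e, c, hc, h, he2⟩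
  induction l with
  | nil => exact ⟨0, fun j => zero_mem _, by simp⟩
  | cons p l ih =>
    obtain ⟨c, hc, h⟩ := ih (fun p' hp' => hl p' (List.mem_cons_of_mem _ hp'))
      fun p' hp' => he1' p' (List.mem_cons_of_mem _ hp')
    obtain ⟨a, ha⟩ := he1' p List.mem_cons_self
    refine ⟨fun j => p.1 * a j + c j, fun j => add_mem (mul_mem (hl p List.mem_cons_self)
      (intCast_mem _ _)) (hc j), ?_⟩
    rw [List.map_cons, List.sum_cons, h, ha, map_sum, Finset.mul_sum, ← Finset.sum_add_distrib]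
    refine Finset.sum_congr rfl fun j _ => ?_
    rw [map_zsmul, map_add, map_mul, add_mul, map_intCast, zsmul_eq_mul]
    ring

end PS

variable {K κ : Type*} [Field K] [Field κ] {A : ValuationSubring K}
  (π : A →+* κ)

theorem coeffMap_zK {R S : Type*} [CommRing R] [CommRing S] (f : R →+* S) (e : ℒ ℤ) :
    coeffMap f (zK R e) = zK S e := by
  rw [zK, zK, coeffMap_coeffMap]
  congr 2
  exact RingHom.ext_int _ _

theorem coeffMap_C' {R S : Type*} [CommRing R] [CommRing S] (f : R →+* S) (r : R) :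
    coeffMap f (HahnSeries.C r) = HahnSeries.C (f r) := coeffMap_single f 0 r

/-- **Scaling.** -/
theorem exists_scale_PS {q : ℕ} [Fact q.Prime] [CharP κ q] {L : Subfield K} {f : ℒ K}
    (hf : f ∈ PS L) (hf0 : f ≠ 0) :
    ∃ c ∈ L, ∃ (g : ℒ A), c ≠ 0 ∧ coeffMap A.subtype g = HahnSeries.C c * f ∧
      coeffMap π g ≠ 0 := by
  classical
  obtain ⟨r, e, c, hcL, hfc, he⟩ := exists_sat_rep hf
  obtain ⟨j₁, hj₁⟩ : ∃ j, c j ≠ 0 := by
    by_contra! h
    apply hf0
    rw [hfc]
    exact Finset.sum_eq_zero fun j _ => by rw [h j, map_zero, zero_mul]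
  obtain ⟨j₀, -, hj₀⟩ := Finset.exists_max_image Finset.univ
    (fun j => A.valuation (c j)) ⟨j₁, Finset.mem_univ _⟩
  have hc0 : c j₀ ≠ 0 := by
    intro h
    have h1 := hj₀ j₁ (Finset.mem_univ _)
    rw [h, map_zero, le_zero_iff, map_eq_zero] at h1
    exact hj₁ h1
  have hmem : ∀ j, (c j₀)⁻¹ * c j ∈ A := by
    intro j
    rw [← A.valuation_le_one_iff, map_mul, map_inv₀, mul_comm,
      ← div_eq_mul_inv]
    exact div_le_one_of_le₀ (hj₀ j (Finset.mem_univ _)) zero_le
  let d : Fin r → A := fun j => ⟨_, hmem j⟩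
  refine ⟨(c j₀)⁻¹, inv_mem (hcL j₀), ∑ j, HahnSeries.C (d j) * zK A (e j), inv_ne_zero hc0, ?_,
    fun h => ?_⟩
  · rw [map_sum, hfc, Finset.mul_sum]
    refine Finset.sum_congr rfl fun j _ => ?_
    rw [map_mul, coeffMap_zK, coeffMap_C', ← mul_assoc, ← map_mul]
    rfl
  · rw [map_sum] at h
    have h1 : ∀ j, coeffMap π (HahnSeries.C (d j) * zK A (e j)) =
        HahnSeries.C (π (d j)) * coeffMap (Int.castRingHom κ) (e j) := by
      intro j
      rw [map_mul, coeffMap_zK, coeffMap_C']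
    rw [Finset.sum_congr rfl fun j _ => h1 j] at h
    have hq : (q : ℤ) ≠ 0 := by exact_mod_cast (Fact.out : q.Prime).ne_zero
    have h2 := sat_independent (q := q) (fun a h => he q hq a h) _ h j₀
    have h3 : d j₀ = 1 := Subtype.ext (by
      show (c j₀)⁻¹ * c j₀ = 1
      rw [inv_mul_cancel₀ hc0])
    rw [h3, map_one] at h2
    exact one_ne_zero h2

end Fermat.Agent.SSMod
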